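import Fermat.Agent.Igusa.ModPolyComplex

/-!
# The classical modular polynomial of prime level
-/

set_option autoImplicit false

noncomputable section

open HahnSeries ModularCurve

namespace FLTA.Igusa

/-- A classical modular polynomial of prime level `p`: the defining properties. -/
def IsModPoly (p : ℕ) [NeZero p] (Φ : Polynomial (Polynomial ℤ)) : Prop :=
  Φ.Monic ∧ Φ.natDegree = p + 1 ∧
    ∀ (R : Type) [CommRing R] [IsDomain R] (ζ : Rˣ), IsPrimitiveRoot ζ p →
      Φ.map (Polynomial.aeval (R := ℤ) (qExpand R p (jqModC R))).toRingHom =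
        (Polynomial.X - Polynomial.C (qExpand R (p * p) (jqModC R))) *
          ∏ i ∈ Finset.range p, (Polynomial.X - Polynomial.C (jAt (ζ ^ i) 1))

theorem exists_isModPoly (p : ℕ) [NeZero p] (hp : p.Prime) :
    ∃ Φ : Polynomial (Polynomial ℤ), IsModPoly p Φ := by
  have hprim := Complex.isPrimitiveRoot_exp p (NeZero.ne p)
  set ζC : ℂˣ := (hprim.isUnit (NeZero.ne p)).unit
  have hζC : IsPrimitiveRoot ζC p := IsPrimitiveRoot.coe_units_iff.mp hprim
  obtain ⟨Φ, hm, hd, hΦ⟩ := exists_modPoly_complex p hp hζC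
  refine ⟨Φ, hm, hd, fun R _ _ ζ hζ => ?_⟩
  -- the universal ring `ℤ[ζ_p]`
  let f := Polynomial.cyclotomic p ℤ
  have hroot : ∀ (S : Type) [CommRing S] [IsDomain S] (z : Sˣ), IsPrimitiveRoot z p →
      f.eval₂ (Int.castRingHom S) (z : S) = 0 := by
    intro S _ _ z hz
    rw [Polynomial.eval₂_eq_eval_map, Polynomial.map_cyclotomic]
    exact (IsPrimitiveRoot.coe_units_iff.mpr hz).isRoot_cyclotomic hp.pos
  let ι : AdjoinRoot f →+* ℂ := AdjoinRoot.lift _ _ (hroot ℂ ζC hζC)
  let π : AdjoinRoot f →+* R := AdjoinRoot.lift _ _ (hroot R ζ hζ)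
  have hι : Function.Injective ι := by
    refine (injective_iff_map_eq_zero ι).mpr fun a ha => ?_
    obtain ⟨g, rfl⟩ := AdjoinRoot.mk_surjective a
    rw [AdjoinRoot.lift_mk] at ha
    rw [AdjoinRoot.mk_eq_zero, show f = Polynomial.cyclotomic p ℤ from rfl,
      Polynomial.cyclotomic_eq_minpoly (IsPrimitiveRoot.coe_units_iff.mpr hζC) hp.pos]
    exact minpoly.isIntegrallyClosed_dvd
      ((IsPrimitiveRoot.coe_units_iff.mpr hζC).isIntegral hp.pos) ha
  have hzp : (AdjoinRoot.root f) ^ p = 1 := hι (by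
    rw [map_pow, map_one, AdjoinRoot.lift_root]
    rw [← Units.val_pow_eq_pow_val, hζC.pow_eq_one, Units.val_one])
  let z : (AdjoinRoot f)ˣ := Units.ofPowEqOne _ p hzp (NeZero.ne p)
  have hzι : Units.map (ι : AdjoinRoot f →* ℂ) z = ζC :=
    Units.ext (AdjoinRoot.lift_root (hroot ℂ ζC hζC))
  have hzπ : Units.map (π : AdjoinRoot f →* R) z = ζ :=
    Units.ext (AdjoinRoot.lift_root (hroot R ζ hζ))
  have hA : Φ.map (evalJp (AdjoinRoot f) p) = rootProd (AdjoinRoot f) p z := by
    refine Polynomial.map_injective (coeffMap ι) ?_ ?_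
    · intro x y hxy
      exact HahnSeries.ext (funext fun n => hι (congrArg (fun w => w.coeff n) hxy))
    · rw [Polynomial.map_map, coeffMap_comp_evalJp, map_rootProd, hzι, hΦ]
  have := congrArg (Polynomial.map (coeffMap π)) hA
  rw [Polynomial.map_map, coeffMap_comp_evalJp, map_rootProd, hzπ] at this
  exact this

/-- The modular polynomial of prime level `p`. -/
def modPoly (p : ℕ) [NeZero p] (hp : p.Prime) : Polynomial (Polynomial ℤ) :=
  (exists_isModPoly p hp).choose

theorem isModPoly_modPoly (p : ℕ) [NeZero p] (hp : p.Prime) : IsModPoly p (modPoly p hp) :=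
  (exists_isModPoly p hp).choose_spec

theorem modPoly_monic (p : ℕ) [NeZero p] (hp : p.Prime) : (modPoly p hp).Monic :=
  (isModPoly_modPoly p hp).1

theorem modPoly_natDegree (p : ℕ) [NeZero p] (hp : p.Prime) :
    (modPoly p hp).natDegree = p + 1 :=
  (isModPoly_modPoly p hp).2.1

variable {K : Type} [Field K]

theorem modPoly_map_jAt (p : ℕ) [NeZero p] (hp : p.Prime) {ζ : Kˣ} (hζ : IsPrimitiveRoot ζ p)
    (c : Kˣ) (e : ℕ) [NeZero e] :
    (modPoly p hp).map (Polynomial.aeval (R := ℤ) (jAt (c ^ p) (e * p))).toRingHom =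
      (Polynomial.X - Polynomial.C (jAt (c ^ (p * p)) (e * (p * p)))) *
        ∏ i ∈ Finset.range p, (Polynomial.X - Polynomial.C (jAt (c * ζ ^ i) e)) := by
  have h := congrArg (Polynomial.map ((qExpand K e).comp (twist c)))
    ((isModPoly_modPoly p hp).2.2 K ζ hζ)
  have h2 : twist c (qExpand K p (jqModC K)) = qExpand K p (twist (c ^ p) (jqModC K)) :=
    twist_qExpand c p _
  have hev : ((qExpand K e).comp (twist c)).comp
        (Polynomial.aeval (R := ℤ) (qExpand K p (jqModC K))).toRingHom =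
      (Polynomial.aeval (R := ℤ) (jAt (c ^ p) (e * p))).toRingHom := by
    refine Polynomial.ringHom_ext' (RingHom.ext_int _ _) ?_
    simp [jAt, h2, qExpand_qExpand]
  rw [Polynomial.map_map, hev, Polynomial.map_mul, Polynomial.map_prod] at h
  rw [h]
  simp only [Polynomial.map_sub, Polynomial.map_X, Polynomial.map_C, RingHom.comp_apply,
    twist_qExpand, twist_twist, jAt, qExpand_qExpand, pow_one, mul_one, qExpand_one_apply]

theorem eval₂_aeval_eq_zero (x y : ∀ (S : Type) [CommRing S], LaurentSeries S)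
    (hx : ∀ {S T : Type} [CommRing S] [CommRing T] (φ : S →+* T), coeffMap φ (x S) = x T)
    (hy : ∀ {S T : Type} [CommRing S] [CommRing T] (φ : S →+* T), coeffMap φ (y S) = y T)
    (Φ : Polynomial (Polynomial ℤ))
    (hC : Φ.eval₂ (Polynomial.aeval (R := ℤ) (x ℂ)).toRingHom (y ℂ) = 0)
    (R : Type) [CommRing R] :
    Φ.eval₂ (Polynomial.aeval (R := ℤ) (x R)).toRingHom (y R) = 0 := by
  have key : ∀ {S T : Type} [CommRing S] [CommRing T] (φ : S →+* T),
      coeffMap φ (Φ.eval₂ (Polynomial.aeval (R := ℤ) (x S)).toRingHom (y S)) =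
        Φ.eval₂ (Polynomial.aeval (R := ℤ) (x T)).toRingHom (y T) := by
    intro S T _ _ φ
    rw [Polynomial.hom_eval₂, hy φ]
    congr 1
    refine Polynomial.ringHom_ext' (RingHom.ext_int _ _) ?_
    simp [hx φ]
  have hZ : Φ.eval₂ (Polynomial.aeval (R := ℤ) (x ℤ)).toRingHom (y ℤ) = 0 := by
    have hinj : Function.Injective (coeffMap (Int.castRingHom ℂ)) := fun a b hab =>
      HahnSeries.ext (funext fun n => Int.cast_injective (congrArg (fun w => w.coeff n) hab))
    apply hinj
    rw [key, hC, map_zero]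
  rw [← key (Int.castRingHom R), hZ, map_zero]

/-- `Φ_p(j(q), j(q^p)) = 0` over any commutative ring. -/
theorem modPoly_eval_jp (R : Type) [CommRing R] (p : ℕ) [NeZero p] (hp : p.Prime) :
    (modPoly p hp).eval₂ (Polynomial.aeval (R := ℤ) (jqModC R)).toRingHom (jqNModC R p) = 0 := by
  have hprim := Complex.isPrimitiveRoot_exp p (NeZero.ne p)
  set ζC : ℂˣ := (hprim.isUnit (NeZero.ne p)).unit
  have hζC : IsPrimitiveRoot ζC p := IsPrimitiveRoot.coe_units_iff.mp hprim
  have hC : (modPoly p hp).eval₂ (Polynomial.aeval (R := ℤ) (jqModC ℂ)).toRingHom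
      (jqNModC ℂ p) = 0 := by
    apply qExpand_injective (R := ℂ) p
    have hev : (qExpand ℂ p).comp (Polynomial.aeval (R := ℤ) (jqModC ℂ)).toRingHom =
        (Polynomial.aeval (R := ℤ) (qExpand ℂ p (jqModC ℂ))).toRingHom :=
      Polynomial.ringHom_ext' (RingHom.ext_int _ _) (by simp)
    rw [map_zero, Polynomial.hom_eval₂, hev, jqNModC, qExpand_qExpand,
      Polynomial.eval₂_eq_eval_map, (isModPoly_modPoly p hp).2.2 ℂ ζC hζC]
    simp
  exact eval₂_aeval_eq_zero (fun S _ => jqModC S) (fun S _ => jqNModC S p)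
    (fun φ => coeffMap_jqModC φ) (fun φ => coeffMap_jqNModC φ p) _ hC R

/-- `Φ_p(j(q^p), j(q)) = 0` over any commutative ring. -/
theorem modPoly_eval_jp_swap (R : Type) [CommRing R] (p : ℕ) [NeZero p] (hp : p.Prime) :
    (modPoly p hp).eval₂ (Polynomial.aeval (R := ℤ) (jqNModC R p)).toRingHom (jqModC R) = 0 := by
  have hprim := Complex.isPrimitiveRoot_exp p (NeZero.ne p)
  set ζC : ℂˣ := (hprim.isUnit (NeZero.ne p)).unit
  have hζC : IsPrimitiveRoot ζC p := IsPrimitiveRoot.coe_units_iff.mp hprim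
  have hC : (modPoly p hp).eval₂ (Polynomial.aeval (R := ℤ) (jqNModC ℂ p)).toRingHom
      (jqModC ℂ) = 0 := by
    rw [jqNModC, Polynomial.eval₂_eq_eval_map, (isModPoly_modPoly p hp).2.2 ℂ ζC hζC,
      Polynomial.eval_mul, Polynomial.eval_prod]
    refine mul_eq_zero_of_right _ (Finset.prod_eq_zero (Finset.mem_range.mpr hp.pos) ?_)
    simp [jAt_one_one]
  exact eval₂_aeval_eq_zero (fun S _ => jqNModC S p) (fun S _ => jqModC S)
    (fun φ => coeffMap_jqNModC φ p) (fun φ => coeffMap_jqModC φ) _ hC R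

end FLTA.Igusa
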