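/-
An element whose multiples by two coprime scalars are integral is integral.
-/
import Mathlib

set_option autoImplicit false

noncomputable section

namespace FLTA.Igusa

open Polynomial

variable {R F : Type*} [CommRing R] [IsDomain R] [UniqueFactorizationMonoid R] [Field F]
  [Algebra R F]

/-- The minimal polynomial of a scalar multiple. -/
theorem minpoly_algebraMap_mul {K : Type*} [Field K] [Algebra K F] {x : F} (hx : IsIntegral K x)
    {c : K} (hc : c ≠ 0) :
    minpoly K (algebraMap K F c * x) = (minpoly K x).scaleRoots c := by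
  refine (minpoly.unique K _ ((monic_scaleRoots_iff c).mpr (minpoly.monic hx))
    (scaleRoots_aeval_eq_zero (minpoly.aeval K x)) fun q hq hq0 => ?_).symm
  have h : aeval x (q.scaleRoots c⁻¹) = 0 := by
    have h1 := scaleRoots_aeval_eq_zero (r := c⁻¹) hq0
    rwa [← mul_assoc, ← map_mul, inv_mul_cancel₀ hc, map_one, one_mul] at h1
  have hle := minpoly.min K x ((monic_scaleRoots_iff c⁻¹).mpr hq) h
  rw [degree_scaleRoots] at hle ⊢
  exact hle

theorem isIntegral_of_isIntegral_mul (hinj : Function.Injective (algebraMap R F)) {x : F}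
    {a b : R} (hab : IsRelPrime a b) (ha : a ≠ 0) (hb : b ≠ 0)
    (hax : IsIntegral R (algebraMap R F a * x)) (hbx : IsIntegral R (algebraMap R F b * x)) :
    IsIntegral R x := by
  haveI : FaithfulSMul R F := (faithfulSMul_iff_algebraMap_injective R F).mpr hinj
  let K := FractionRing R
  letI : Algebra K F := FractionRing.liftAlgebra R F
  have hmap : ∀ r : R, algebraMap K F (algebraMap R K r) = algebraMap R F r := fun r =>
    (IsScalarTower.algebraMap_apply R K F r).symm
  have hne : ∀ {c : R}, c ≠ 0 → algebraMap R K c ≠ 0 := fun h h0 =>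
    h (IsFractionRing.injective R K (h0.trans (map_zero _).symm))
  have hx : IsIntegral K x := by
    have h1 : IsIntegral K (algebraMap R F a * x) := hax.tower_top
    have h2 : x = algebraMap K F ((algebraMap R K a)⁻¹) * (algebraMap R F a * x) := by
      rw [← hmap, ← mul_assoc, ← map_mul, inv_mul_cancel₀ (hne ha), map_one, one_mul]
    rw [h2]
    exact isIntegral_algebraMap.mul h1
  set m := minpoly K x with hm
  have key : ∀ {c : R}, c ≠ 0 → IsIntegral R (algebraMap R F c * x) → ∀ i,
      ∃ r : R, algebraMap R K r = m.coeff i * algebraMap R K c ^ (m.natDegree - i) := by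
    intro c hc hcx i
    have h := minpoly.isIntegrallyClosed_eq_field_fractions' K hcx
    rw [← hmap c, minpoly_algebraMap_mul hx (hne hc)] at h
    refine ⟨(minpoly R (algebraMap K F (algebraMap R K c) * x)).coeff i, ?_⟩
    rw [← coeff_map, ← h, coeff_scaleRoots]
  have hcoeff : ∀ i, ∃ r : R, algebraMap R K r = m.coeff i := by
    intro i
    obtain ⟨r, hr⟩ := key ha hax i
    obtain ⟨s, hs⟩ := key hb hbx i
    have heq : r * b ^ (m.natDegree - i) = s * a ^ (m.natDegree - i) := by
      refine IsFractionRing.injective R K ?_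
      rw [map_mul, map_mul, map_pow, map_pow, hr, hs]
      ring
    obtain ⟨u, hu⟩ : a ^ (m.natDegree - i) ∣ r :=
      (hab.pow).dvd_of_dvd_mul_right ⟨s, by rw [heq, mul_comm]⟩
    refine ⟨u, mul_right_cancel₀ (pow_ne_zero (m.natDegree - i) (hne ha)) ?_⟩
    rw [← hr, hu, map_mul, map_pow, mul_comm]
  have hl : m ∈ Polynomial.lifts (algebraMap R K) :=
    (Polynomial.lifts_iff_coeff_lifts m).mpr fun i => hcoeff i
  obtain ⟨q, hq, -, hqm⟩ := Polynomial.lifts_and_natDegree_eq_and_monic hl (minpoly.monic hx)
  refine ⟨q, hqm, ?_⟩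
  rw [← aeval_def, ← aeval_map_algebraMap K, hq, minpoly.aeval]

end FLTA.Igusa
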