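import Fermat.Agent.Igusa.Theta
import Fermat.Agent.Bridge.JExpansion

/-!
# The norm identity for the Euler product

`∏_{i < p} Δ(ζ^i t) · Δ(t^(p²)) = u · Δ(t^p)^(p+1)`.
-/

set_option autoImplicit false

noncomputable section

open ModularCurve HahnSeries

namespace FLTA.Igusa

variable (R : Type*) [CommRing R]

/-- Partial Euler product. -/
def eulerTrunc (M : ℕ) : PowerSeries R := ∏ k ∈ Finset.range M, (1 - PowerSeries.X ^ (k + 1))

/-- The Euler product over `R`. -/
def eulerPS : PowerSeries R := etaProd.map (Int.castRingHom R)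

theorem eulerTrunc_dvd_sub {M M' : ℕ} (h : M ≤ M') :
    (PowerSeries.X : PowerSeries R) ^ (M + 1) ∣ eulerTrunc R M' - eulerTrunc R M := by
  induction M', h using Nat.le_induction with
  | base => simp
  | succ n hn ih =>
    have : eulerTrunc R (n + 1) - eulerTrunc R M =
        (eulerTrunc R n - eulerTrunc R M) - PowerSeries.X ^ (n + 1) * eulerTrunc R n := by
      rw [eulerTrunc, eulerTrunc, eulerTrunc, Finset.prod_range_succ]
      ring
    rw [this]
    exact dvd_sub ih (dvd_mul_of_dvd_left (pow_dvd_pow _ (by omega)) _)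

theorem eulerPS_dvd_sub (M : ℕ) :
    (PowerSeries.X : PowerSeries R) ^ (M + 1) ∣ eulerPS R - eulerTrunc R M := by
  have hZ : (PowerSeries.X : PowerSeries ℤ) ^ (M + 1) ∣ etaProd - eulerTrunc ℤ M := by
    rw [PowerSeries.X_pow_dvd_iff]
    intro m hm
    obtain ⟨M', hM', hMM'⟩ :=
      ((FLTA.Bridge.eulerPartial_coeff_eventually m).and (Filter.eventually_ge_atTop M)).exists
    have hcoe : ((FLTA.Bridge.eulerPartial M' : Polynomial ℤ) : PowerSeries ℤ) =
        eulerTrunc ℤ M' := by
      rw [FLTA.Bridge.eulerPartial, ← Polynomial.coeToPowerSeries.ringHom_apply, map_prod]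
      simp [eulerTrunc]
    have h1 : PowerSeries.coeff m etaProd = PowerSeries.coeff m (eulerTrunc ℤ M') := by
      rw [← hM', ← Polynomial.coeff_coe, hcoe]
    have h2 := (PowerSeries.X_pow_dvd_iff.mp (eulerTrunc_dvd_sub ℤ hMM')) m hm
    rw [map_sub] at h2 ⊢
    rw [h1, h2]
  have := map_dvd (PowerSeries.map (Int.castRingHom R)) hZ
  simpa [eulerPS, eulerTrunc, map_prod] using this

variable {R}

theorem prod_one_sub_pow_mul [IsDomain R] {p : ℕ} [NeZero p] {ω : R} (hω : IsPrimitiveRoot ω p)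
    (y : R) : ∏ i ∈ Finset.range p, (1 - ω ^ i * y) = 1 - y ^ p := by
  have h := congrArg (Polynomial.eval (1 : R))
    (_root_.X_pow_sub_C_eq_prod hω (NeZero.pos p) (α := y) (a := y ^ p) rfl)
  simpa [Polynomial.eval_multiset_prod, Polynomial.eval_prod, IsPrimitiveRoot.nthRoots_eq hω,
    Multiset.map_map, Finset.prod] using h.symm

theorem prod_filter_dvd_succ {β : Type*} [CommMonoid β] (p L : ℕ) (hp : 0 < p) (f : ℕ → β) :
    ∏ k ∈ (Finset.range (p * L)).filter (fun k => p ∣ k + 1), f (k + 1) =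
      ∏ j ∈ Finset.range L, f (p * (j + 1)) := by
  symm
  refine Finset.prod_nbij' (fun j => p * (j + 1) - 1) (fun k => (k + 1) / p - 1) ?_ ?_ ?_ ?_ ?_
  · intro j hj
    simp only [Finset.mem_range] at hj
    have h1 : p * (j + 1) ≤ p * L := Nat.mul_le_mul_left p hj
    have h2 : 0 < p * (j + 1) := Nat.mul_pos hp (Nat.succ_pos j)
    simp only [Finset.mem_coe, Finset.mem_filter, Finset.mem_range, Finset.coe_filter, Set.mem_ofPred_eq]
    refine ⟨by omega, ?_⟩
    rw [Nat.sub_add_cancel h2]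
    exact dvd_mul_right _ _
  · intro k hk
    simp only [Finset.mem_coe, Finset.mem_filter, Finset.mem_range, Finset.coe_filter, Set.mem_ofPred_eq] at hk
    obtain ⟨hk, ⟨c, hc⟩⟩ := hk
    simp only [Finset.mem_coe, Finset.mem_range, Finset.coe_range, Set.mem_Iio, hc, Nat.mul_div_cancel_left _ hp]
    have : p * c ≤ p * L := by omega
    have := Nat.le_of_mul_le_mul_left this hp
    rcases Nat.eq_zero_or_pos c with h | h
    · subst h; simp at hc
    · omega
  · intro j _
    have h2 : 0 < p * (j + 1) := Nat.mul_pos hp (Nat.succ_pos j)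
    simp only [Nat.sub_add_cancel h2, Nat.mul_div_cancel_left _ hp]
    omega
  · intro k hk
    simp only [Finset.mem_coe, Finset.mem_filter, Finset.mem_range, Finset.coe_filter, Set.mem_ofPred_eq] at hk
    obtain ⟨-, ⟨c, hc⟩⟩ := hk
    simp only [hc, Nat.mul_div_cancel_left _ hp]
    rcases Nat.eq_zero_or_pos c with h | h
    · subst h; simp at hc
    · rw [Nat.sub_add_cancel h, ← hc]; omega
  · intro j _
    have h2 : 0 < p * (j + 1) := Nat.mul_pos hp (Nat.succ_pos j)
    simp only [Nat.sub_add_cancel h2]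

theorem rescale_X_pow (c : R) (n : ℕ) :
    PowerSeries.rescale c (PowerSeries.X ^ n) = PowerSeries.C (c ^ n) * PowerSeries.X ^ n := by
  rw [map_pow, PowerSeries.rescale_X, mul_pow, map_pow]

theorem prod_rescale_eulerTrunc [IsDomain R] {p : ℕ} [NeZero p] (hp : p.Prime) {ζ : R}
    (hζ : IsPrimitiveRoot ζ p) (L : ℕ) :
    (∏ i ∈ Finset.range p, PowerSeries.rescale (ζ ^ i) (eulerTrunc R (p * L))) *
        PowerSeries.expand (p * p) (NeZero.ne _) (eulerTrunc R L) =
      PowerSeries.expand p (NeZero.ne p) (eulerTrunc R (p * L)) *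
        PowerSeries.expand p (NeZero.ne p) (eulerTrunc R L) ^ p := by
  have hω : IsPrimitiveRoot (PowerSeries.C ζ) p :=
    hζ.map_of_injective PowerSeries.C_injective
  have hinner : ∀ m : ℕ, ∏ i ∈ Finset.range p,
      (1 - PowerSeries.rescale (ζ ^ i) ((PowerSeries.X : PowerSeries R) ^ m)) =
      if p ∣ m then (1 - (PowerSeries.X : PowerSeries R) ^ m) ^ p
      else 1 - ((PowerSeries.X : PowerSeries R) ^ m) ^ p := by
    intro m
    have hterm : ∀ i : ℕ, PowerSeries.rescale (ζ ^ i) ((PowerSeries.X : PowerSeries R) ^ m) =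
        ((PowerSeries.C ζ) ^ m) ^ i * PowerSeries.X ^ m := fun i => by
      rw [rescale_X_pow, map_pow, map_pow, ← pow_mul, ← pow_mul, mul_comm i m]
    simp only [hterm]
    split_ifs with hm
    · rw [(hω.pow_eq_one_iff_dvd m).mpr hm]
      simp
    · exact prod_one_sub_pow_mul (hω.pow_of_coprime m ((hp.coprime_iff_not_dvd.mpr hm).symm)) _
  simp only [eulerTrunc, map_prod, map_sub, map_one, map_pow, PowerSeries.expand_X]
  rw [Finset.prod_comm]
  simp only [← map_pow]
  rw [Finset.prod_congr rfl fun k _ => hinner (k + 1),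
    Finset.prod_ite]
  have h1 : ∏ k ∈ Finset.range L, (1 - ((PowerSeries.X : PowerSeries R) ^ (p * p)) ^ (k + 1)) =
      ∏ k ∈ (Finset.range (p * L)).filter (fun k => p ∣ k + 1),
        (1 - ((PowerSeries.X : PowerSeries R) ^ (k + 1)) ^ p) := by
    rw [prod_filter_dvd_succ p L hp.pos
      (fun m => 1 - ((PowerSeries.X : PowerSeries R) ^ m) ^ p)]
    refine Finset.prod_congr rfl fun k _ => ?_
    ring
  have h2 : ∏ k ∈ (Finset.range (p * L)).filter (fun k => p ∣ k + 1),
      (1 - (PowerSeries.X : PowerSeries R) ^ (k + 1)) ^ p =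
      (∏ k ∈ Finset.range L, (1 - ((PowerSeries.X : PowerSeries R) ^ p) ^ (k + 1))) ^ p := by
    rw [prod_filter_dvd_succ p L hp.pos
      (fun m => (1 - (PowerSeries.X : PowerSeries R) ^ m) ^ p), ← Finset.prod_pow]
    refine Finset.prod_congr rfl fun k _ => ?_
    ring
  rw [h1, h2, mul_assoc, Finset.prod_filter_not_mul_prod_filter, mul_comm]
  congr 1
  refine Finset.prod_congr rfl fun k _ => ?_
  ring

theorem prod_rescale_eulerPS [IsDomain R] {p : ℕ} [NeZero p] (hp : p.Prime) {ζ : R}
    (hζ : IsPrimitiveRoot ζ p) :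
    (∏ i ∈ Finset.range p, PowerSeries.rescale (ζ ^ i) (eulerPS R)) *
        PowerSeries.expand (p * p) (NeZero.ne _) (eulerPS R) =
      PowerSeries.expand p (NeZero.ne p) (eulerPS R) ^ (p + 1) := by
  refine PowerSeries.ext fun N => ?_
  set I : Ideal (PowerSeries R) := Ideal.span {PowerSeries.X ^ (N + 1)} with hI
  suffices h : Ideal.Quotient.mk I ((∏ i ∈ Finset.range p, PowerSeries.rescale (ζ ^ i) (eulerPS R)) *
        PowerSeries.expand (p * p) (NeZero.ne _) (eulerPS R)) =
      Ideal.Quotient.mk I (PowerSeries.expand p (NeZero.ne p) (eulerPS R) ^ (p + 1)) by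
    rw [Ideal.Quotient.eq, Ideal.mem_span_singleton, PowerSeries.X_pow_dvd_iff] at h
    have := h N (Nat.lt_succ_self N)
    rwa [map_sub, sub_eq_zero] at this
  have hd : ∀ M, N ≤ M → (PowerSeries.X : PowerSeries R) ^ (N + 1) ∣ eulerPS R - eulerTrunc R M :=
    fun M hM => (pow_dvd_pow _ (by omega)).trans (eulerPS_dvd_sub R M)
  have hres : ∀ (c : R) (M : ℕ), N ≤ M → Ideal.Quotient.mk I (PowerSeries.rescale c (eulerPS R)) =
      Ideal.Quotient.mk I (PowerSeries.rescale c (eulerTrunc R M)) := by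
    intro c M hM
    rw [Ideal.Quotient.eq, Ideal.mem_span_singleton, ← map_sub]
    have := map_dvd (PowerSeries.rescale c) (hd M hM)
    rw [rescale_X_pow] at this
    exact (dvd_mul_left _ _).trans this
  have hexp : ∀ (e : ℕ) [NeZero e] (M : ℕ), N ≤ M →
      Ideal.Quotient.mk I (PowerSeries.expand e (NeZero.ne e) (eulerPS R)) =
      Ideal.Quotient.mk I (PowerSeries.expand e (NeZero.ne e) (eulerTrunc R M)) := by
    intro e _ M hM
    rw [Ideal.Quotient.eq, Ideal.mem_span_singleton, ← map_sub]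
    have := map_dvd (PowerSeries.expand e (NeZero.ne e)) (hd M hM)
    rw [map_pow, PowerSeries.expand_X, ← pow_mul] at this
    exact (pow_dvd_pow _ (Nat.le_mul_of_pos_left _ (NeZero.pos e))).trans this
  have hpN : N ≤ p * N := Nat.le_mul_of_pos_left _ hp.pos
  rw [map_mul, map_prod, Finset.prod_congr rfl fun i _ => hres (ζ ^ i) (p * N) hpN,
    hexp (p * p) N le_rfl, ← map_prod, ← map_mul, prod_rescale_eulerTrunc hp hζ N, map_mul,
    map_pow, ← hexp p (p * N) hpN, ← hexp p N le_rfl, map_pow, pow_succ, mul_comm]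

variable (R)

/-- The Euler product as a Laurent series. -/
def etaSer : LaurentSeries R := HahnSeries.ofPowerSeries ℤ R (eulerPS R)

theorem deltaSer_eq_single_mul : deltaSer R = HahnSeries.single (1 : ℤ) 1 * etaSer R ^ 24 := by
  rw [deltaSer, etaSer, eulerPS, dedekindEtaUnit, map_pow, map_pow]

variable {R}

theorem qExpand_ofPowerSeries (e : ℕ) [NeZero e] (f : PowerSeries R) :
    qExpand R e (HahnSeries.ofPowerSeries ℤ R f) =
      HahnSeries.ofPowerSeries ℤ R (PowerSeries.expand e (NeZero.ne e) f) := by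
  ext n
  by_cases h : (e : ℤ) ∣ n
  · obtain ⟨m, rfl⟩ := h
    rw [qExpand_coeff_mul]
    rcases lt_or_ge m 0 with hm | hm
    · rw [ofPowerSeries_coeff_of_neg _ hm, ofPowerSeries_coeff_of_neg _ (by
        have : (0 : ℤ) < e := by exact_mod_cast Nat.pos_of_ne_zero (NeZero.ne e)
        nlinarith)]
    · lift m to ℕ using hm
      rw [← Nat.cast_mul, HahnSeries.ofPowerSeries_apply_coeff,
        HahnSeries.ofPowerSeries_apply_coeff, PowerSeries.coeff_expand_mul]
  · rw [qExpand_coeff_of_not_dvd e _ h]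
    rcases lt_or_ge n 0 with hn | hn
    · rw [ofPowerSeries_coeff_of_neg _ hn]
    · lift n to ℕ using hn
      rw [HahnSeries.ofPowerSeries_apply_coeff, PowerSeries.coeff_expand_of_not_dvd]
      exact fun h' => h (by exact_mod_cast h')

theorem twist_ofPowerSeries (c : Rˣ) (f : PowerSeries R) :
    twist c (HahnSeries.ofPowerSeries ℤ R f) =
      HahnSeries.ofPowerSeries ℤ R (PowerSeries.rescale (c : R) f) := by
  ext n
  rcases lt_or_ge n 0 with hn | hn
  · rw [twist_coeff, ofPowerSeries_coeff_of_neg _ hn, ofPowerSeries_coeff_of_neg _ hn, mul_zero]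
  · lift n to ℕ using hn
    rw [twist_coeff, HahnSeries.ofPowerSeries_apply_coeff, HahnSeries.ofPowerSeries_apply_coeff,
      PowerSeries.coeff_rescale, zpow_natCast, Units.val_pow_eq_pow_val]

/-- The norm identity for `Δ`. -/
theorem prod_twist_deltaSer [IsDomain R] {p : ℕ} [NeZero p] (hp : p.Prime) {ζ : Rˣ}
    (hζ : IsPrimitiveRoot ζ p) :
    (∏ i ∈ Finset.range p, twist (ζ ^ i) (deltaSer R)) * qExpand R (p * p) (deltaSer R) =
      HahnSeries.C (∏ i ∈ Finset.range p, (ζ : R) ^ i) * qExpand R p (deltaSer R) ^ (p + 1) := by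
  have hE : (∏ i ∈ Finset.range p, twist (ζ ^ i) (etaSer R)) * qExpand R (p * p) (etaSer R) =
      qExpand R p (etaSer R) ^ (p + 1) := by
    simp only [etaSer, twist_ofPowerSeries, qExpand_ofPowerSeries, Units.val_pow_eq_pow_val,
      ← map_prod, ← map_mul, ← map_pow]
    rw [prod_rescale_eulerPS hp (IsPrimitiveRoot.coe_units_iff.mpr hζ)]
    simp only [map_pow]
  have hsingle : ∀ (c : R), HahnSeries.single (1 : ℤ) c =
      HahnSeries.C c * HahnSeries.single (1 : ℤ) 1 := fun c => by
    rw [HahnSeries.C_apply, HahnSeries.single_mul_single, zero_add, mul_one]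
  simp only [deltaSer_eq_single_mul, map_mul, map_pow, twist_single, qExpand_single, mul_one,
    zpow_one, Units.val_pow_eq_pow_val]
  rw [Finset.prod_mul_distrib, Finset.prod_congr rfl fun i _ => hsingle ((ζ : R) ^ i),
    Finset.prod_mul_distrib, Finset.prod_pow, Finset.prod_const, Finset.card_range, map_prod]
  have hs : HahnSeries.single (1 : ℤ) (1 : R) ^ p * HahnSeries.single ((p * p : ℕ) : ℤ) 1 =
      HahnSeries.single (p : ℤ) (1 : R) ^ (p + 1) := by
    rw [HahnSeries.single_pow, HahnSeries.single_pow, HahnSeries.single_mul_single, one_pow,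
      one_pow, mul_one]
    congr 1
    simp only [nsmul_eq_mul]
    push_cast
    ring
  calc _ = (∏ i ∈ Finset.range p, HahnSeries.C ((ζ : R) ^ i)) *
        (HahnSeries.single (1 : ℤ) (1 : R) ^ p * HahnSeries.single ((p * p : ℕ) : ℤ) 1) *
        ((∏ i ∈ Finset.range p, twist (ζ ^ i) (etaSer R)) * qExpand R (p * p) (etaSer R)) ^ 24 := by
        ring
    _ = _ := by
      rw [hs, hE, mul_pow, ← pow_mul, ← pow_mul, mul_comm 24 (p + 1)]
      ring

end FLTA.Igusa
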