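import Mathlib

/-!
# A divisor invariant under push-forward by a polynomial map

If `Δ(q^p)/Δ(q)` were the rational function `num/den` of `j(q)` with `j(q^p) = P(j(q))`, then the
divisor of `num/den` would be invariant under push-forward by `P`; this is impossible.
-/

set_option autoImplicit false

noncomputable section

namespace FLTA.Igusa

variable {k : Type*} [Field k]

/-- The multiset identity saying that `div A - div B` is invariant under push-forward by `P`. -/
def PushInvariant (P A B : Polynomial k) : Prop :=
  A.roots + B.roots.map (fun x => P.eval x) = B.roots + A.roots.map (fun x => P.eval x)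

theorem exists_preimage_lt {P A B : Polynomial k} (h : PushInvariant P A B) {y : k}
    (hy : A.rootMultiplicity y < B.rootMultiplicity y) :
    ∃ x, P.eval x = y ∧ A.rootMultiplicity x < B.rootMultiplicity x := by
  classical
  by_contra hall
  push Not at hall
  have hle : B.roots.filter (fun x => y = P.eval x) ≤ A.roots.filter (fun x => y = P.eval x) := by
    rw [Multiset.le_iff_count]
    intro x
    rw [Multiset.count_filter, Multiset.count_filter]
    split_ifs with hx
    · rw [Polynomial.count_roots, Polynomial.count_roots]
      exact hall x hx.symm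
    · exact le_rfl
  have h' := congrArg (Multiset.count y) h
  simp only [Multiset.count_add, Multiset.count_map, Polynomial.count_roots] at h'
  have := Multiset.card_le_card hle
  omega

theorem exists_rootMultiplicity_lt {A B : Polynomial k}
    (h : Multiset.card A.roots < Multiset.card B.roots) :
    ∃ y, A.rootMultiplicity y < B.rootMultiplicity y := by
  classical
  by_contra hall
  push Not at hall
  have : B.roots ≤ A.roots := Multiset.le_iff_count.mpr fun x => by
    rw [Polynomial.count_roots, Polynomial.count_roots]
    exact hall x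
  exact absurd (Multiset.card_le_card this) (not_le.mpr h)

/-- The numerator of `p⁻⁶ Δ(q^p)/Δ(q)` in terms of `j(q)`. -/
def unitNum (P : Polynomial k) (a : k) : Polynomial k :=
  P.derivative ^ 6 * (Polynomial.X ^ 4 * (Polynomial.X - Polynomial.C a) ^ 3)

/-- The denominator of `p⁻⁶ Δ(q^p)/Δ(q)` in terms of `j(q)`. -/
def unitDen (P : Polynomial k) (a : k) : Polynomial k :=
  P ^ 4 * (P - Polynomial.C a) ^ 3

theorem rootMultiplicity_unitNum [DecidableEq k] {P : Polynomial k} {a x : k}
    (hP' : P.derivative ≠ 0) :
    (unitNum P a).rootMultiplicity x = 6 * P.derivative.rootMultiplicity x +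
      ((if x = 0 then 4 else 0) + (if x = a then 3 else 0)) := by
  have h1 : (Polynomial.X ^ 4 * (Polynomial.X - Polynomial.C a) ^ 3 : Polynomial k) ≠ 0 :=
    mul_ne_zero (pow_ne_zero _ Polynomial.X_ne_zero) (pow_ne_zero _ (Polynomial.X_sub_C_ne_zero a))
  rw [unitNum, ← Polynomial.count_roots, ← Polynomial.count_roots,
    Polynomial.roots_mul (mul_ne_zero (pow_ne_zero _ hP') h1), Polynomial.roots_mul h1,
    Polynomial.roots_pow, Polynomial.roots_pow, Polynomial.roots_pow, Polynomial.roots_X,
    Polynomial.roots_X_sub_C]
  simp only [Multiset.count_add, Multiset.count_nsmul, Multiset.count_singleton]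
  split_ifs <;> omega

theorem rootMultiplicity_unitDen [DecidableEq k] {P : Polynomial k} {a x : k} (hP : P ≠ 0)
    (hPa : P - Polynomial.C a ≠ 0) :
    (unitDen P a).rootMultiplicity x =
      4 * P.rootMultiplicity x + 3 * (P - Polynomial.C a).rootMultiplicity x := by
  rw [unitDen, ← Polynomial.count_roots, ← Polynomial.count_roots, ← Polynomial.count_roots,
    Polynomial.roots_mul (mul_ne_zero (pow_ne_zero _ hP) (pow_ne_zero _ hPa)),
    Polynomial.roots_pow, Polynomial.roots_pow]
  simp only [Multiset.count_add, Multiset.count_nsmul]

theorem not_pushInvariant_unit {P : Polynomial k} {a : k} (hdeg : 1 ≤ P.natDegree)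
    (hP' : P.derivative ≠ 0) (ha : a ≠ 0)
    (hcard : Multiset.card (unitNum P a).roots < Multiset.card (unitDen P a).roots) :
    ¬ PushInvariant P (unitNum P a) (unitDen P a) := by
  classical
  intro h
  have hP : P ≠ 0 := fun h0 => by simp [h0] at hdeg
  have hPa : P - Polynomial.C a ≠ 0 := fun h0 => by
    rw [sub_eq_zero] at h0
    simp [h0] at hdeg
  set S : Set k := {y | (unitNum P a).rootMultiplicity y < (unitDen P a).rootMultiplicity y}
  have hmult : ∀ (c x : k), (P - Polynomial.C c).rootMultiplicity x - 1 ≤
      P.derivative.rootMultiplicity x := fun c x => by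
    have := Polynomial.rootMultiplicity_sub_one_le_derivative_rootMultiplicity_of_ne_zero
      (P - Polynomial.C c) x (by simpa using hP')
    simpa using this
  have hval : ∀ x ∈ S, P.eval x = 0 ∨ P.eval x = a := by
    intro x hx
    by_contra hne
    push Not at hne
    simp only [S, Set.mem_ofPred_eq] at hx
    rw [rootMultiplicity_unitDen hP hPa,
      Polynomial.rootMultiplicity_eq_zero (p := P) (by simpa using hne.1),
      Polynomial.rootMultiplicity_eq_zero (p := P - Polynomial.C a)
        (by simpa [sub_eq_zero] using hne.2)] at hx
    omega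
  have hsub : ∀ y ∈ S, y = 0 ∨ y = a := by
    intro y hy
    obtain ⟨x, rfl, hx⟩ := exists_preimage_lt h hy
    exact hval x hx
  have key : ∀ x ∈ S, x = a ∧ P.eval x = 0 := by
    intro x hx
    have hx' := hx
    simp only [S, Set.mem_ofPred_eq] at hx'
    rw [rootMultiplicity_unitNum hP', rootMultiplicity_unitDen hP hPa] at hx'
    have h0 := hmult 0 x
    have ha' := hmult a x
    rw [map_zero, sub_zero] at h0
    rcases hsub x hx with h1 | h1
    · exfalso
      subst h1
      rw [if_pos rfl, if_neg (Ne.symm ha)] at hx'
      rcases hval 0 hx with h2 | h2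
      · rw [Polynomial.rootMultiplicity_eq_zero
          (p := P - Polynomial.C a) (by simp [h2, ha])] at hx'
        omega
      · rw [Polynomial.rootMultiplicity_eq_zero (p := P) (by simp [h2, ha])] at hx'
        omega
    · subst h1
      refine ⟨rfl, ?_⟩
      rw [if_neg ha, if_pos rfl] at hx'
      rcases hval x hx with h2 | h2
      · exact h2
      · exfalso
        rw [Polynomial.rootMultiplicity_eq_zero (p := P) (by simp [h2, ha])] at hx'
        omega
  obtain ⟨y, hy⟩ := exists_rootMultiplicity_lt hcard
  obtain ⟨x, hxy, hx⟩ := exists_preimage_lt h hy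
  obtain ⟨-, hx0⟩ := key x hx
  rw [hx0] at hxy
  exact ha (((key y hy).1).symm.trans hxy.symm)

theorem eq_X_pow_of_pushInvariant [IsAlgClosed k] {P : Polynomial k} (hm : P.Monic)
    (h : PushInvariant P Polynomial.X P) : P = Polynomial.X ^ P.natDegree := by
  classical
  have hsplit : P.Splits := IsAlgClosed.splits P
  rw [PushInvariant, Polynomial.roots_X] at h
  have h' : P.roots.map (fun x => P.eval x) = Multiset.replicate (Multiset.card P.roots) 0 := by
    rw [← Multiset.map_const']
    exact Multiset.map_congr rfl fun x hx => (Polynomial.mem_roots'.mp hx).2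
  rw [h'] at h
  have hall : ∀ x ∈ P.roots, x = 0 := fun x hx => by
    have hmem : x ∈ ({0} : Multiset k) + Multiset.replicate (Multiset.card P.roots) 0 := by
      rw [h]; exact Multiset.mem_add.mpr (Or.inl hx)
    rcases Multiset.mem_add.mp hmem with h1 | h1
    · simpa using h1
    · exact Multiset.eq_of_mem_replicate h1
  rw [hsplit.natDegree_eq_card_roots]
  conv_lhs => rw [hsplit.eq_prod_roots_of_monic hm, Multiset.eq_replicate_card.mpr hall]
  simp

end FLTA.Igusa
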