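import Fermat.Agent.Igusa.Ramanujan

/-!
# `(θj)⁶ = j⁴ (j - 1728)³ Δ` over every commutative ring
-/

set_option autoImplicit false

noncomputable section

open UpperHalfPlane ModularForm EisensteinSeries ModularCurve HahnSeries
open scoped MatrixGroups Manifold Topology

namespace FLTA.Igusa

theorem theta_ofPowerSeries (f : PowerSeries ℂ) :
    theta (HahnSeries.ofPowerSeries ℤ ℂ f) = HahnSeries.ofPowerSeries ℤ ℂ (thetaPS f) := by
  ext n
  rcases lt_or_ge n 0 with hn | hn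
  · rw [theta_coeff, ofPowerSeries_coeff_of_neg _ hn, ofPowerSeries_coeff_of_neg _ hn, mul_zero]
  · lift n to ℕ using hn
    rw [theta_coeff, HahnSeries.ofPowerSeries_apply_coeff, HahnSeries.ofPowerSeries_apply_coeff,
      thetaPS, PowerSeries.coeff_mk, Int.cast_natCast]

theorem qExpansion_E4_cube_sub_E6_sq :
    (1728 : ℂ) • (PowerSeries.X * dedekindEtaUnit.map (Int.castRingHom ℂ)) =
      eisenstein4.map (Int.castRingHom ℂ) ^ 3 - qExpansion 1 (E₆ : ℍ → ℂ) ^ 2 := by
  have h4 := ModularFormClass.analyticAt_cuspFunction_zero E₄ one_pos one_mem_strictPeriods_SL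
  have h6 := ModularFormClass.analyticAt_cuspFunction_zero E₆ one_pos one_mem_strictPeriods_SL
  have hΔ : AnalyticAt ℂ (cuspFunction 1 ModularForm.discriminant) 0 :=
    ModularFormClass.analyticAt_cuspFunction_zero CuspForm.discriminant one_pos
      one_mem_strictPeriods_SL
  have h44 : AnalyticAt ℂ (cuspFunction 1 ((E₄ : ℍ → ℂ) * E₄)) 0 := by
    rw [UpperHalfPlane.cuspFunction_mul h4.continuousAt h4.continuousAt]; exact h4.mul h4
  have h444 : AnalyticAt ℂ (cuspFunction 1 ((E₄ : ℍ → ℂ) * E₄ * E₄)) 0 := by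
    rw [UpperHalfPlane.cuspFunction_mul h44.continuousAt h4.continuousAt]; exact h44.mul h4
  have h66 : AnalyticAt ℂ (cuspFunction 1 ((E₆ : ℍ → ℂ) * E₆)) 0 := by
    rw [UpperHalfPlane.cuspFunction_mul h6.continuousAt h6.continuousAt]; exact h6.mul h6
  have h : (1728 : ℂ) • ModularForm.discriminant =
      (E₄ : ℍ → ℂ) * E₄ * E₄ - (E₆ : ℍ → ℂ) * E₆ := funext fun z => by
    simp only [Pi.smul_apply, Pi.sub_apply, Pi.mul_apply, smul_eq_mul,
      ModularForm.discriminant_eq_E₄_cube_sub_E₆_sq]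
    ring
  have h' := congrArg (qExpansion 1) h
  rw [UpperHalfPlane.qExpansion_smul hΔ, UpperHalfPlane.qExpansion_sub h444 h66,
    UpperHalfPlane.qExpansion_mul h44 h4, UpperHalfPlane.qExpansion_mul h4 h4,
    UpperHalfPlane.qExpansion_mul h6 h6, FLTA.Bridge.qExpansion_E4,
    FLTA.Bridge.qExpansion_discriminant] at h'
  rw [h']
  ring

theorem theta_jqModC_mul_deltaSer :
    theta (jqModC ℂ) * deltaSer ℂ =
      -(HahnSeries.ofPowerSeries ℤ ℂ (eisenstein4.map (Int.castRingHom ℂ)) ^ 2 *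
        HahnSeries.ofPowerSeries ℤ ℂ (qExpansion 1 (E₆ : ℍ → ℂ))) := by
  have hW : theta (jqModC ℂ) = HahnSeries.single (-1 : ℤ) 1 *
      HahnSeries.ofPowerSeries ℤ ℂ
        (thetaPS (jNum.map (Int.castRingHom ℂ)) - jNum.map (Int.castRingHom ℂ)) := by
    rw [jqModC, theta_mul, theta_single, theta_ofPowerSeries, mul_one, Int.cast_neg, Int.cast_one,
      map_sub, mul_sub, show HahnSeries.single (-1 : ℤ) (-1 : ℂ) =
        -HahnSeries.single (-1 : ℤ) 1 from HahnSeries.single_neg _ _]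
    ring
  rw [hW, deltaSer, mul_mul_mul_comm, HahnSeries.single_mul_single, neg_add_cancel, mul_one,
    HahnSeries.single_zero_one, one_mul, ← map_mul, qExpansion_thetaJDelta_eq, map_neg, map_mul,
    map_pow]

theorem theta_jqModC_pow_six_complex :
    theta (jqModC ℂ) ^ 6 = jqModC ℂ ^ 4 * (jqModC ℂ - 1728) ^ 3 * deltaSer ℂ := by
  set a := HahnSeries.ofPowerSeries ℤ ℂ (eisenstein4.map (Int.castRingHom ℂ)) with ha
  set b := HahnSeries.ofPowerSeries ℤ ℂ (qExpansion 1 (E₆ : ℍ → ℂ)) with hb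
  have h1 : jqModC ℂ * deltaSer ℂ = a ^ 3 := jqModC_mul_deltaSer
  have h2 : (1728 : LaurentSeries ℂ) * deltaSer ℂ = a ^ 3 - b ^ 2 := by
    have hX : deltaSer ℂ =
        HahnSeries.ofPowerSeries ℤ ℂ
          (PowerSeries.X * dedekindEtaUnit.map (Int.castRingHom ℂ)) := by
      rw [deltaSer, map_mul, HahnSeries.ofPowerSeries_X]
    rw [hX, ha, hb, ← map_pow (HahnSeries.ofPowerSeries ℤ ℂ),
      ← map_pow (HahnSeries.ofPowerSeries ℤ ℂ), ← map_sub (HahnSeries.ofPowerSeries ℤ ℂ),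
      ← qExpansion_E4_cube_sub_E6_sq, Algebra.smul_def,
      map_ofNat (algebraMap ℂ (PowerSeries ℂ))]
    simp only [map_mul, map_ofNat]
  have h3 : theta (jqModC ℂ) * deltaSer ℂ = -(a ^ 2 * b) := theta_jqModC_mul_deltaSer
  refine mul_right_cancel₀ (pow_ne_zero 6 (deltaSer_ne_zero (R := ℂ))) ?_
  calc theta (jqModC ℂ) ^ 6 * deltaSer ℂ ^ 6 = (a ^ 3) ^ 4 * (b ^ 2) ^ 3 := by
        rw [← mul_pow, h3]; ring
    _ = (jqModC ℂ * deltaSer ℂ) ^ 4 * ((jqModC ℂ - 1728) * deltaSer ℂ) ^ 3 := by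
        rw [sub_mul, h1, h2, sub_sub_cancel]
    _ = _ := by ring

/-- `(θj)⁶ = j⁴ (j - 1728)³ Δ`. -/
theorem theta_jqModC_pow_six (R : Type*) [CommRing R] :
    theta (jqModC R) ^ 6 = jqModC R ^ 4 * (jqModC R - 1728) ^ 3 * deltaSer R := by
  have key : theta (jqModC ℤ) ^ 6 = jqModC ℤ ^ 4 * (jqModC ℤ - 1728) ^ 3 * deltaSer ℤ := by
    have hinj : Function.Injective (coeffMap (Int.castRingHom ℂ)) := fun a b hab =>
      HahnSeries.ext (funext fun n => Int.cast_injective (congrArg (fun w => w.coeff n) hab))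
    apply hinj
    simp only [map_mul, map_pow, map_sub, map_ofNat, coeffMap_theta, coeffMap_jqModC,
      coeffMap_deltaSer]
    exact theta_jqModC_pow_six_complex
  simpa only [map_mul, map_pow, map_sub, map_ofNat, coeffMap_theta, coeffMap_jqModC,
    coeffMap_deltaSer] using congrArg (coeffMap (Int.castRingHom R)) key

/-- If `240 = 0` in `R`, then `jΔ = 1`. -/
theorem jqModC_mul_deltaSer_eq_one {R : Type*} [CommRing R] (h : (240 : R) = 0) :
    jqModC R * deltaSer R = 1 := by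
  have hE : eisenstein4.map (Int.castRingHom R) = 1 := by
    ext n
    rw [PowerSeries.coeff_map, eisenstein4, PowerSeries.coeff_mk, PowerSeries.coeff_one]
    split_ifs with hn
    · simp
    · simp [h]
  rw [jqModC_mul_deltaSer, hE, map_one, one_pow]

end FLTA.Igusa
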