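import Fermat.Agent.Igusa.ModPoly
import Fermat.Agent.Igusa.ThetaIdentity
import Fermat.Agent.Igusa.EtaNorm
import Fermat.Agent.Igusa.PushForward

/-!
# The base case: `j(q^p)` is not rational in `j(q)` when `p` is invertible
-/

set_option autoImplicit false

noncomputable section

open HahnSeries ModularCurve IntermediateField

namespace FLTA.Igusa

variable {K : Type} [Field K]

theorem coeff_aeval_jqModC_of_lt (P : Polynomial K) {n : ℤ} (hn : n < -(P.natDegree : ℤ)) :
    (Polynomial.aeval (jqModC K) P).coeff n = 0 := by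
  rw [Polynomial.aeval_eq_sum_range, HahnSeries.coeff_sum]
  refine Finset.sum_eq_zero fun i hi => ?_
  simp only [Finset.mem_range] at hi
  rw [Algebra.smul_def, coeff_algebraMap_mul, coeff_jqModC_pow_of_lt K (by omega), mul_zero]

theorem aeval_jqModC_injective : Function.Injective (Polynomial.aeval (R := K) (jqModC K)) := by
  refine (injective_iff_map_eq_zero _).mpr fun P hP => ?_
  have := coeff_aeval_jqModC_natDegree P
  rw [hP, HahnSeries.coeff_zero] at this
  exact Polynomial.leadingCoeff_eq_zero.mp this.symm

theorem exists_monic_aeval_eq_of_mem (p : ℕ) [NeZero p] (hp : p.Prime)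
    (h : jqNModC K p ∈ IntermediateField.adjoin K {jqModC K}) :
    ∃ P : Polynomial K, P.Monic ∧ P.natDegree = p ∧
      Polynomial.aeval (jqModC K) P = jqNModC K p := by
  have hinj : Function.Injective (Polynomial.aeval (R := K) (jqModC K)).toRingHom :=
    aeval_jqModC_injective
  let ρ : RatFunc K →+* LaurentSeries K := IsFractionRing.lift hinj
  have hρ : ∀ P : Polynomial K,
      ρ (algebraMap (Polynomial K) (RatFunc K) P) = Polynomial.aeval (jqModC K) P := fun P =>
    IsFractionRing.lift_algebraMap hinj P
  obtain ⟨r, s, hrs⟩ := (IntermediateField.mem_adjoin_simple_iff K _).mp h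
  set z : RatFunc K := algebraMap _ (RatFunc K) r / algebraMap _ (RatFunc K) s with hzdef
  have hz : ρ z = jqNModC K p := by rw [hzdef, map_div₀, hρ, hρ, hrs]
  have hint : IsIntegral (Polynomial K) z := by
    let ψ : Polynomial ℤ →+* Polynomial K := Polynomial.mapRingHom (Int.castRingHom K)
    refine ⟨(modPoly p hp).map ψ, (modPoly_monic p hp).map ψ, ρ.injective ?_⟩
    have hcomp : (ρ.comp (algebraMap (Polynomial K) (RatFunc K))).comp ψ =
        (Polynomial.aeval (R := ℤ) (jqModC K)).toRingHom := by
      refine Polynomial.ringHom_ext' (RingHom.ext_int _ _) ?_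
      simp [ψ, ← RatFunc.algebraMap_X, hρ]
    rw [Polynomial.hom_eval₂, Polynomial.eval₂_map, hcomp, hz, map_zero]
    exact modPoly_eval_jp K p hp
  obtain ⟨P, hP⟩ := IsIntegrallyClosed.isIntegral_iff.mp hint
  have heval : Polynomial.aeval (jqModC K) P = jqNModC K p := by rw [← hρ, hP, hz]
  have h1 : (jqNModC K p).coeff (-(p : ℤ)) = 1 := by
    rw [jqNModC, show -(p : ℤ) = (p : ℤ) * (-1) by ring, qExpand_coeff_mul, coeff_jqModC_neg_one]
  have h0 : ∀ n < -(p : ℤ), (jqNModC K p).coeff n = 0 := fun n hn => by
    have := coeff_jAt_of_lt (1 : Kˣ) p hn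
    rwa [jAt_one] at this
  have hle : P.natDegree ≤ p := by
    by_contra hgt
    have := coeff_aeval_jqModC_natDegree P
    rw [heval, h0 _ (by omega)] at this
    have hP0 := Polynomial.leadingCoeff_eq_zero.mp this.symm
    rw [hP0] at hgt
    simp at hgt
  have hge : p ≤ P.natDegree := by
    by_contra hlt
    have := coeff_aeval_jqModC_of_lt P (n := -(p : ℤ)) (by omega)
    rw [heval, h1] at this
    exact one_ne_zero this
  refine ⟨P, ?_, le_antisymm hle hge, heval⟩
  rw [Polynomial.Monic, ← coeff_aeval_jqModC_natDegree P, heval, le_antisymm hle hge, h1]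

/-- The algebraic consequence of a rational relation between `Δ(q^p)` and `Δ(q)`. -/
theorem pushInvariant_of_delta_relation {p : ℕ} [NeZero p] (hp : p.Prime) {ζ : Kˣ}
    (hζ : IsPrimitiveRoot ζ p) [IsAlgClosed K] {P A B : Polynomial K} (hPm : P.Monic)
    (hPd : P.natDegree = p) (hP : Polynomial.aeval (jqModC K) P = jqNModC K p)
    (hA : A ≠ 0) (hB : B ≠ 0)
    (hrel : qExpand K p (deltaSer K) * Polynomial.aeval (jqModC K) B =
      deltaSer K * Polynomial.aeval (jqModC K) A) :
    PushInvariant P A B := by
  set J := jqModC K with hJ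
  set T := qExpand K p J with hT
  have hPT : Polynomial.aeval J P = T := hP
  let τ : ℕ → LaurentSeries K →ₐ[K] LaurentSeries K := fun i =>
    { twist (ζ ^ i) with
      commutes' := fun r => by
        show twist (ζ ^ i) (algebraMap K (LaurentSeries K) r) = algebraMap K (LaurentSeries K) r
        rw [algebraMap_laurentSeries_eq_single, ← HahnSeries.C_apply, twist_C] }
  have hτ : ∀ i x, τ i x = twist (ζ ^ i) x := fun _ _ => rfl
  let ε : LaurentSeries K →ₐ[K] LaurentSeries K := qExpandAlgHomC K p
  have hfix : ∀ (i : ℕ) (f : LaurentSeries K), twist (ζ ^ i) (qExpand K p f) = qExpand K p f := by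
    intro i f
    rw [twist_qExpand, ← pow_mul, mul_comm i p, pow_mul, hζ.pow_eq_one, one_pow, twist_one_apply]
  -- the roots `J_i` of `P(Y) = T`
  set Ji : ℕ → LaurentSeries K := fun i => twist (ζ ^ i) J with hJi
  have hroot : ∀ i, Polynomial.aeval (Ji i) P = T := fun i => by
    rw [show Ji i = τ i J from rfl, Polynomial.aeval_algHom_apply, hPT, hτ, hT, hfix]
  have hprodY : ∀ y : LaurentSeries K,
      ∏ i ∈ Finset.range p, (y - Ji i) = Polynomial.aeval y P - T := by
    intro y
    set Q : Polynomial (LaurentSeries K) :=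
      P.map (algebraMap K (LaurentSeries K)) - Polynomial.C T
    have hQm : Q.Monic := (hPm.map _).sub_of_left (by
      rw [Polynomial.degree_map, Polynomial.degree_eq_natDegree hPm.ne_zero, hPd]
      exact lt_of_le_of_lt Polynomial.degree_C_le (by exact_mod_cast hp.pos))
    have hQd : Q.natDegree = p := by
      rw [Polynomial.natDegree_sub_C, Polynomial.natDegree_map, hPd]
    have hinj : Set.InjOn Ji (Finset.range p) := by
      intro a ha b hb hab
      have hab' : jAt (ζ ^ a) 1 = jAt (ζ ^ b) 1 := by
        simpa [jAt, qExpand_one_apply, hJi] using hab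
      exact hζ.pow_inj (by simpa using ha) (by simpa using hb) (jAt_inj hab').2
    have hle : (Finset.range p).val.map Ji ≤ Q.roots := by
      rw [Multiset.le_iff_subset (by
        exact (Multiset.nodup_map_iff_inj_on (Finset.range p).nodup).mpr
          fun a ha b hb => hinj ha hb)]
      intro x hx
      obtain ⟨i, -, rfl⟩ := Multiset.mem_map.mp hx
      rw [Polynomial.mem_roots hQm.ne_zero]
      simp [Q, Polynomial.eval_map_algebraMap, hroot i]
    have heq : (Finset.range p).val.map Ji = Q.roots := Multiset.eq_of_le_of_card_le hle (by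
      simpa [hQd] using Q.card_roots')
    have hcard : Multiset.card Q.roots = Q.natDegree := by rw [← heq, hQd]; simp
    have := congrArg (Polynomial.eval y)
      (Polynomial.prod_multiset_X_sub_C_of_monic_of_roots_card_eq hQm hcard)
    rw [← heq, Polynomial.eval_multiset_prod, Multiset.map_map, Multiset.map_map] at this
    simpa [Q, Polynomial.eval_map_algebraMap, Function.comp_def, Finset.prod] using this
  -- norms from `K(J)` down to `K(T)`
  have hnorm : ∀ f : Polynomial K, f ≠ 0 → ∃ c : K, c ≠ 0 ∧
      ∏ i ∈ Finset.range p, Polynomial.aeval (Ji i) f = Polynomial.aeval T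
        (Polynomial.C c * (f.roots.map fun a => Polynomial.X - Polynomial.C (P.eval a)).prod) := by
    intro f hf
    have hsp : f.Splits := IsAlgClosed.splits f
    have hterm : ∀ i, Polynomial.aeval (Ji i) f =
        algebraMap K (LaurentSeries K) f.leadingCoeff *
          (f.roots.map fun a => (-1) * (algebraMap K (LaurentSeries K) a - Ji i)).prod := fun i => by
      conv_lhs => rw [hsp.eq_prod_roots]
      rw [map_mul, Polynomial.aeval_C, map_multiset_prod, Multiset.map_map]
      congr 2
      refine Multiset.map_congr rfl fun a _ => ?_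
      simp
    have hRHS : ∀ c : K, Polynomial.aeval T
        (Polynomial.C c * (f.roots.map fun a => Polynomial.X - Polynomial.C (P.eval a)).prod) =
        algebraMap K (LaurentSeries K) c *
          (f.roots.map fun a => T - algebraMap K (LaurentSeries K) (P.eval a)).prod := fun c => by
      rw [map_mul, Polynomial.aeval_C, map_multiset_prod, Multiset.map_map]
      simp [Function.comp_def]
    have hone : ∀ a : K, ∏ i ∈ Finset.range p,
        (-1) * (algebraMap K (LaurentSeries K) a - Ji i) =
        (-1) ^ (p + 1) * (T - algebraMap K (LaurentSeries K) (P.eval a)) := fun a => by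
      rw [Finset.prod_mul_distrib, Finset.prod_const, Finset.card_range, hprodY,
        Polynomial.aeval_algebraMap_apply_eq_algebraMap_eval]
      ring
    refine ⟨f.leadingCoeff ^ p * ((-1) ^ (p + 1)) ^ Multiset.card f.roots, mul_ne_zero
      (pow_ne_zero _ (Polynomial.leadingCoeff_ne_zero.mpr hf))
      (pow_ne_zero _ (pow_ne_zero _ (by simp))), ?_⟩
    rw [hRHS, Finset.prod_congr rfl fun i _ => hterm i, Finset.prod_mul_distrib, Finset.prod_const,
      Finset.card_range, ← Multiset.prod_map_prod, Multiset.map_congr rfl fun a _ => hone a,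
      Multiset.prod_map_mul, Multiset.map_const', Multiset.prod_replicate]
    simp only [map_mul, map_pow, map_neg, map_one]
    ring
  -- apply the substitutions to the relation
  set Dp := qExpand K p (deltaSer K) with hDp
  set u : LaurentSeries K := HahnSeries.C (∏ i ∈ Finset.range p, (ζ : K) ^ i) with hu
  have hi : ∀ i, Dp * Polynomial.aeval (Ji i) B =
      twist (ζ ^ i) (deltaSer K) * Polynomial.aeval (Ji i) A := fun i => by
    have := congrArg (τ i) hrel
    rwa [map_mul, map_mul, ← Polynomial.aeval_algHom_apply, ← Polynomial.aeval_algHom_apply,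
      hτ, hτ, hτ, hfix] at this
  have hprod := Finset.prod_congr (s₁ := Finset.range p) rfl fun i _ => hi i
  rw [Finset.prod_mul_distrib, Finset.prod_mul_distrib, Finset.prod_const, Finset.card_range]
    at hprod
  have hTrel : qExpand K (p * p) (deltaSer K) * Polynomial.aeval T B =
      Dp * Polynomial.aeval T A := by
    have := congrArg ε hrel
    rwa [map_mul, map_mul, ← Polynomial.aeval_algHom_apply, ← Polynomial.aeval_algHom_apply,
      qExpandAlgHomC_apply, qExpandAlgHomC_apply, qExpandAlgHomC_apply, hDp, qExpand_qExpand]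
      at this
  have heta := prod_twist_deltaSer (R := K) hp hζ
  rw [← hu, ← hDp] at heta
  have hDp0 : Dp ≠ 0 := fun h0 => deltaSer_ne_zero (R := K) (qExpand_injective p (by
    rw [← hDp, h0, map_zero]))
  have hmain : Polynomial.aeval T A * ∏ i ∈ Finset.range p, Polynomial.aeval (Ji i) B =
      u * (Polynomial.aeval T B * ∏ i ∈ Finset.range p, Polynomial.aeval (Ji i) A) := by
    refine mul_left_cancel₀ (pow_ne_zero (p + 1) hDp0) ?_
    calc Dp ^ (p + 1) * (Polynomial.aeval T A * ∏ i ∈ Finset.range p, Polynomial.aeval (Ji i) B)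
        = (Dp * Polynomial.aeval T A) *
            (Dp ^ p * ∏ i ∈ Finset.range p, Polynomial.aeval (Ji i) B) := by ring
      _ = (qExpand K (p * p) (deltaSer K) * Polynomial.aeval T B) *
            ((∏ i ∈ Finset.range p, twist (ζ ^ i) (deltaSer K)) *
              ∏ i ∈ Finset.range p, Polynomial.aeval (Ji i) A) := by rw [hprod, hTrel]
      _ = ((∏ i ∈ Finset.range p, twist (ζ ^ i) (deltaSer K)) * qExpand K (p * p) (deltaSer K)) *
            (Polynomial.aeval T B * ∏ i ∈ Finset.range p, Polynomial.aeval (Ji i) A) := by ring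
      _ = _ := by rw [heta]; ring
  obtain ⟨cA, hcA, hNA⟩ := hnorm A hA
  obtain ⟨cB, hcB, hNB⟩ := hnorm B hB
  set c : K := ∏ i ∈ Finset.range p, (ζ : K) ^ i
  have hc : c ≠ 0 := Finset.prod_ne_zero_iff.mpr fun i _ => pow_ne_zero _ ζ.ne_zero
  have hCu : u = Polynomial.aeval T (Polynomial.C c) := by
    rw [Polynomial.aeval_C, algebraMap_laurentSeries_eq_single, hu, HahnSeries.C_apply]
  rw [hNA, hNB, hCu, ← map_mul, ← map_mul, ← map_mul] at hmain
  have hinjT : Function.Injective (Polynomial.aeval (R := K) T) := by
    intro f g hfg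
    apply aeval_jqModC_injective
    apply qExpand_injective (R := K) p
    rw [← qExpandAlgHomC_apply K p, ← qExpandAlgHomC_apply K p, ← Polynomial.aeval_algHom_apply,
      ← Polynomial.aeval_algHom_apply]
    exact hfg
  have hpoly := congrArg Polynomial.roots (hinjT hmain)
  have hmapne : ∀ f : Polynomial K,
      (f.roots.map fun a => Polynomial.X - Polynomial.C (P.eval a)).prod ≠ 0 := fun f =>
    (Polynomial.monic_multiset_prod_of_monic _ _ fun a _ => Polynomial.monic_X_sub_C _).ne_zero
  have hroots : ∀ f : Polynomial K, ∀ c : K, c ≠ 0 →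
      (Polynomial.C c * (f.roots.map fun a => Polynomial.X - Polynomial.C (P.eval a)).prod).roots =
        f.roots.map fun a => P.eval a := fun f c hc => by
    rw [Polynomial.roots_C_mul _ hc]
    have := Polynomial.roots_multiset_prod_X_sub_C (f.roots.map fun a => P.eval a)
    rwa [Multiset.map_map] at this
  rw [Polynomial.roots_mul (mul_ne_zero hA (mul_ne_zero (by simpa using hcB) (hmapne B))),
    Polynomial.roots_C_mul _ hc,
    Polynomial.roots_mul (mul_ne_zero hB (mul_ne_zero (by simpa using hcA) (hmapne A))),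
    hroots B cB hcB, hroots A cA hcA] at hpoly
  exact hpoly

theorem coeff_one_eulerPS (R : Type*) [CommRing R] : PowerSeries.coeff 1 (eulerPS R) = -1 := by
  have h := PowerSeries.X_pow_dvd_iff.mp (eulerPS_dvd_sub R 1) 1 one_lt_two
  rw [map_sub, sub_eq_zero] at h
  rw [h]
  simp [eulerTrunc, PowerSeries.coeff_one_X]

theorem constantCoeff_eulerPS (R : Type*) [CommRing R] :
    PowerSeries.constantCoeff (eulerPS R) = 1 := by
  rw [eulerPS, ← PowerSeries.coeff_zero_eq_constantCoeff_apply, PowerSeries.coeff_map,
    PowerSeries.coeff_zero_eq_constantCoeff, constantCoeff_etaProd, map_one]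

theorem eulerPS_pow_ne_one (h6 : (6 : K) = 0) : eulerPS K ^ 24 ≠ 1 := by
  have hcoeff : ∀ n : ℕ, (n : K) ≠ 0 → eulerPS K ^ n ≠ 1 := by
    intro n hn h
    have h' := congrArg (PowerSeries.coeff 1) h
    rw [PowerSeries.coeff_one_pow, coeff_one_eulerPS, constantCoeff_eulerPS, one_pow,
      PowerSeries.coeff_one, if_neg one_ne_zero] at h'
    simp [hn] at h'
  intro h
  rcases mul_eq_zero.mp (show (2 : K) * 3 = 0 by rw [← h6]; norm_num) with h2 | h3
  · haveI : CharP K 2 := (CharP.charP_iff_prime_eq_zero Nat.prime_two).mpr (by exact_mod_cast h2)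
    haveI : CharP (PowerSeries K) 2 := charP_of_injective_algebraMap' K 2
    haveI : Fact (Nat.Prime 2) := ⟨Nat.prime_two⟩
    refine hcoeff 3 ?_ ?_
    · intro h3
      have h3' : (3 : K) = 0 := by exact_mod_cast h3
      apply one_ne_zero (α := K)
      linear_combination h3' - h2
    · apply frobenius_inj (PowerSeries K) 2
      apply frobenius_inj (PowerSeries K) 2
      apply frobenius_inj (PowerSeries K) 2
      simp only [frobenius_def, one_pow, ← pow_mul]
      exact h
  · haveI : CharP K 3 := (CharP.charP_iff_prime_eq_zero Nat.prime_three).mpr (by exact_mod_cast h3)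
    haveI : CharP (PowerSeries K) 3 := charP_of_injective_algebraMap' K 3
    haveI : Fact (Nat.Prime 3) := ⟨Nat.prime_three⟩
    refine hcoeff 8 ?_ ?_
    · intro h8
      have h8' : (8 : K) = 0 := by exact_mod_cast h8
      apply one_ne_zero (α := K)
      linear_combination 3 * h3 - h8'
    · apply frobenius_inj (PowerSeries K) 3
      simp only [frobenius_def, one_pow, ← pow_mul]
      exact h

theorem qExpand_deltaSer_ne_pow (p : ℕ) [NeZero p] (hp : p.Prime) (hpK : (p : K) ≠ 0)
    (h6 : (6 : K) = 0) : qExpand K p (deltaSer K) ≠ deltaSer K ^ p := by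
  intro h
  rw [deltaSer_eq_single_mul, map_mul, map_pow, qExpand_single, mul_one, mul_pow,
    HahnSeries.single_pow, one_pow, nsmul_one] at h
  have hs : HahnSeries.single (p : ℤ) (1 : K) ≠ 0 := by simp
  have h' := mul_left_cancel₀ hs h
  rw [etaSer, qExpand_ofPowerSeries, ← map_pow, ← map_pow, ← map_pow, ← map_pow] at h'
  have h'' := HahnSeries.ofPowerSeries_injective h'
  set U := eulerPS K ^ 24 with hU
  have hU1 : U ≠ 1 := eulerPS_pow_ne_one h6
  have hsum : PowerSeries.constantCoeff (∑ i ∈ Finset.range p, U ^ i) = (p : K) := by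
    simp [map_sum, hU, constantCoeff_eulerPS]
  have hfac : U ^ p - 1 = (∑ i ∈ Finset.range p, U ^ i) * (U - 1) := (geom_sum_mul U p).symm
  have ho1 : ((PowerSeries.expand p (NeZero.ne p)) (U - 1)).order = (U - 1).order := by
    rw [map_sub, map_one, h'', hfac, PowerSeries.order_mul]
    have : (∑ i ∈ Finset.range p, U ^ i).order = 0 := by
      refine PowerSeries.order_zero_of_unit ?_
      rw [PowerSeries.isUnit_iff_constantCoeff, hsum]
      exact IsUnit.mk0 _ hpK
    rw [this, zero_add]
  rw [PowerSeries.order_expand] at ho1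
  obtain ⟨m, hm⟩ : ∃ m : ℕ, (U - 1).order = m :=
    ⟨_, (ENat.natCast_toNat (by simpa [PowerSeries.order_eq_top, sub_eq_zero] using hU1)).symm⟩
  have hm1 : 1 ≤ m := by
    by_contra h0
    obtain rfl : m = 0 := by omega
    have := PowerSeries.coeff_order (φ := U - 1) (by
      simpa [PowerSeries.order_eq_top, sub_eq_zero] using hU1)
    rw [hm] at this
    simp [hU, constantCoeff_eulerPS] at this
  rw [hm, nsmul_eq_mul] at ho1
  have : p * m = m := by exact_mod_cast ho1
  have := hp.two_le
  nlinarith

theorem not_exists_aeval_eq_jqNModC [IsAlgClosed K] (p : ℕ) [NeZero p] (hp : p.Prime)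
    (hpK : (p : K) ≠ 0) (P : Polynomial K) (hPm : P.Monic) (hPd : P.natDegree = p)
    (hP : Polynomial.aeval (jqModC K) P = jqNModC K p) : False := by
  haveI : NeZero (p : K) := ⟨hpK⟩
  obtain ⟨z, hz⟩ := HasEnoughRootsOfUnity.exists_primitiveRoot K p
  set ζ : Kˣ := (hz.isUnit (NeZero.ne p)).unit
  have hζ : IsPrimitiveRoot ζ p := IsPrimitiveRoot.coe_units_iff.mp hz
  set J := jqModC K
  set D := deltaSer K
  have hθ : theta J ≠ 0 := fun h0 => by
    have := coeff_theta_jqModC_neg_one (R := K)
    rw [h0, HahnSeries.coeff_zero] at this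
    simp at this
  have hP' : P.derivative ≠ 0 := fun h0 => by
    have := congrArg theta hP
    rw [theta_aeval, h0, map_zero, zero_mul, jqNModC, theta_qExpand] at this
    rcases mul_eq_zero.mp this.symm with h1 | h1
    · rw [← map_natCast (algebraMap K (LaurentSeries K))] at h1
      exact hpK ((map_eq_zero _).mp h1)
    · exact hθ (qExpand_injective p (by rw [h1, map_zero]))
  by_cases h6 : (6 : K) = 0
  · have h240 : (240 : K) = 0 := by rw [show (240 : K) = 40 * 6 by norm_num, h6, mul_zero]
    have h1 : J * D = 1 := jqModC_mul_deltaSer_eq_one h240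
    have h2 : jqNModC K p * qExpand K p D = 1 := by rw [jqNModC, ← map_mul, h1, map_one]
    have hrel : qExpand K p D * Polynomial.aeval J P = D * Polynomial.aeval J (Polynomial.X : Polynomial K) := by
      rw [hP, Polynomial.aeval_X, mul_comm, h2, mul_comm, h1]
    have hXP := eq_X_pow_of_pushInvariant hPm
      (pushInvariant_of_delta_relation hp hζ hPm hPd hP Polynomial.X_ne_zero hPm.ne_zero hrel)
    rw [hXP, hPd, Polynomial.aeval_X_pow] at hP
    refine qExpand_deltaSer_ne_pow p hp hpK h6 (mul_left_cancel₀
      (left_ne_zero_of_mul_eq_one h2) ?_)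
    rw [h2, ← hP, ← mul_pow, h1, one_pow]
  · set a : K := 1728 with ha_def
    have ha : a ≠ 0 := by
      intro h0
      apply h6
      have h2 : (2 : K) ≠ 0 := fun h2' => h6 (by linear_combination (3 : K) * h2')
      have h3 : (3 : K) ≠ 0 := fun h => h6 (by linear_combination (2 : K) * h)
      exact absurd (show (2 : K) ^ 6 * 3 ^ 3 = 0 by rw [ha_def] at h0; rw [← h0]; norm_num)
        (mul_ne_zero (pow_ne_zero _ h2) (pow_ne_zero _ h3))
    have hPa : P - Polynomial.C a ≠ 0 := fun h0 => by
      have := congrArg Polynomial.natDegree (sub_eq_zero.mp h0)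
      simp [hPd, NeZero.ne p] at this
    have hchain : Polynomial.aeval J P.derivative * theta J =
        (p : LaurentSeries K) * qExpand K p (theta J) := by
      rw [← theta_aeval, hP, jqNModC, theta_qExpand]
    have hC : ∀ x : LaurentSeries K, Polynomial.aeval x (Polynomial.C a) = 1728 := fun x => by
      rw [Polynomial.aeval_C, ha_def, map_ofNat]
    have h6' := theta_jqModC_pow_six K
    have h6p := congrArg (qExpand K p) h6'
    simp only [map_mul, map_pow, map_sub, map_ofNat] at h6p
    rw [← jqNModC] at h6p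
    have hrel0 : Polynomial.aeval J (unitNum P a) * D =
        (p : LaurentSeries K) ^ 6 * (Polynomial.aeval J (unitDen P a) * qExpand K p D) := by
      simp only [unitNum, unitDen, map_mul, map_pow, map_sub, Polynomial.aeval_X, hC, hP]
      calc Polynomial.aeval J P.derivative ^ 6 * (J ^ 4 * (J - 1728) ^ 3) * D
          = (Polynomial.aeval J P.derivative * theta J) ^ 6 := by rw [mul_pow, h6']; ring
        _ = _ := by rw [hchain, mul_pow, h6p]
    have hpC : (p : LaurentSeries K) ^ 6 = Polynomial.aeval J (Polynomial.C ((p : K) ^ 6)) := by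
      rw [Polynomial.aeval_C, map_pow, map_natCast]
    have hrel : qExpand K p D *
        Polynomial.aeval J (Polynomial.C ((p : K) ^ 6) * unitDen P a) =
        D * Polynomial.aeval J (unitNum P a) := by
      rw [map_mul, ← hpC, mul_comm D, hrel0]
      ring
    have hX : (Polynomial.X ^ 4 * (Polynomial.X - Polynomial.C a) ^ 3 : Polynomial K) ≠ 0 :=
      mul_ne_zero (pow_ne_zero _ Polynomial.X_ne_zero)
        (pow_ne_zero _ (Polynomial.X_sub_C_ne_zero a))
    have hA : unitNum P a ≠ 0 := mul_ne_zero (pow_ne_zero _ hP') hX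
    have hB : unitDen P a ≠ 0 :=
      mul_ne_zero (pow_ne_zero _ hPm.ne_zero) (pow_ne_zero _ hPa)
    have hinv := pushInvariant_of_delta_relation hp hζ hPm hPd hP hA
      (mul_ne_zero (Polynomial.C_ne_zero.mpr (pow_ne_zero 6 hpK)) hB) hrel
    rw [PushInvariant, Polynomial.roots_C_mul _ (pow_ne_zero 6 hpK)] at hinv
    refine not_pushInvariant_unit (by rw [hPd]; exact hp.pos) hP' ha ?_ hinv
    have hd : (unitDen P a).natDegree = 4 * p + 3 * p := by
      rw [unitDen, Polynomial.natDegree_mul (pow_ne_zero _ hPm.ne_zero) (pow_ne_zero _ hPa),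
        Polynomial.natDegree_pow, Polynomial.natDegree_pow, Polynomial.natDegree_sub_C, hPd]
    have hn : (unitNum P a).natDegree ≤ 6 * (p - 1) + 7 := by
      rw [unitNum, Polynomial.natDegree_mul (pow_ne_zero _ hP') hX,
        Polynomial.natDegree_mul (pow_ne_zero _ Polynomial.X_ne_zero)
          (pow_ne_zero _ (Polynomial.X_sub_C_ne_zero a)), Polynomial.natDegree_pow,
        Polynomial.natDegree_pow, Polynomial.natDegree_pow, Polynomial.natDegree_X,
        Polynomial.natDegree_X_sub_C]
      have := Polynomial.natDegree_derivative_le P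
      omega
    rw [← (IsAlgClosed.splits (unitDen P a)).natDegree_eq_card_roots, hd]
    refine lt_of_le_of_lt ((unitNum P a).card_roots'.trans hn) ?_
    have := hp.two_le
    omega

theorem jqNModC_notMem_adjoin (K : Type) [Field K] (p : ℕ) [NeZero p] (hp : p.Prime)
    (hpK : (p : K) ≠ 0) : jqNModC K p ∉ IntermediateField.adjoin K {jqModC K} := by
  intro h
  obtain ⟨P, hPm, hPd, hP⟩ := exists_monic_aeval_eq_of_mem p hp h
  set φ := algebraMap K (AlgebraicClosure K) with hφ
  refine not_exists_aeval_eq_jqNModC (K := AlgebraicClosure K) p hp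
    (by rw [← map_natCast φ]; exact fun h0 => hpK ((map_eq_zero φ).mp h0))
    (P.map φ) (hPm.map φ) (by rw [Polynomial.natDegree_map, hPd]) ?_
  have h' := congrArg (coeffMap φ) hP
  rw [coeffMap_jqNModC, Polynomial.aeval_def, Polynomial.hom_eval₂, coeffMap_jqModC] at h'
  rw [Polynomial.aeval_def, Polynomial.eval₂_map]
  rw [show (coeffMap φ).comp (algebraMap K (LaurentSeries K)) =
      (algebraMap (AlgebraicClosure K) (LaurentSeries (AlgebraicClosure K))).comp φ from ?_] at h'
  · exact h'
  · ext x : 1
    simp only [RingHom.comp_apply, algebraMap_laurentSeries_eq_single, coeffMap_single]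

end FLTA.Igusa
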