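/-
Where a ring homomorphism can send the `j(q^d)`, `d ∣ N`, given its value at `j`.
-/
import Mathlib
import Fermat.Agent.Igusa.BaseIrreducible

set_option autoImplicit false

noncomputable section

open HahnSeries ModularCurve IntermediateField

namespace FLTA.Igusa

section JExp

variable {R : Type*} [CommRing R]

/-- `j(z t^k)`, with value `0` at `k = 0`. -/
def jExp (z : Rˣ) (k : ℕ) : LaurentSeries R :=
  if h : k = 0 then 0 else @jAt R _ z k ⟨h⟩

theorem jExp_eq (z : Rˣ) (k : ℕ) [NeZero k] : jExp z k = jAt z k := by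
  rw [jExp, dif_neg (NeZero.ne k)]

theorem jExp_one (k : ℕ) [NeZero k] : jExp (1 : Rˣ) k = qExpand R k (jqModC R) := by
  rw [jExp_eq, jAt_one]

theorem jExp_inj [Nontrivial R] {z z' : Rˣ} {k k' : ℕ} (hk : k ≠ 0) (hk' : k' ≠ 0)
    (h : jExp z k = jExp z' k') : k = k' ∧ z = z' := by
  haveI : NeZero k := ⟨hk⟩
  haveI : NeZero k' := ⟨hk'⟩
  rw [jExp_eq, jExp_eq] at h
  exact jAt_inj h

end JExp

theorem intPoly_hom_ext {B : Type*} [CommRing B] {f g : Polynomial ℤ →+* B}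
    (h : f Polynomial.X = g Polynomial.X) : f = g :=
  Polynomial.ringHom_ext' (Subsingleton.elim _ _) h

theorem comp_aeval_int {A B : Type*} [CommRing A] [CommRing B] {iA : Algebra ℤ A}
    {iB : Algebra ℤ B} (f : A →+* B) (x : A) :
    f.comp (Polynomial.aeval (R := ℤ) x).toRingHom =
      (Polynomial.aeval (R := ℤ) (f x)).toRingHom :=
  intPoly_hom_ext (by simp)

/-- `Φ_p(j(q^d), j(q^(dp))) = 0`. -/
theorem modPoly_eval_qExpand (R : Type) [CommRing R] (p : ℕ) [NeZero p] (hp : p.Prime)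
    (d : ℕ) [NeZero d] :
    (modPoly p hp).eval₂ (Polynomial.aeval (R := ℤ) (qExpand R d (jqModC R))).toRingHom
      (qExpand R (d * p) (jqModC R)) = 0 := by
  have h := congrArg (qExpand R d) (modPoly_eval_jp R p hp)
  rw [map_zero, Polynomial.hom_eval₂, jqNModC, qExpand_qExpand] at h
  convert h using 2
  exact intPoly_hom_ext (by simp)

variable {L : Type} [Field L] [IsAlgClosed L] {Ω : Type*} [Field Ω] (ι : LaurentSeries L →+* Ω)

theorem exists_primitiveRoot_unit (p : ℕ) [NeZero p] (hpL : (p : L) ≠ 0) :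
    ∃ ζ : Lˣ, IsPrimitiveRoot ζ p := by
  haveI : NeZero (p : L) := ⟨hpL⟩
  obtain ⟨ζ, hζ⟩ := HasEnoughRootsOfUnity.exists_primitiveRoot L p
  exact ⟨(hζ.isUnit (NeZero.ne p)).unit, hζ.isUnit_unit (NeZero.ne p)⟩

/-- The roots of `Φ_p(j(z t^(ep)), Y)`. -/
theorem root_modPoly (p : ℕ) [NeZero p] (hp : p.Prime) (hpL : (p : L) ≠ 0) (z : Lˣ) (e : ℕ)
    [NeZero e] (y : Ω)
    (hy : (modPoly p hp).eval₂
      (Polynomial.aeval (R := ℤ) (ι (jExp z (e * p)))).toRingHom y = 0) :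
    y = ι (jExp (z ^ p) (e * (p * p))) ∨ ∃ w : Lˣ, w ^ p = z ∧ y = ι (jExp w e) := by
  obtain ⟨ζ, hζ⟩ := exists_primitiveRoot_unit (L := L) p hpL
  obtain ⟨c₀, hc₀⟩ := IsAlgClosed.exists_pow_nat_eq (z : L) hp.pos
  have hc0 : c₀ ≠ 0 := fun h => z.ne_zero (by rw [← hc₀, h, zero_pow hp.ne_zero])
  obtain ⟨c, rfl⟩ : ∃ c : Lˣ, c ^ p = z := ⟨Units.mk0 c₀ hc0, Units.ext (by simp [hc₀])⟩
  have h := congrArg (fun P => Polynomial.eval y (Polynomial.map ι P))
    (modPoly_map_jAt p hp hζ c e)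
  simp only [Polynomial.map_map, comp_aeval_int, Polynomial.map_mul, Polynomial.map_sub,
    Polynomial.map_X, Polynomial.map_C, Polynomial.map_prod, Polynomial.eval_mul,
    Polynomial.eval_sub, Polynomial.eval_X, Polynomial.eval_C, Polynomial.eval_prod] at h
  rw [Polynomial.eval_map, ← jExp_eq, hy] at h
  rcases mul_eq_zero.mp h.symm with h1 | h1
  · left
    rw [sub_eq_zero.mp h1, jExp_eq, ← pow_mul]
  · right
    obtain ⟨i, -, hi⟩ := Finset.prod_eq_zero_iff.mp h1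
    refine ⟨c * ζ ^ i, ?_, by rw [sub_eq_zero.mp hi, jExp_eq]⟩
    rw [mul_pow, pow_right_comm, hζ.pow_eq_one, one_pow, mul_one]

variable {K : Type} [Field K] (N : ℕ) [NeZero N]

/-- The element `j(q^d)` of the level-`N` field. -/
def jEl (d : ℕ) (hd : d ∣ N) : modularFunctionFieldFullC K N :=
  ⟨@qExpand K _ d ⟨ne_zero_of_dvd_ne_zero (NeZero.ne N) hd⟩ (jqModC K),
    @jqModCd_mem_full K _ N d ⟨ne_zero_of_dvd_ne_zero (NeZero.ne N) hd⟩ hd⟩

theorem coe_jEl (d : ℕ) [NeZero d] (hd : d ∣ N) :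
    (jEl (K := K) N d hd : LaurentSeries K) = qExpand K d (jqModC K) := rfl

theorem jEl_congr {d d' : ℕ} (h : d = d') (hd : d ∣ N) (hd' : d' ∣ N) :
    jEl (K := K) N d hd = jEl N d' hd' := by
  subst h; rfl

variable (τ : modularFunctionFieldFullC K N →+* Ω)

/-- `τ(j_{dp})` is a root of `Φ_p(τ(j_d), Y)`. -/
theorem eval₂_modPoly_tau (d p : ℕ) [NeZero d] [NeZero p] (hp : p.Prime) (h : d * p ∣ N) :
    (modPoly p hp).eval₂
      (Polynomial.aeval (R := ℤ) (τ (jEl N d (dvd_of_mul_right_dvd h)))).toRingHom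
      (τ (jEl N (d * p) h)) = 0 := by
  haveI : NeZero (d * p) := ⟨mul_ne_zero (NeZero.ne d) (NeZero.ne p)⟩
  rw [← comp_aeval_int (iA := inferInstance) τ, ← Polynomial.hom_eval₂]
  convert map_zero τ
  apply Subtype.val_injective
  refine (Polynomial.hom_eval₂ _ _ (modularFunctionFieldFullC K N).val.toRingHom _).trans ?_
  refine Eq.trans ?_ (modPoly_eval_qExpand K p hp d)
  congr 1
  exact intPoly_hom_ext (by simp [jEl])

/-- The expansion attached to `d ∣ N`: exponent divisible by `N/d`, dividing `N d`. -/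
def IsExpansionAt (d : ℕ) (y : Ω) : Prop :=
  ∃ (z : Lˣ) (k : ℕ), y = ι (jExp z k) ∧ N / d ∣ k ∧ k ∣ N * d ∧ (k = N * d → z = 1)

variable {ι N τ}

theorem IsExpansionAt.step (hNL : (N : L) ≠ 0) {d p : ℕ} [NeZero d] [NeZero p] (hp : p.Prime)
    (h : d * p ∣ N) {z : Lˣ} {k : ℕ}
    (hy : τ (jEl N d (dvd_of_mul_right_dvd h)) = ι (jExp z k)) (hk1 : N / d ∣ k) (hk0 : k ≠ 0) :
    τ (jEl N (d * p) h) = ι (jExp (z ^ p) (k * p)) ∨
      ∃ (w : Lˣ) (e : ℕ), w ^ p = z ∧ k = e * p ∧ τ (jEl N (d * p) h) = ι (jExp w e) := by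
  have hpk : p ∣ k := by
    refine dvd_trans ?_ hk1
    obtain ⟨c, hc⟩ := h
    exact ⟨c, by rw [hc, mul_assoc, Nat.mul_div_cancel_left _ (NeZero.pos d)]⟩
  obtain ⟨e, rfl⟩ : ∃ e, k = e * p := ⟨k / p, (Nat.div_mul_cancel hpk).symm⟩
  haveI : NeZero e := ⟨left_ne_zero_of_mul hk0⟩
  have hpL : (p : L) ≠ 0 := fun h0 => hNL (by
    obtain ⟨c, hc⟩ := (dvd_mul_left p d).trans h
    rw [hc, Nat.cast_mul, h0, zero_mul])
  have hroot := eval₂_modPoly_tau N τ d p hp h
  rw [hy] at hroot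
  rcases root_modPoly ι p hp hpL z e _ hroot with h1 | ⟨w, hw, h1⟩
  · exact Or.inl (by rw [h1, mul_assoc])
  · exact Or.inr ⟨w, e, hw, rfl, h1⟩

theorem ne_zero_of_div_dvd {d k : ℕ} (hd : d ∣ N) (hk2 : k ∣ N * d) : k ≠ 0 :=
  ne_zero_of_dvd_ne_zero (mul_ne_zero (NeZero.ne N) (ne_zero_of_dvd_ne_zero (NeZero.ne N) hd)) hk2

/-- Every `τ(j_d)` has an expansion of the expected shape. -/
theorem isExpansionAt_tau (hNL : (N : L) ≠ 0)
    (h1 : τ (jEl N 1 (one_dvd N)) = ι (jExp 1 N)) (d : ℕ) (hd : d ∣ N) :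
    IsExpansionAt ι N d (τ (jEl N d hd)) := by
  induction d using Nat.strong_induction_on with
  | _ d ih =>
    rcases eq_or_ne d 1 with rfl | hd1
    · exact ⟨1, N, h1, by simp, by simp, fun _ => rfl⟩
    · obtain ⟨p, hp, hpd⟩ := Nat.exists_prime_and_dvd hd1
      obtain ⟨e, rfl⟩ : ∃ e, d = e * p := ⟨d / p, (Nat.div_mul_cancel hpd).symm⟩
      have hne := ne_zero_of_dvd_ne_zero (NeZero.ne N) hd
      haveI : NeZero e := ⟨left_ne_zero_of_mul hne⟩
      haveI : NeZero p := ⟨hp.ne_zero⟩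
      obtain ⟨z, k, hy, hk1, hk2, hk3⟩ := ih e ((lt_mul_iff_one_lt_right (NeZero.pos e)).mpr hp.one_lt)
        (dvd_of_mul_right_dvd hd)
      have hk0 := ne_zero_of_div_dvd (dvd_of_mul_right_dvd hd) hk2
      rcases IsExpansionAt.step hNL hp hd hy hk1 hk0 with h' | ⟨w, f, -, rfl, h'⟩
      · refine ⟨z ^ p, k * p, h', ?_, ?_, fun hmax => ?_⟩
        · exact (Nat.div_dvd_div_left hd (dvd_mul_right e p)).trans (hk1.trans (dvd_mul_right k p))
        · rw [← mul_assoc]; exact mul_dvd_mul_right hk2 p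
        · rw [hk3 (Nat.eq_of_mul_eq_mul_right hp.pos (by rw [hmax]; ring)), one_pow]
      · refine ⟨w, f, h', ?_, ?_, fun hmax => ?_⟩
        · rw [← Nat.div_div_eq_div_mul]
          obtain ⟨c, hc⟩ : p ∣ N / e := by
            obtain ⟨c, hc⟩ := hd
            exact ⟨c, by rw [hc, mul_assoc, Nat.mul_div_cancel_left _ (NeZero.pos e)]⟩
          rw [hc] at hk1 ⊢
          rw [Nat.mul_div_cancel_left _ hp.pos]
          exact Nat.dvd_of_mul_dvd_mul_right hp.pos (by rwa [mul_comm c p])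
        · exact ((dvd_mul_right f p).trans hk2).trans ⟨p, by ring⟩
        · exfalso
          have hle := Nat.le_of_dvd (Nat.mul_pos (NeZero.pos N) (NeZero.pos e)) hk2
          rw [hmax] at hle
          nlinarith [Nat.mul_pos (NeZero.pos N) (NeZero.pos e), hp.two_le,
            Nat.mul_le_mul hp.two_le hp.two_le]

/-- If `τ` sends `j_N` to the top exponent, it does so for every `j_d`. -/
theorem tau_eq_of_top (hNL : (N : L) ≠ 0) (h1 : τ (jEl N 1 (one_dvd N)) = ι (jExp 1 N))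
    (hN : τ (jEl N N dvd_rfl) = ι (jExp 1 (N * N))) (d : ℕ) (hd : d ∣ N) :
    τ (jEl N d hd) = ι (jExp 1 (N * d)) := by
  obtain ⟨m, hm⟩ : ∃ m, m = N / d := ⟨_, rfl⟩
  induction m using Nat.strong_induction_on generalizing d with
  | _ m ih =>
    rcases eq_or_ne d N with rfl | hdN
    · exact hN
    · have hd0 : d ≠ 0 := ne_zero_of_dvd_ne_zero (NeZero.ne N) hd
      haveI : NeZero d := ⟨hd0⟩
      have hq : N / d ≠ 1 := fun h => hdN (by
        have := Nat.mul_div_cancel' hd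
        rw [h, mul_one] at this
        exact this)
      obtain ⟨p, hp, hpdvd⟩ := Nat.exists_prime_and_dvd hq
      haveI : NeZero p := ⟨hp.ne_zero⟩
      have hdp : d * p ∣ N := by
        have h2 := mul_dvd_mul_left d hpdvd
        rwa [Nat.mul_div_cancel' hd] at h2
      have hlt : N / (d * p) < m := by
        rw [hm, ← Nat.div_div_eq_div_mul]
        exact Nat.div_lt_self (Nat.div_pos (Nat.le_of_dvd (NeZero.pos N) hd) (NeZero.pos d))
          hp.one_lt
      have hup := ih _ hlt (d * p) hdp rfl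
      obtain ⟨z, k, hy, hk1, hk2, hk3⟩ := isExpansionAt_tau hNL h1 d hd
      have hk0 := ne_zero_of_div_dvd hd hk2
      have hne : N * (d * p) ≠ 0 := by
        simp [NeZero.ne N, hd0, hp.ne_zero]
      rcases IsExpansionAt.step hNL hp hdp hy hk1 hk0 with h' | ⟨w, f, -, rfl, h'⟩
      · rw [hup] at h'
        obtain ⟨hk, -⟩ := jExp_inj hne (mul_ne_zero hk0 hp.ne_zero) (ι.injective h')
        have hkd : k = N * d := Nat.eq_of_mul_eq_mul_right hp.pos (by rw [← hk]; ring)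
        rw [hy, hk3 hkd, hkd]
      · exfalso
        rw [hup] at h'
        obtain ⟨hk, -⟩ := jExp_inj hne (left_ne_zero_of_mul hk0) (ι.injective h')
        have hle := Nat.le_of_dvd (Nat.mul_pos (NeZero.pos N) (NeZero.pos d)) hk2
        rw [← hk] at hle
        nlinarith [Nat.mul_pos (NeZero.pos N) (NeZero.pos d), hp.two_le,
          Nat.mul_le_mul hp.two_le hp.two_le]

/-- If `τ` sends `j_N` to `j`, it sends every `j_d` to `j_{N/d}`. -/
theorem tau_eq_of_bot (hNL : (N : L) ≠ 0) (h1 : τ (jEl N 1 (one_dvd N)) = ι (jExp 1 N))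
    (hN : τ (jEl N N dvd_rfl) = ι (jExp 1 1)) (d : ℕ) (hd : d ∣ N) :
    τ (jEl N d hd) = ι (jExp 1 (N / d)) := by
  obtain ⟨m, hm⟩ : ∃ m, m = N / d := ⟨_, rfl⟩
  induction m using Nat.strong_induction_on generalizing d with
  | _ m ih =>
    rcases eq_or_ne d N with rfl | hdN
    · rw [hN, Nat.div_self (NeZero.pos _)]
    · have hd0 : d ≠ 0 := ne_zero_of_dvd_ne_zero (NeZero.ne N) hd
      haveI : NeZero d := ⟨hd0⟩
      have hq : N / d ≠ 1 := fun h => hdN (by
        have := Nat.mul_div_cancel' hd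
        rw [h, mul_one] at this
        exact this)
      obtain ⟨p, hp, hpdvd⟩ := Nat.exists_prime_and_dvd hq
      haveI : NeZero p := ⟨hp.ne_zero⟩
      have hdp : d * p ∣ N := by
        have h2 := mul_dvd_mul_left d hpdvd
        rwa [Nat.mul_div_cancel' hd] at h2
      have hlt : N / (d * p) < m := by
        rw [hm, ← Nat.div_div_eq_div_mul]
        exact Nat.div_lt_self (Nat.div_pos (Nat.le_of_dvd (NeZero.pos N) hd) (NeZero.pos d))
          hp.one_lt
      have hup := ih _ hlt (d * p) hdp rfl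
      obtain ⟨z, k, hy, hk1, hk2, -⟩ := isExpansionAt_tau hNL h1 d hd
      have hk0 := ne_zero_of_div_dvd hd hk2
      have hmul : N / (d * p) * p = N / d := by
        rw [← Nat.div_div_eq_div_mul, Nat.div_mul_cancel hpdvd]
      have hne : N / (d * p) ≠ 0 :=
        (Nat.div_pos (Nat.le_of_dvd (NeZero.pos N) hdp) (NeZero.pos (d * p))).ne'
      rcases IsExpansionAt.step hNL hp hdp hy hk1 hk0 with h' | ⟨w, f, hw, rfl, h'⟩
      · exfalso
        rw [hup] at h'
        obtain ⟨hk, -⟩ := jExp_inj hne (mul_ne_zero hk0 hp.ne_zero) (ι.injective h')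
        have hle := Nat.le_of_dvd (Nat.pos_of_ne_zero hk0) hk1
        rw [← hmul, hk] at hle
        nlinarith [Nat.pos_of_ne_zero hk0, hp.two_le, Nat.mul_le_mul hp.two_le hp.two_le]
      · rw [hup] at h'
        obtain ⟨hk, hw1⟩ := jExp_inj hne (left_ne_zero_of_mul hk0) (ι.injective h')
        rw [hy, ← hw, ← hw1, one_pow, ← hk, hmul]

end FLTA.Igusa
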