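/-
Separability of the level-`N` field over `K(j)` and its generation by `j` and `j(q^N)`.
-/
import Mathlib
import Fermat.Agent.Igusa.Invariant

set_option autoImplicit false

noncomputable section

open HahnSeries ModularCurve IntermediateField

namespace FLTA.Igusa

variable {K : Type} [Field K]

/-- The coefficientwise inclusion of `K((q))` in Laurent series over the algebraic closure. -/
def toAlgClosed (K : Type) [Field K] : LaurentSeries K →+* LaurentSeries (AlgebraicClosure K) :=
  coeffMap (algebraMap K (AlgebraicClosure K))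

theorem toAlgClosed_qExpand (d : ℕ) [NeZero d] :
    toAlgClosed K (qExpand K d (jqModC K)) = jExp 1 d := by
  rw [toAlgClosed, coeffMap_qExpand, coeffMap_jqModC, jExp_one]

theorem natCast_algebraicClosure_ne_zero {N : ℕ} (hN : (N : K) ≠ 0) :
    (N : AlgebraicClosure K) ≠ 0 := by
  rwa [← map_natCast (algebraMap K (AlgebraicClosure K)), Ne, map_eq_zero]

theorem natCast_ne_zero_of_dvd {N p : ℕ} (hN : (N : K) ≠ 0) (h : p ∣ N) : (p : K) ≠ 0 :=
  fun h0 => hN (by
    obtain ⟨c, rfl⟩ := h
    rw [Nat.cast_mul, h0, zero_mul])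

section Product

variable {L : Type} [Field L]

/-- The product formula for `Φ_p(j(t^p), Y)`. -/
theorem modPoly_map_jExp (p : ℕ) [NeZero p] (hp : p.Prime) {ζ : Lˣ} (hζ : IsPrimitiveRoot ζ p)
    (e : ℕ) [NeZero e] :
    (modPoly p hp).map (Polynomial.aeval (R := ℤ) (jExp (1 : Lˣ) (e * p))).toRingHom =
      (Polynomial.X - Polynomial.C (jExp (1 : Lˣ) (e * (p * p)))) *
        ∏ i ∈ Finset.range p, (Polynomial.X - Polynomial.C (jExp (ζ ^ i) e)) := by
  have h := modPoly_map_jAt p hp hζ (1 : Lˣ) e
  simp only [one_pow, one_mul] at h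
  simpa only [jExp_eq] using h

/-- Its roots are simple. -/
theorem separable_modPoly_map_jExp (p : ℕ) [NeZero p] (hp : p.Prime) {ζ : Lˣ}
    (hζ : IsPrimitiveRoot ζ p) (e : ℕ) [NeZero e] :
    ((modPoly p hp).map
      (Polynomial.aeval (R := ℤ) (jExp (1 : Lˣ) (e * p))).toRingHom).Separable := by
  rw [modPoly_map_jExp p hp hζ e]
  refine Polynomial.separable_X_sub_C.mul ?_ (IsCoprime.prod_right fun i _ => ?_)
  · rw [Polynomial.separable_prod_X_sub_C_iff']
    intro i hi k hk h
    exact hζ.pow_inj (Finset.mem_range.mp hi) (Finset.mem_range.mp hk)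
      (jExp_inj (NeZero.ne e) (NeZero.ne e) h).2
  · refine Polynomial.isCoprime_X_sub_C_of_isUnit_sub (sub_ne_zero.mpr fun h => ?_).isUnit
    have h2 := (jExp_inj (mul_ne_zero (NeZero.ne e) (mul_ne_zero hp.ne_zero hp.ne_zero))
      (NeZero.ne e) h).1
    nlinarith [NeZero.pos e, hp.two_le, Nat.mul_le_mul hp.two_le hp.two_le]

end Product

/-- Each `j(q^d)` is separable over every field containing `j`. -/
theorem isSeparable_qExpand (E : IntermediateField K (LaurentSeries K)) (hj : jqModC K ∈ E)
    (d : ℕ) [NeZero d] (hd : (d : K) ≠ 0) :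
    IsSeparable E (qExpand K d (jqModC K)) := by
  suffices h : ∀ (m : ℕ) (hm : NeZero m), (m : K) ≠ 0 →
      qExpand K m (jqModC K) ∈ separableClosure E (LaurentSeries K) from
    mem_separableClosure_iff.mp (h d ‹_› hd)
  intro m
  induction m using Nat.strong_induction_on with
  | _ m ih =>
    intro hm hmK
    rcases eq_or_ne m 1 with rfl | hm1
    · rw [qExpand_one_apply]
      exact mem_separableClosure_iff.mpr (isSeparable_algebraMap (⟨jqModC K, hj⟩ : E))
    · obtain ⟨p, hp, hpm⟩ := Nat.exists_prime_and_dvd hm1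
      obtain ⟨e, rfl⟩ : ∃ e, m = e * p := ⟨m / p, (Nat.div_mul_cancel hpm).symm⟩
      haveI : NeZero e := ⟨left_ne_zero_of_mul hm.out⟩
      haveI : NeZero p := ⟨hp.ne_zero⟩
      have hmem := ih e ((lt_mul_iff_one_lt_right (NeZero.pos e)).mpr hp.one_lt) inferInstance
        (natCast_ne_zero_of_dvd hmK (dvd_mul_right e p))
      let S := separableClosure E (LaurentSeries K)
      let Q : Polynomial S :=
        (modPoly p hp).map (Polynomial.aeval (R := ℤ) (⟨_, hmem⟩ : S)).toRingHom
      obtain ⟨ζ, hζ⟩ := exists_primitiveRoot_unit (L := AlgebraicClosure K) p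
        (natCast_algebraicClosure_ne_zero (natCast_ne_zero_of_dvd hmK hpm))
      have hsep : Q.Separable := by
        rw [← Polynomial.separable_map
          (((qExpand (AlgebraicClosure K) p).comp (toAlgClosed K)).comp
            (algebraMap S (LaurentSeries K))), Polynomial.map_map]
        rw [show ((((qExpand (AlgebraicClosure K) p).comp (toAlgClosed K)).comp
            (algebraMap S (LaurentSeries K))).comp
              (Polynomial.aeval (R := ℤ) (⟨_, hmem⟩ : S)).toRingHom) =
            (Polynomial.aeval (R := ℤ) (jExp (1 : (AlgebraicClosure K)ˣ) (e * p))).toRingHom from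
          intPoly_hom_ext (by
            simp [toAlgClosed_qExpand, jExp_one, qExpand_qExpand, mul_comm e p])]
        exact separable_modPoly_map_jExp p hp hζ e
      have hroot : Polynomial.aeval (qExpand K (e * p) (jqModC K)) Q = 0 := by
        rw [Polynomial.aeval_def, Polynomial.eval₂_map]
        convert modPoly_eval_qExpand K p hp e using 2
        exact intPoly_hom_ext (by simp)
      have hx : IsSeparable S (qExpand K (e * p) (jqModC K)) :=
        hsep.of_dvd (minpoly.dvd S _ hroot)
      exact mem_separableClosure_iff.mpr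
        (IsSeparable.of_algebra_isSeparable_of_isSeparable E hx)

theorem isIntegral_qExpand (E : IntermediateField K (LaurentSeries K)) (hj : jqModC K ∈ E)
    (d : ℕ) [NeZero d] (hd : (d : K) ≠ 0) : IsIntegral E (qExpand K d (jqModC K)) :=
  (isSeparable_qExpand E hj d hd).isIntegral

/-- A ring homomorphism out of the level-`N` field, built from one out of a larger base. -/
def restrictFull (E : IntermediateField K (LaurentSeries K)) (N : ℕ) {Ω : Type} [Field Ω]
    [Algebra E Ω] (σ : IntermediateField.adjoin E (divisorExpansionsC K N) →ₐ[E] Ω) :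
    modularFunctionFieldFullC K N →+* Ω :=
  σ.toRingHom.comp <| (IntermediateField.inclusion
    (F := (IntermediateField.adjoin E (divisorExpansionsC K N)).restrictScalars K)
    (adjoin_le_iff.mpr (subset_adjoin E (divisorExpansionsC K N)))).toRingHom

variable (N : ℕ) [NeZero N]

/-- `K(j, j_N)` contains every `j_d`, `d ∣ N`. -/
theorem qExpand_mem_modularFunctionFieldC (hN : (N : K) ≠ 0) (d : ℕ) [NeZero d] (hd : d ∣ N) :
    qExpand K d (jqModC K) ∈ modularFunctionFieldC K N := by
  let E := modularFunctionFieldC K N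
  let ι := algebraMap (LaurentSeries (AlgebraicClosure K))
    (AlgebraicClosure (LaurentSeries (AlgebraicClosure K)))
  let g : LaurentSeries K →+* AlgebraicClosure (LaurentSeries (AlgebraicClosure K)) :=
    (ι.comp (qExpand (AlgebraicClosure K) N)).comp (toAlgClosed K)
  letI : Algebra E (AlgebraicClosure (LaurentSeries (AlgebraicClosure K))) :=
    (g.comp (algebraMap E (LaurentSeries K))).toAlgebra
  have hj : jqModC K ∈ E := jqModC_mem K N
  have hint : ∀ s ∈ divisorExpansionsC K N, IsIntegral E s := by
    rintro s ⟨c, hc, hcN, rfl⟩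
    exact isIntegral_qExpand E hj c (natCast_ne_zero_of_dvd hN hcN)
  have hg : ∀ (c : ℕ) [NeZero c], g (qExpand K c (jqModC K)) = ι (jExp 1 (N * c)) := by
    intro c hc
    simp [g, toAlgClosed_qExpand, jExp_one, qExpand_qExpand]
  set x := qExpand K d (jqModC K) with hx
  have hxmem : x ∈ IntermediateField.adjoin E (divisorExpansionsC K N) :=
    subset_adjoin E _ (mem_divisorExpansionsC K N hd)
  have hxsep : IsSeparable E x := isSeparable_qExpand E hj d (natCast_ne_zero_of_dvd hN hd)
  have hroots : ∀ r : AlgebraicClosure (LaurentSeries (AlgebraicClosure K)),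
      Polynomial.aeval r (minpoly E x) = 0 → r = g x := by
    intro r hr
    obtain ⟨σ, hσ⟩ := IntermediateField.exists_algHom_adjoin_of_splits_of_aeval
      (S := divisorExpansionsC K N) (F := E)
      (fun s hs => ⟨hint s hs, IsAlgClosed.splits _⟩) hxmem hr
    let τ := restrictFull E N σ
    have hτE : ∀ (y : LaurentSeries K) (hy : y ∈ E) (hy' : y ∈ modularFunctionFieldFullC K N),
        τ ⟨y, hy'⟩ = g y := fun y hy _ => σ.commutes (⟨y, hy⟩ : E)
    have h1 : τ (jEl N 1 (one_dvd N)) = ι (jExp 1 N) := by
      have h2 : qExpand K 1 (jqModC K) ∈ E := by rw [qExpand_one_apply]; exact hj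
      refine (hτE _ h2 _).trans ?_
      rw [hg, mul_one]
    have hN' : τ (jEl N N dvd_rfl) = ι (jExp 1 (N * N)) :=
      (hτE _ (jqNModC_mem K N) _).trans (hg N)
    have := tau_eq_of_top (natCast_algebraicClosure_ne_zero hN) h1 hN' d hd
    rw [hg, ← this, ← hσ]
    rfl
  have hdeg : (minpoly E x).natDegree = 1 := by
    have hcard := (IsAlgClosed.splits ((minpoly E x).map
        (algebraMap E (AlgebraicClosure (LaurentSeries (AlgebraicClosure K)))))).natDegree_eq_card_roots
    rw [Polynomial.natDegree_map] at hcard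
    have hpos := minpoly.natDegree_pos hxsep.isIntegral
    have hnd := Polynomial.nodup_roots (Polynomial.Separable.map (f :=
      algebraMap E (AlgebraicClosure (LaurentSeries (AlgebraicClosure K)))) hxsep)
    have hle : Multiset.card ((minpoly E x).map
        (algebraMap E (AlgebraicClosure (LaurentSeries (AlgebraicClosure K))))).roots ≤ 1 := by
      refine (Multiset.card_le_card (t := {g x}) ((Multiset.le_iff_subset hnd).mpr fun r hr => ?_))
      rw [Multiset.mem_singleton]
      exact hroots r (Polynomial.aeval_def r (minpoly E x) ▸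
        (Polynomial.eval_map _ r).symm.trans (Polynomial.isRoot_of_mem_roots hr))
    omega
  obtain ⟨y, hy⟩ := (minpoly.natDegree_eq_one_iff).mp hdeg
  rw [← hy]
  exact y.2

/-- `K(j, j_N)` is the whole level-`N` field. -/
theorem modularFunctionFieldC_eq_fullC (hN : (N : K) ≠ 0) :
    modularFunctionFieldC K N = modularFunctionFieldFullC K N := by
  refine le_antisymm (modularFunctionFieldC_le_full K N) ?_
  rw [modularFunctionFieldFullC, adjoin_le_iff]
  rintro x ⟨d, hd, hdN, rfl⟩
  exact qExpand_mem_modularFunctionFieldC N hN d hdN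

end FLTA.Igusa
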