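/-
One prime step in the tower of level-`N` fields: irreducibility and extension of the Fricke map.
-/
import Mathlib
import Fermat.Agent.Igusa.Separable

set_option autoImplicit false

noncomputable section

open HahnSeries ModularCurve IntermediateField

namespace FLTA.Igusa

theorem qExpand_jExp {R : Type*} [CommRing R] (q : ℕ) [NeZero q] (z : Rˣ) (k : ℕ) [NeZero k] :
    qExpand R q (jExp z k) = jExp z (q * k) := by
  rw [jExp_eq, jExp_eq, qExpand_jAt]

theorem jExp_notMem_range_qExpand {R : Type*} [CommRing R] [Nontrivial R] (q : ℕ) [NeZero q]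
    (z : Rˣ) (k : ℕ) [NeZero k] (hqk : ¬ q ∣ k) (f : LaurentSeries R) :
    qExpand R q f ≠ jExp z k := by
  intro h
  have h1 := coeff_jAt_neg z k
  rw [← jExp_eq, ← h, qExpand_coeff_of_not_dvd q f (by rwa [dvd_neg, Int.natCast_dvd_natCast])]
    at h1
  exact z⁻¹.ne_zero h1.symm

section Orbit

variable {L : Type} [Field L]

/-- A separable polynomial over a field fixed by `t ↦ ζ t`, all of whose roots but possibly one
form one orbit, and which has no root in the field, is irreducible. -/
theorem irreducible_of_orbit {E : Type*} [Field E] (q : ℕ) [NeZero q] {ζ : Lˣ}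
    (hζ : IsPrimitiveRoot ζ q) (φ : E →+* LaurentSeries L)
    (hφ : ∀ a, ∃ f, qExpand L q f = φ a) (Ψ : Polynomial E) (hm : Ψ.Monic)
    (hpos : 0 < Ψ.natDegree) (hsep : (Ψ.map φ).Separable) (hsplit : (Ψ.map φ).Splits)
    (r0 : LaurentSeries L)
    (hroots : ∀ r, (Ψ.map φ).IsRoot r → r = r0 ∨ ∃ i : ℕ, r = jExp (ζ ^ i) 1)
    (hno : ∀ a, ¬ Ψ.IsRoot a) : Irreducible Ψ := by
  have key : ∀ g : Polynomial E, g.Monic → 0 < g.natDegree → g ∣ Ψ →
      (g.map φ).IsRoot (jExp (1 : Lˣ) 1) := by
    intro g hg hgpos hgd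
    have hdvd : g.map φ ∣ Ψ.map φ := Polynomial.map_dvd φ hgd
    have hgsplit : (g.map φ).Splits := hsplit.of_dvd (hm.map φ).ne_zero hdvd
    have hsubset : ∀ r ∈ (g.map φ).roots, r = r0 ∨ ∃ i : ℕ, r = jExp (ζ ^ i) 1 := fun r hr =>
      hroots r ((Polynomial.isRoot_of_mem_roots hr).dvd hdvd)
    by_cases hex : ∃ i : ℕ, (g.map φ).IsRoot (jExp (ζ ^ i) 1)
    · obtain ⟨i, hi⟩ := hex
      have hw : ((ζ ^ i)⁻¹) ^ q = 1 := by
        rw [inv_pow, pow_right_comm, hζ.pow_eq_one, one_pow, inv_one]
      have hfix : (twist (ζ ^ i)⁻¹).comp φ = φ := by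
        refine RingHom.ext fun a => ?_
        obtain ⟨f, hf⟩ := hφ a
        rw [RingHom.comp_apply, ← hf, twist_qExpand, hw, twist_one_apply]
      have himg := congrArg (twist (ζ ^ i)⁻¹) hi
      rw [Polynomial.eval_map, Polynomial.hom_eval₂, hfix, map_zero, jExp_eq, twist_jAt, pow_one,
        inv_mul_cancel, ← jExp_eq] at himg
      rwa [Polynomial.IsRoot.def, Polynomial.eval_map]
    · exfalso
      have hnd : (g.map φ).roots.Nodup := Polynomial.nodup_roots (hsep.of_dvd hdvd)
      have hle : Multiset.card (g.map φ).roots ≤ 1 := by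
        refine Multiset.card_le_card (t := {r0}) ((Multiset.le_iff_subset hnd).mpr fun r hr => ?_)
        rw [Multiset.mem_singleton]
        rcases hsubset r hr with h | ⟨i, rfl⟩
        · exact h
        · exact absurd ⟨i, Polynomial.isRoot_of_mem_roots hr⟩ hex
      have hcard := hgsplit.natDegree_eq_card_roots
      rw [Polynomial.natDegree_map] at hcard
      obtain ⟨a, rfl⟩ : ∃ a, g = Polynomial.X + Polynomial.C a :=
        ⟨_, hg.eq_X_add_C (by omega)⟩
      exact hno (-a) (Polynomial.IsRoot.dvd (p := Polynomial.X + Polynomial.C a) (by simp) hgd)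
  rw [hm.irreducible_iff_natDegree]
  refine ⟨fun h => by simp [h] at hpos, fun f g hf hg hfg => ?_⟩
  by_contra hne
  simp only [not_or] at hne
  have h1 := key f hf (Nat.pos_of_ne_zero hne.1) (hfg ▸ dvd_mul_right f g)
  have h2 := key g hg (Nat.pos_of_ne_zero hne.2) (hfg ▸ dvd_mul_left g f)
  rw [← hfg, Polynomial.map_mul] at hsep
  obtain ⟨u, v, huv⟩ := hsep.isCoprime
  have := congrArg (Polynomial.eval (jExp (1 : Lˣ) 1)) huv
  rw [Polynomial.eval_add, Polynomial.eval_mul, Polynomial.eval_mul, h1.eq_zero, h2.eq_zero,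
    mul_zero, mul_zero, add_zero, Polynomial.eval_one] at this
  exact zero_ne_one this

end Orbit

variable {K : Type} [Field K]

/-- A Fricke map of level `M`, valued in Laurent series over the algebraic closure. -/
structure IsFricke (M : ℕ) [NeZero M]
    (W : modularFunctionFieldFullC K M →+* LaurentSeries (AlgebraicClosure K)) : Prop where
  const : ∀ c : K, W (algebraMap K (modularFunctionFieldFullC K M) c) =
    toAlgClosed K (algebraMap K (LaurentSeries K) c)
  map_jEl : ∀ (a : ℕ) (ha : a ∣ M), W (jEl M a ha) = jExp 1 (M / a)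

theorem toAlgClosed_injective : Function.Injective (toAlgClosed K) := fun x y h =>
  HahnSeries.ext (funext fun n =>
    (algebraMap K (AlgebraicClosure K)).injective (congrArg (fun s => HahnSeries.coeff s n) h))

/-- The image of a Fricke map is the level-`M` field. -/
theorem IsFricke.exists_preimage {M : ℕ} [NeZero M]
    {W : modularFunctionFieldFullC K M →+* LaurentSeries (AlgebraicClosure K)}
    (hW : IsFricke M W) (y : modularFunctionFieldFullC K M) :
    ∃ z ∈ modularFunctionFieldFullC K M, toAlgClosed K z = W y := by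
  obtain ⟨y, hy⟩ := y
  induction hy using IntermediateField.adjoin_induction with
  | mem s hs =>
    obtain ⟨a, ha, haM, rfl⟩ := hs
    haveI : NeZero (M / a) :=
      ⟨(Nat.div_pos (Nat.le_of_dvd (NeZero.pos M) haM) (NeZero.pos a)).ne'⟩
    exact ⟨_, jqModCd_mem_full K M (Nat.div_dvd_of_dvd haM),
      (toAlgClosed_qExpand _).trans (hW.map_jEl a haM).symm⟩
  | algebraMap c => exact ⟨_, IntermediateField.algebraMap_mem _ c, (hW.const c).symm⟩
  | add x y hx hy ihx ihy =>
    obtain ⟨u, hu, hu'⟩ := ihx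
    obtain ⟨v, hv, hv'⟩ := ihy
    exact ⟨u + v, add_mem hu hv, by
      rw [map_add, hu', hv', ← map_add]; exact congrArg W (Subtype.ext rfl)⟩
  | inv x hx ihx =>
    obtain ⟨u, hu, hu'⟩ := ihx
    exact ⟨u⁻¹, inv_mem hu, by
      rw [map_inv₀, hu', ← map_inv₀]; exact congrArg W (Subtype.ext rfl)⟩
  | mul x y hx hy ihx ihy =>
    obtain ⟨u, hu, hu'⟩ := ihx
    obtain ⟨v, hv, hv'⟩ := ihy
    exact ⟨u * v, mul_mem hu hv, by
      rw [map_mul, hu', hv', ← map_mul]; exact congrArg W (Subtype.ext rfl)⟩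

theorem mem_full_of_dvd {M N : ℕ} [NeZero N] [NeZero M] (h : M ∣ N) :
    modularFunctionFieldFullC K M ≤ modularFunctionFieldFullC K N :=
  full_degeneracyC_le K h

theorem natCast_mul_ne_zero {M q : ℕ} (hM : (M : K) ≠ 0) (hq : (q : K) ≠ 0) :
    ((M * q : ℕ) : K) ≠ 0 := by
  rw [Nat.cast_mul]
  exact mul_ne_zero hM hq

/-- Level `Mq` is generated over level `M` by `j(q^(Mq))`. -/
theorem restrictScalars_adjoin_jMq (M q : ℕ) [NeZero M] [NeZero q] [NeZero (M * q)]
    (hMq : ((M * q : ℕ) : K) ≠ 0) :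
    (IntermediateField.adjoin (modularFunctionFieldFullC K M)
      {qExpand K (M * q) (jqModC K)}).restrictScalars K = modularFunctionFieldFullC K (M * q) := by
  refine le_antisymm ?_ ?_
  · intro y hy
    rw [IntermediateField.mem_restrictScalars] at hy
    induction hy using IntermediateField.adjoin_induction with
    | mem s hs =>
      rw [Set.mem_singleton_iff] at hs
      subst hs
      exact jqModCd_mem_full K _ dvd_rfl
    | algebraMap c => exact mem_full_of_dvd (dvd_mul_right M q) c.2
    | add x y _ _ hx hy => exact add_mem hx hy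
    | inv x _ hx => exact inv_mem hx
    | mul x y _ _ hx hy => exact mul_mem hx hy
  · rw [← modularFunctionFieldC_eq_fullC (M * q) hMq, modularFunctionFieldC, adjoin_le_iff]
    rintro s (rfl | rfl)
    · exact IntermediateField.algebraMap_mem (IntermediateField.adjoin (modularFunctionFieldFullC K M)
        {qExpand K (M * q) (jqModC K)}) ⟨jqModC K, jqModC_mem_full K M⟩
    · exact (IntermediateField.mem_restrictScalars K).mpr
        (mem_adjoin_simple_self (modularFunctionFieldFullC K M) (qExpand K (M * q) (jqModC K)))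

set_option maxHeartbeats 1600000 in
/-- The step from level `M` to level `Mq`, assuming `j(q^q)` is new when `q ∤ M`. -/
theorem step_fricke (M q : ℕ) [NeZero M] [NeZero q] [NeZero (M * q)] (hq : q.Prime)
    (hMK : (M : K) ≠ 0) (hqK : (q : K) ≠ 0)
    (W : modularFunctionFieldFullC K M →+* LaurentSeries (AlgebraicClosure K))
    (hW : IsFricke M W)
    (hnew : ¬ q ∣ M → qExpand K q (jqModC K) ∉ modularFunctionFieldFullC K M) :
    (minpoly (modularFunctionFieldFullC K M) (qExpand K (M * q) (jqModC K))).natDegree =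
        (if q ∣ M then q else q + 1) ∧
      ∃ W' : modularFunctionFieldFullC K (M * q) →+* LaurentSeries (AlgebraicClosure K),
        IsFricke (M * q) W' := by
  obtain ⟨ζ, hζ⟩ := exists_primitiveRoot_unit (L := AlgebraicClosure K) q
    (natCast_algebraicClosure_ne_zero hqK)
  let φ := (qExpand (AlgebraicClosure K) q).comp W
  let x := qExpand K (M * q) (jqModC K)
  have hMqK : ((M * q : ℕ) : K) ≠ 0 := natCast_mul_ne_zero hMK hqK
  have hφM : φ (jEl M M dvd_rfl) = jExp 1 (1 * q) := by
    simp only [φ, RingHom.comp_apply, hW.map_jEl, Nat.div_self (NeZero.pos M)]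
    rw [qExpand_jExp, mul_comm]
  let Q : Polynomial (modularFunctionFieldFullC K M) :=
    (modPoly q hq).map (Polynomial.aeval (R := ℤ) (jEl (K := K) M M dvd_rfl)).toRingHom
  have hQmap : Q.map φ = (modPoly q hq).map
      (Polynomial.aeval (R := ℤ) (jExp (1 : (AlgebraicClosure K)ˣ) (1 * q))).toRingHom := by
    rw [Polynomial.map_map]
    exact congrArg (fun f => (modPoly q hq).map f) (intPoly_hom_ext (by simp [hφM]))
  have hQsep : (Q.map φ).Separable := hQmap ▸ separable_modPoly_map_jExp q hq hζ 1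
  have hQprod := hQmap.trans (modPoly_map_jExp q hq hζ 1)
  rw [one_mul] at hQprod
  have hQmonic : Q.Monic := (modPoly_monic q hq).map _
  have hQdeg : Q.natDegree = q + 1 := by
    rw [(modPoly_monic q hq).natDegree_map, modPoly_natDegree]
  have hQsplit : (Q.map φ).Splits := by
    rw [hQprod]
    exact (Polynomial.Splits.X_sub_C _).mul
      (Polynomial.Splits.prod fun i _ => Polynomial.Splits.X_sub_C _)
  have hQroots : ∀ r, (Q.map φ).IsRoot r →
      r = jExp 1 (q * q) ∨ ∃ i : ℕ, r = jExp (ζ ^ i) 1 := by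
    intro r hr
    rw [hQprod, Polynomial.IsRoot.def, Polynomial.eval_mul, Polynomial.eval_prod] at hr
    rcases mul_eq_zero.mp hr with h | h
    · exact Or.inl (by simpa [sub_eq_zero] using h)
    · obtain ⟨i, -, hi⟩ := Finset.prod_eq_zero_iff.mp h
      exact Or.inr ⟨i, by simpa [sub_eq_zero] using hi⟩
  have hQone : (Q.map φ).IsRoot (jExp 1 1) := by
    rw [hQprod, Polynomial.IsRoot.def, Polynomial.eval_mul, Polynomial.eval_prod]
    refine mul_eq_zero_of_right _ (Finset.prod_eq_zero (Finset.mem_range.mpr hq.pos) ?_)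
    simp
  have hxQ : Polynomial.aeval x Q = 0 := by
    rw [Polynomial.aeval_def, Polynomial.eval₂_map]
    convert modPoly_eval_qExpand K q hq M using 2
    exact intPoly_hom_ext (by simp [coe_jEl])
  have hroot_cases : ∀ a, Q.IsRoot a → φ a = jExp 1 (q * q) := fun a ha => by
    rcases hQroots _ (ha.map (f := φ)) with h | ⟨i, hi⟩
    · exact h
    · exact absurd hi (jExp_notMem_range_qExpand q _ 1 hq.not_dvd_one (W a))
  obtain ⟨Ψ, hΨdeg, hΨmonic, hΨdvd, hΨx, hΨno, hΨone⟩ :
      ∃ Ψ : Polynomial (modularFunctionFieldFullC K M),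
        Ψ.natDegree = (if q ∣ M then q else q + 1) ∧ Ψ.Monic ∧ Ψ ∣ Q ∧
          Polynomial.aeval x Ψ = 0 ∧ (∀ a, ¬ Ψ.IsRoot a) ∧ (Ψ.map φ).IsRoot (jExp 1 1) := by
    by_cases hdiv : q ∣ M
    · haveI : NeZero (M / q) :=
        ⟨(Nat.div_pos (Nat.le_of_dvd (NeZero.pos M) hdiv) hq.pos).ne'⟩
      let m := jEl (K := K) M (M / q) (Nat.div_dvd_of_dvd hdiv)
      have hφm : φ m = jExp 1 (q * q) := by
        simp only [φ, m, RingHom.comp_apply, hW.map_jEl]
        rw [Nat.div_div_self hdiv (NeZero.ne M), qExpand_jExp]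
      have hm : Q.IsRoot m := by
        refine φ.injective ?_
        rw [map_zero, ← Polynomial.eval_map_apply, hφm, hQprod]
        simp
      obtain ⟨Ψ, hΨ⟩ := Polynomial.dvd_iff_isRoot.mpr hm
      have hΨm : Ψ.Monic := (Polynomial.monic_X_sub_C m).of_mul_monic_left (hΨ ▸ hQmonic)
      refine ⟨Ψ, ?_, hΨm, hΨ ▸ dvd_mul_left _ _, ?_, ?_, ?_⟩
      · rw [if_pos hdiv]
        have := congrArg Polynomial.natDegree hΨ
        rw [hQdeg, (Polynomial.monic_X_sub_C m).natDegree_mul hΨm,
          Polynomial.natDegree_X_sub_C] at this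
        omega
      · have := hxQ
        rw [hΨ, map_mul, map_sub, Polynomial.aeval_X, Polynomial.aeval_C] at this
        refine (mul_eq_zero.mp this).resolve_left (sub_ne_zero.mpr fun h => ?_)
        have hne := (jAt_inj (R := K) (c := 1) (d := 1) (e := M * q) (f := M / q)
          (by rw [jAt_one, jAt_one]; exact h)).1
        have := Nat.div_le_self M q
        nlinarith [NeZero.pos M, hq.two_le]
      · intro a ha
        have hQa : Q.IsRoot a := ha.dvd (hΨ ▸ dvd_mul_left _ _)
        obtain rfl : a = m := φ.injective ((hroot_cases a hQa).trans hφm.symm)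
        obtain ⟨c, hc⟩ := Polynomial.dvd_iff_isRoot.mpr ha
        refine Polynomial.not_isUnit_X_sub_C (φ m) (hQsep.squarefree _ ?_)
        rw [hΨ, hc, Polynomial.map_mul, Polynomial.map_mul, Polynomial.map_sub,
          Polynomial.map_X, Polynomial.map_C, ← mul_assoc]
        exact dvd_mul_right _ _
      · have := hQone
        rw [hΨ, Polynomial.map_mul, Polynomial.IsRoot.def, Polynomial.eval_mul] at this
        refine (mul_eq_zero.mp this).resolve_left ?_
        rw [Polynomial.map_sub, Polynomial.map_X, Polynomial.map_C, Polynomial.eval_sub,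
          Polynomial.eval_X, Polynomial.eval_C, hφm, sub_eq_zero]
        intro h
        have := (jExp_inj one_ne_zero (mul_ne_zero hq.ne_zero hq.ne_zero) h).1
        nlinarith [hq.two_le]
    · refine ⟨Q, by rw [if_neg hdiv, hQdeg], hQmonic, dvd_rfl, hxQ, fun a ha => hnew hdiv ?_,
        hQone⟩
      have h1 := hroot_cases a ha
      rw [← qExpand_jExp q (1 : (AlgebraicClosure K)ˣ) q] at h1
      obtain ⟨z, hz, hz'⟩ := hW.exists_preimage a
      have h2 : W a = jExp 1 q := qExpand_injective q h1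
      rw [h2, ← toAlgClosed_qExpand] at hz'
      rwa [← toAlgClosed_injective hz']
  have hΨpos : 0 < Ψ.natDegree := by
    rw [hΨdeg]; split_ifs <;> linarith [hq.pos]
  have hirr : Irreducible Ψ :=
    irreducible_of_orbit q hζ φ (fun a => ⟨W a, rfl⟩) Ψ hΨmonic hΨpos
      (hQsep.of_dvd (Polynomial.map_dvd φ hΨdvd))
      (hQsplit.of_dvd (hQmonic.map φ).ne_zero (Polynomial.map_dvd φ hΨdvd)) (jExp 1 (q * q))
      (fun r hr => hQroots r (hr.dvd (Polynomial.map_dvd φ hΨdvd))) hΨno
  have hmin : minpoly (modularFunctionFieldFullC K M) x = Ψ :=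
    (minpoly.eq_of_irreducible_of_monic hirr hΨx hΨmonic).symm
  refine ⟨by rw [hmin, hΨdeg], ?_⟩
  have hint : IsIntegral (modularFunctionFieldFullC K M) x := ⟨Ψ, hΨmonic, hΨx⟩
  letI : Algebra (modularFunctionFieldFullC K M) (LaurentSeries (AlgebraicClosure K)) :=
    φ.toAlgebra
  have hmem : jExp (1 : (AlgebraicClosure K)ˣ) 1 ∈
      (minpoly (modularFunctionFieldFullC K M) x).aroots
        (LaurentSeries (AlgebraicClosure K)) := by
    rw [hmin, Polynomial.mem_aroots, Polynomial.aeval_def, ← Polynomial.eval_map]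
    exact ⟨hΨmonic.ne_zero, hΨone⟩
  let e := (IntermediateField.algHomAdjoinIntegralEquiv (modularFunctionFieldFullC K M) hint).symm
    ⟨_, hmem⟩
  let W' : modularFunctionFieldFullC K (M * q) →+* LaurentSeries (AlgebraicClosure K) :=
    e.toRingHom.comp (IntermediateField.inclusion
      (restrictScalars_adjoin_jMq M q hMqK).ge).toRingHom
  have hbase : ∀ (y : LaurentSeries K) (hy : y ∈ modularFunctionFieldFullC K M)
      (hy' : y ∈ modularFunctionFieldFullC K (M * q)), W' ⟨y, hy'⟩ = φ ⟨y, hy⟩ :=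
    fun y hy _ => e.commutes ⟨y, hy⟩
  have h1 : W' (jEl (M * q) 1 (one_dvd _)) =
      (RingHom.id _) (jExp (1 : (AlgebraicClosure K)ˣ) (M * q)) := by
    refine (hbase _ (jqModCd_mem_full K M (one_dvd M)) _).trans ?_
    show qExpand _ q (W (jEl M 1 (one_dvd M))) = _
    rw [hW.map_jEl, Nat.div_one, qExpand_jExp, mul_comm, RingHom.id_apply]
  have hN : W' (jEl (M * q) (M * q) dvd_rfl) =
      (RingHom.id _) (jExp (1 : (AlgebraicClosure K)ˣ) 1) :=
    IntermediateField.algHomAdjoinIntegralEquiv_symm_apply_gen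
      (modularFunctionFieldFullC K M) hint ⟨_, hmem⟩
  refine ⟨W', fun c => ?_, fun a ha =>
    tau_eq_of_bot (natCast_algebraicClosure_ne_zero hMqK) h1 hN a ha⟩
  refine (hbase _ ((modularFunctionFieldFullC K M).algebraMap_mem c) _).trans ?_
  show qExpand _ q (W (algebraMap K (modularFunctionFieldFullC K M) c)) = _
  rw [hW.const, algebraMap_laurentSeries_eq_single, toAlgClosed, coeffMap_single, qExpand_single,
    mul_zero]

end FLTA.Igusa
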