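/-
The degree of the level-`N` modular function field over `K(j)` for every field `K` in which `N`
is invertible, and the Fricke symmetry.
-/
import Mathlib
import Fermat.Agent.Igusa.Step
import Fermat.Agent.Gamma0.CountsIndex

set_option autoImplicit false

noncomputable section

namespace FLTA.Igusa

open ModularCurve IntermediateField

variable (K : Type) [Field K]

/-- The subfield `K(j)` of `K((q))`. -/
abbrev jField : IntermediateField K (LaurentSeries K) :=
  IntermediateField.adjoin K {jqModC K}

/-- The level-`N` field as an extension of `K(j)`. -/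
def fullOver (N : ℕ) : IntermediateField (jField K) (LaurentSeries K) :=
  IntermediateField.adjoin (jField K) (divisorExpansionsC K N)

theorem jqModC_mem_jField : jqModC K ∈ jField K := mem_adjoin_simple_self K _

theorem jField_le_full (N : ℕ) : jField K ≤ modularFunctionFieldFullC K N :=
  adjoin_le_iff.mpr (Set.singleton_subset_iff.mpr (jqModC_mem_full K N))

theorem full_one : modularFunctionFieldFullC K 1 = jField K := by
  refine le_antisymm ?_ (jField_le_full K 1)
  rw [modularFunctionFieldFullC, adjoin_le_iff]
  rintro x ⟨d, hd, hd1, rfl⟩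
  obtain rfl := Nat.dvd_one.mp hd1
  rw [qExpand_one_apply]
  exact jqModC_mem_jField K

theorem mem_fullOver_iff (N : ℕ) [NeZero N] {x : LaurentSeries K} :
    x ∈ fullOver K N ↔ x ∈ modularFunctionFieldFullC K N := by
  constructor
  · intro hx
    rw [fullOver] at hx
    induction hx using IntermediateField.adjoin_induction with
    | mem s hs => exact subset_adjoin K _ hs
    | algebraMap c => exact jField_le_full K N c.2
    | add x y _ _ hx hy => exact add_mem hx hy
    | inv x _ hx => exact inv_mem hx
    | mul x y _ _ hx hy => exact mul_mem hx hy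
  · intro hx
    have hS : divisorExpansionsC K N ⊆ (((fullOver K N).restrictScalars K :
        IntermediateField K (LaurentSeries K)) : Set (LaurentSeries K)) := fun s hs =>
      (IntermediateField.mem_restrictScalars K).mpr (subset_adjoin (jField K) _ hs)
    exact (IntermediateField.mem_restrictScalars K).mp (adjoin_le_iff.mpr hS hx)

theorem fullOver_eq_extendScalars (N : ℕ) [NeZero N] :
    fullOver K N = extendScalars (jField_le_full K N) :=
  SetLike.ext fun _ => mem_fullOver_iff K N

theorem isSeparable_fullOver (N : ℕ) [NeZero N] (hN : (N : K) ≠ 0) :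
    Algebra.IsSeparable (jField K) (fullOver K N) := by
  rw [fullOver, IntermediateField.isSeparable_adjoin_iff_isSeparable]
  rintro x ⟨d, hd, hdN, rfl⟩
  exact isSeparable_qExpand (jField K) (jqModC_mem_jField K) d (natCast_ne_zero_of_dvd hN hdN)

theorem dedekindPsi_pos (N : ℕ) [NeZero N] : 0 < dedekindPsi N :=
  Finset.sum_pos' (fun _ _ => Nat.zero_le _)
    ⟨1, by simp [NeZero.ne N], by rw [Nat.div_one]; exact NeZero.pos N⟩

/-- The level-one Fricke map. -/
theorem exists_isFricke_one :
    ∃ W : modularFunctionFieldFullC K 1 →+* LaurentSeries (AlgebraicClosure K), IsFricke 1 W := by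
  refine ⟨(toAlgClosed K).comp (modularFunctionFieldFullC K 1).val.toRingHom, fun c => rfl,
    fun a ha => ?_⟩
  obtain rfl := Nat.dvd_one.mp ha
  exact toAlgClosed_qExpand 1

theorem relfinrank_step (M q : ℕ) [NeZero M] [NeZero q] [NeZero (M * q)]
    (hMq : ((M * q : ℕ) : K) ≠ 0) :
    relfinrank (modularFunctionFieldFullC K M) (modularFunctionFieldFullC K (M * q)) =
      (minpoly (modularFunctionFieldFullC K M) (qExpand K (M * q) (jqModC K))).natDegree := by
  rw [relfinrank_eq_finrank_of_le (mem_full_of_dvd (dvd_mul_right M q))]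
  have h : extendScalars (mem_full_of_dvd (K := K) (dvd_mul_right M q)) =
      IntermediateField.adjoin (modularFunctionFieldFullC K M)
        {qExpand K (M * q) (jqModC K)} :=
    SetLike.ext fun y => by
      rw [mem_extendScalars, ← restrictScalars_adjoin_jMq M q hMq, mem_restrictScalars]
  rw [h]
  exact adjoin.finrank (isIntegral_qExpand _ (jqModC_mem_full K M) (M * q) hMq)

/-- `j(q^q)` is new at every level prime to `q`. -/
theorem qExpand_prime_notMem_full (M q : ℕ) [NeZero M] [NeZero q] (hq : q.Prime) (hqM : ¬ q ∣ M)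
    (hMK : (M : K) ≠ 0) (hqK : (q : K) ≠ 0) :
    qExpand K q (jqModC K) ∉ modularFunctionFieldFullC K M := by
  intro hx
  haveI : NeZero (1 * q) := ⟨by simpa using NeZero.ne q⟩
  obtain ⟨W₁, hW₁⟩ := exists_isFricke_one K
  have hbase : qExpand K q (jqModC K) ∉ modularFunctionFieldFullC K 1 := by
    rw [full_one]
    exact jqNModC_notMem_adjoin K q hq hqK
  obtain ⟨hdeg, -⟩ := step_fricke 1 q hq (by simp) hqK W₁ hW₁ (fun _ => hbase)
  rw [if_neg hq.not_dvd_one, qExpand_congr (one_mul q)] at hdeg
  let E := modularFunctionFieldFullC K 1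
  set x := qExpand K q (jqModC K) with hxdef
  obtain ⟨ζ, hζ⟩ := exists_primitiveRoot_unit (L := AlgebraicClosure K) q
    (natCast_algebraicClosure_ne_zero hqK)
  let Q : Polynomial E :=
    (modPoly q hq).map (Polynomial.aeval (R := ℤ) (jEl (K := K) 1 1 dvd_rfl)).toRingHom
  have hxQ : Polynomial.aeval x Q = 0 := by
    rw [Polynomial.aeval_def, Polynomial.eval₂_map, hxdef, ← qExpand_congr (one_mul q)]
    convert modPoly_eval_qExpand K q hq 1 using 2
    exact intPoly_hom_ext (by simp [E, coe_jEl])
  have hmin : minpoly E x = Q := by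
    refine Polynomial.eq_of_monic_of_dvd_of_natDegree_le (minpoly.monic
      ⟨Q, (modPoly_monic q hq).map _, hxQ⟩) ((modPoly_monic q hq).map _)
      (minpoly.dvd _ _ hxQ) ?_ |>.symm
    rw [(modPoly_monic q hq).natDegree_map, modPoly_natDegree, hdeg]
  let ι := algebraMap (LaurentSeries (AlgebraicClosure K))
    (AlgebraicClosure (LaurentSeries (AlgebraicClosure K)))
  let g : LaurentSeries K →+* AlgebraicClosure (LaurentSeries (AlgebraicClosure K)) :=
    (ι.comp (qExpand (AlgebraicClosure K) (M * q))).comp (toAlgClosed K)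
  haveI : NeZero (M * q) := ⟨mul_ne_zero (NeZero.ne M) (NeZero.ne q)⟩
  letI : Algebra E (AlgebraicClosure (LaurentSeries (AlgebraicClosure K))) :=
    (g.comp (algebraMap E (LaurentSeries K))).toAlgebra
  have hgj : g (qExpand K 1 (jqModC K)) = ι (jExp 1 (M * q)) := by
    simp [g, toAlgClosed_qExpand, jExp_one, qExpand_qExpand]
  have hr : Polynomial.aeval (ι (jExp 1 M)) (minpoly E x) = 0 := by
    have h1 : ((modPoly q hq).map (Polynomial.aeval (R := ℤ)
        (jExp (1 : (AlgebraicClosure K)ˣ) (M * q))).toRingHom).eval (jExp 1 M) = 0 := by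
      have hprod : (modPoly q hq).map (Polynomial.aeval (R := ℤ)
          (jExp (1 : (AlgebraicClosure K)ˣ) (M * q))).toRingHom = _ :=
        (congrArg (fun f => (modPoly q hq).map f) (intPoly_hom_ext (by simp))).trans
          (modPoly_map_jExp q hq hζ M)
      rw [hprod, Polynomial.eval_mul, Polynomial.eval_prod]
      refine mul_eq_zero_of_right _ (Finset.prod_eq_zero (Finset.mem_range.mpr hq.pos) ?_)
      simp
    have h2 := congrArg ι h1
    rw [map_zero, Polynomial.eval_map, Polynomial.hom_eval₂] at h2
    rw [hmin, Polynomial.aeval_def, Polynomial.eval₂_map]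
    convert h2 using 2
    refine intPoly_hom_ext ?_
    simp [RingHom.algebraMap_toAlgebra, coe_jEl, E, hgj]
  have hint : ∀ s ∈ divisorExpansionsC K M, IsIntegral E s := by
    rintro s ⟨c, hc, hcM, rfl⟩
    exact isIntegral_qExpand E (jqModC_mem_full K 1) c (natCast_ne_zero_of_dvd hMK hcM)
  have hxmem : x ∈ IntermediateField.adjoin E (divisorExpansionsC K M) := by
    have hS : divisorExpansionsC K M ⊆ (((IntermediateField.adjoin E
        (divisorExpansionsC K M)).restrictScalars K :
          IntermediateField K (LaurentSeries K)) : Set (LaurentSeries K)) := fun s hs =>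
      (IntermediateField.mem_restrictScalars K).mpr (subset_adjoin E _ hs)
    exact (IntermediateField.mem_restrictScalars K).mp (adjoin_le_iff.mpr hS hx)
  obtain ⟨σ, hσ⟩ := IntermediateField.exists_algHom_adjoin_of_splits_of_aeval
    (fun s hs => ⟨hint s hs, IsAlgClosed.splits _⟩) hxmem hr
  let τ := restrictFull E M σ
  let ι' := ι.comp (qExpand (AlgebraicClosure K) q)
  have h1 : τ (jEl M 1 (one_dvd M)) = ι' (jExp 1 M) := by
    refine (σ.commutes (⟨_, jqModCd_mem_full K 1 dvd_rfl⟩ : E)).trans ?_
    show g (qExpand K 1 (jqModC K)) = _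
    rw [hgj, RingHom.comp_apply, qExpand_jExp, mul_comm q M]
  have himage : ∀ y : modularFunctionFieldFullC K M, ∃ f, ι' f = τ y := by
    rintro ⟨y, hy⟩
    induction hy using IntermediateField.adjoin_induction with
    | mem s hs =>
      obtain ⟨a, ha, haM, rfl⟩ := hs
      obtain ⟨z, k, h, -⟩ := isExpansionAt_tau (natCast_algebraicClosure_ne_zero hMK) h1 a haM
      exact ⟨_, h.symm⟩
    | algebraMap c =>
      refine ⟨toAlgClosed K (algebraMap K (LaurentSeries K) c), Eq.symm ?_⟩
      refine (σ.commutes (algebraMap K E c)).trans ?_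
      show g (algebraMap K (LaurentSeries K) c) = _
      simp only [g, ι', RingHom.comp_apply, algebraMap_laurentSeries_eq_single, toAlgClosed,
        coeffMap_single, qExpand_single, mul_zero]
    | add a b ha hb iha ihb =>
      obtain ⟨u, hu⟩ := iha
      obtain ⟨v, hv⟩ := ihb
      exact ⟨u + v, by rw [map_add, hu, hv, ← map_add]; exact congrArg τ (Subtype.ext rfl)⟩
    | inv a ha iha =>
      obtain ⟨u, hu⟩ := iha
      exact ⟨u⁻¹, by rw [map_inv₀, hu, ← map_inv₀]; exact congrArg τ (Subtype.ext rfl)⟩
    | mul a b ha hb iha ihb =>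
      obtain ⟨u, hu⟩ := iha
      obtain ⟨v, hv⟩ := ihb
      exact ⟨u * v, by rw [map_mul, hu, hv, ← map_mul]; exact congrArg τ (Subtype.ext rfl)⟩
  obtain ⟨f, hf⟩ := himage ⟨x, hx⟩
  exact jExp_notMem_range_qExpand q 1 M hqM f (ι.injective (hf.trans hσ))

/-- Degree and Fricke map together, by induction along prime steps. -/
theorem relfinrank_and_fricke (N : ℕ) [hN0 : NeZero N] (hN : (N : K) ≠ 0) :
    relfinrank (jField K) (modularFunctionFieldFullC K N) = dedekindPsi N ∧
      ∃ W : modularFunctionFieldFullC K N →+* LaurentSeries (AlgebraicClosure K),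
        IsFricke N W := by
  induction N using Nat.strong_induction_on generalizing hN0 with
  | _ N ih =>
    rcases eq_or_ne N 1 with rfl | hN1
    · exact ⟨by rw [full_one, relfinrank_self, dedekindPsi_one], exists_isFricke_one K⟩
    · obtain ⟨q, hq, hqN⟩ := Nat.exists_prime_and_dvd hN1
      obtain ⟨M, rfl⟩ : ∃ M, N = M * q := ⟨N / q, (Nat.div_mul_cancel hqN).symm⟩
      haveI : NeZero M := ⟨left_ne_zero_of_mul hN0.out⟩
      haveI : NeZero q := ⟨hq.ne_zero⟩
      have hMK := natCast_ne_zero_of_dvd hN (dvd_mul_right M q)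
      have hqK := natCast_ne_zero_of_dvd hN hqN
      obtain ⟨hdeg, W, hW⟩ :=
        ih M ((lt_mul_iff_one_lt_right (NeZero.pos M)).mpr hq.one_lt) hMK
      obtain ⟨hstep, hW'⟩ := step_fricke M q hq hMK hqK W hW
        (fun h => qExpand_prime_notMem_full K M q hq h hMK hqK)
      refine ⟨?_, hW'⟩
      rw [← relfinrank_mul_relfinrank (jField_le_full K M) (mem_full_of_dvd (dvd_mul_right M q)),
        relfinrank_step K M q hN, hdeg, hstep, FLTA.Gamma0.dedekindPsi_mul_prime M q hq,
        mul_comm]

/-- The modular correspondence stays irreducible in every characteristic prime to the level. -/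
theorem finrank_fullOver (N : ℕ) [NeZero N] (hN : (N : K) ≠ 0) :
    Module.finrank (jField K) (fullOver K N) = dedekindPsi N := by
  rw [fullOver_eq_extendScalars, ← relfinrank_eq_finrank_of_le]
  exact (relfinrank_and_fricke K N hN).1

theorem finiteDimensional_fullOver (N : ℕ) [NeZero N] (hN : (N : K) ≠ 0) :
    FiniteDimensional (jField K) (fullOver K N) :=
  FiniteDimensional.of_finrank_pos (by rw [finrank_fullOver K N hN]; exact dedekindPsi_pos N)

/-- The Fricke symmetry `j_d ↦ j_{N/d}`. -/
theorem exists_fricke (N : ℕ) [NeZero N] (hN : (N : K) ≠ 0) :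
    ∃ W : modularFunctionFieldFullC K N →ₐ[K] modularFunctionFieldFullC K N,
      ∀ (a b : ℕ) [NeZero a] [NeZero b] (h : a * b = N),
        (W ⟨qExpand K a (jqModC K), jqModCd_mem_full K N (Dvd.intro b h)⟩ : LaurentSeries K) =
          qExpand K b (jqModC K) := by
  obtain ⟨-, W, hW⟩ := relfinrank_and_fricke K N hN
  choose z hz hz' using hW.exists_preimage
  refine ⟨AlgHom.mk' { toFun := fun y => ⟨z y, hz y⟩
                       map_one' := Subtype.ext (toAlgClosed_injective (by simp [hz']))
                       map_mul' := fun a b => Subtype.ext (toAlgClosed_injective (by simp [hz']))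
                       map_zero' := Subtype.ext (toAlgClosed_injective (by simp [hz']))
                       map_add' := fun a b => Subtype.ext (toAlgClosed_injective (by simp [hz'])) }
    (fun c y => Subtype.ext (toAlgClosed_injective ?_)), fun a b _ _ h => ?_⟩
  · simp only [RingHom.coe_mk, MonoidHom.coe_mk, OneHom.coe_mk, Algebra.smul_def]
    rw [hz', map_mul, hW.const]
    simp [hz']
  · subst h
    refine toAlgClosed_injective ((hz' _).trans ?_)
    refine (hW.map_jEl a (dvd_mul_right a b)).trans ?_
    rw [Nat.mul_div_cancel_left b (NeZero.pos a), toAlgClosed_qExpand]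

/-- `K(j, j_N)` is the whole level-`N` field. -/
theorem modularFunctionFieldC_eq_full (N : ℕ) [NeZero N] (hN : (N : K) ≠ 0) :
    modularFunctionFieldC K N = modularFunctionFieldFullC K N :=
  modularFunctionFieldC_eq_fullC N hN

end FLTA.Igusa
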