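/-
The residue map `ℤ_(ℓ) → ZMod ℓ`.
-/
import Mathlib
import Fermat.Agent.Smooth.LocalizedBase

set_option autoImplicit false

noncomputable section

namespace FLTA.Igusa

open FLTA.Smooth (Zloc)

variable (ℓ : ℕ) [hℓ : Fact ℓ.Prime]

theorem den_cast_ne_zero {k : Type*} [Field k] [CharP k ℓ] (x : Zloc ℓ) :
    (((x : ℚ).den : ℕ) : k) ≠ 0 := by
  intro h
  have hd := (CharP.cast_eq_zero_iff k ℓ _).mp h
  have hc : ((x : ℚ).den).Coprime ℓ := x.2
  exact hℓ.out.one_lt.ne' (Nat.eq_one_of_dvd_coprimes hc hd dvd_rfl)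

/-- The residue map. -/
def zlocToZMod : Zloc ℓ →+* ZMod ℓ where
  toFun x := ((x : ℚ) : ZMod ℓ)
  map_one' := by simp
  map_mul' x y := by
    rw [Subring.coe_mul]
    exact Rat.cast_mul_of_ne_zero (den_cast_ne_zero ℓ x) (den_cast_ne_zero ℓ y)
  map_zero' := by simp
  map_add' x y := by
    rw [Subring.coe_add]
    exact Rat.cast_add_of_ne_zero (den_cast_ne_zero ℓ x) (den_cast_ne_zero ℓ y)

/-- Two homomorphisms to a field of characteristic `ℓ` agree. -/
theorem zloc_ringHom_ext {k : Type*} [Field k] [CharP k ℓ] (f g : Zloc ℓ →+* k) : f = g := by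
  refine RingHom.ext fun x => mul_right_cancel₀ (den_cast_ne_zero ℓ x (k := k)) ?_
  have hnum : x * (((x : ℚ).den : ℕ) : Zloc ℓ) = (((x : ℚ).num : ℤ) : Zloc ℓ) := by
    apply Subtype.ext
    push_cast
    exact Rat.mul_den_eq_num _
  rw [← map_natCast f, ← map_mul, hnum, map_intCast, map_natCast f, ← map_natCast g, ← map_mul,
    hnum, map_intCast]

theorem prime_natCast_zloc : Prime (ℓ : Zloc ℓ) := by
  have h : Ideal.span {(ℓ : Zloc ℓ)} = RingHom.ker (zlocToZMod ℓ) := by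
    ext x
    rw [Ideal.mem_span_singleton, RingHom.mem_ker, FLTA.Smooth.map_zloc_eq_zero_iff ℓ]
  refine (Ideal.span_singleton_prime ?_).mp (h ▸ RingHom.ker_isPrime _)
  exact Nat.cast_ne_zero.mpr hℓ.out.ne_zero

end FLTA.Igusa
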