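/-
`q`-expansions of the Igusa chart algebras, and their reduction mod `ℓ`.
-/
import Mathlib
import Fermat.Prelude.Def_ModularCurve_IgusaScheme
import Fermat.Prelude.Def_ModularCurve_X0ModL
import Fermat.Agent.Igusa.Degree
import Fermat.Agent.Igusa.CoprimeIntegral
import Fermat.Agent.Igusa.ZlocResidue
import Fermat.Agent.Smooth.ChartReduction
import Fermat.Agent.Smooth.ModularData

set_option autoImplicit false

noncomputable section

namespace FLTA.Igusa

open ModularCurve ModularCurve.IgusaScheme TensorProduct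

variable (N : ℕ) [NeZero N] (ℓ : ℕ) [Fact ℓ.Prime]

/-- The three coordinate sets used for the Igusa charts. -/
def IsChartSet (S : Set ↥(modularFunctionFieldFull N)) : Prop :=
  S = {jFull N} ∨ S = {(jFull N)⁻¹} ∨ S = {jFull N, (jFull N)⁻¹}

theorem isChartSet_fin : IsChartSet N {jFull N} := Or.inl rfl

theorem isChartSet_inf : IsChartSet N {(jFull N)⁻¹} := Or.inr (Or.inl rfl)

theorem isChartSet_mid : IsChartSet N {jFull N, (jFull N)⁻¹} := Or.inr (Or.inr rfl)

variable {N} {S : Set ↥(modularFunctionFieldFull N)} (hS : IsChartSet N S)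

include hS in
/-- Chart functions have `ℓ`-integral `q`-expansions. -/
theorem coeff_chart_mem (f : chartAlg N ℓ S) (n : ℤ) :
    ((f : ↥(modularFunctionFieldFull N)) : LaurentSeries ℚ).coeff n ∈
      GaloisRep.ratLocalizedAt ℓ := by
  obtain ⟨z, hz⟩ := FLTA.Smooth.exists_lift_of_mem_chartAlg ℓ N (S := S) (fun x hx => by
    rcases hS with rfl | rfl | rfl
    · obtain rfl := hx
      exact FLTA.Smooth.exists_lift_jFull ℓ N
    · obtain rfl := hx
      exact FLTA.Smooth.exists_lift_inv_jFull ℓ N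
    · rcases hx with rfl | rfl
      · exact FLTA.Smooth.exists_lift_jFull ℓ N
      · exact FLTA.Smooth.exists_lift_inv_jFull ℓ N) _ f.2
  rw [← hz]
  exact (z.coeff n).2

/-- The `q`-expansion of a chart function, over `ℤ_(ℓ)`. -/
def chartExp : chartAlg N ℓ S →+* LaurentSeries ↥(GaloisRep.ratLocalizedAt ℓ) := by
  have H := coeff_chart_mem ℓ hS
  exact
    { toFun := fun f =>
        { coeff := fun n => ⟨((f : ↥(modularFunctionFieldFull N)) : LaurentSeries ℚ).coeff n, H f n⟩
          isPWO_support' :=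
            ((f : ↥(modularFunctionFieldFull N)) : LaurentSeries ℚ).isPWO_support.mono
              fun n hn => by
                simp only [Function.mem_support, HahnSeries.mem_support] at hn ⊢
                exact fun h => hn (Subtype.ext h) }
      map_one' := by
        ext n
        simp [HahnSeries.coeff_one, apply_ite]
      map_zero' := by ext n; simp
      map_add' := fun f g => by ext n; simp
      map_mul' := fun f g => by
        refine (show Function.Injective (coeffMap (GaloisRep.ratLocalizedAt ℓ).subtype) from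
          fun x y h => HahnSeries.ext (funext fun n => Subtype.ext
            (congrArg (fun s => HahnSeries.coeff s n) h))) ?_
        rw [map_mul]
        refine (HahnSeries.ext (funext fun n => ?_)).trans
          (congrArg₂ (· * ·) (HahnSeries.ext (funext fun n => rfl))
            (HahnSeries.ext (funext fun n => rfl))).symm
        rfl }

@[simp]
theorem coe_coeff_chartExp (f : chartAlg N ℓ S) (n : ℤ) :
    (((chartExp ℓ hS f).coeff n : ↥(GaloisRep.ratLocalizedAt ℓ)) : ℚ) =
      ((f : ↥(modularFunctionFieldFull N)) : LaurentSeries ℚ).coeff n := rfl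

variable (K : Type) [Field K] [Algebra ↥(GaloisRep.ratLocalizedAt ℓ) K]

/-- Reduction of `q`-expansions. -/
def chartRed : chartAlg N ℓ S →+* LaurentSeries K :=
  (coeffMap (algebraMap ↥(GaloisRep.ratLocalizedAt ℓ) K)).comp (chartExp ℓ hS)

theorem chartRed_coeff (f : chartAlg N ℓ S) (n : ℤ) :
    (chartRed ℓ hS K f).coeff n =
      algebraMap ↥(GaloisRep.ratLocalizedAt ℓ) K ((chartExp ℓ hS f).coeff n) := rfl

theorem chartRed_eq_jqModC_of_coe_eq (f : chartAlg N ℓ S)
    (hf : ((f : ↥(modularFunctionFieldFull N)) : LaurentSeries ℚ) = jq) :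
    chartRed ℓ hS K f = jqModC K := by
  have h : chartExp ℓ hS f = jqModC ↥(GaloisRep.ratLocalizedAt ℓ) :=
    FLTA.Smooth.seriesIncl_injective ℓ (by
      rw [FLTA.Smooth.seriesIncl, coeffMap_jqModC, jqModC_rat, ← hf]
      exact HahnSeries.ext (funext fun n => rfl))
  rw [chartRed, RingHom.comp_apply, h, coeffMap_jqModC]

/-- Reduction only depends on the underlying function. -/
theorem chartRed_congr {S' : Set ↥(modularFunctionFieldFull N)} (hS' : IsChartSet N S')
    (f : chartAlg N ℓ S) (g : chartAlg N ℓ S')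
    (h : (f : ↥(modularFunctionFieldFull N)) = g) : chartRed ℓ hS K f = chartRed ℓ hS' K g := by
  have h' : chartExp ℓ hS f = chartExp ℓ hS' g :=
    HahnSeries.ext (funext fun n => Subtype.ext
      (congrArg (fun y : ↥(modularFunctionFieldFull N) => (y : LaurentSeries ℚ).coeff n) h))
  rw [chartRed, chartRed, RingHom.comp_apply, RingHom.comp_apply, h']

section Param

variable {s : ↥(modularFunctionFieldFull N)}

theorem isChartSet_singleton (hs : FLTA.Smooth.IsChartParam N s) : IsChartSet N {s} := by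
  rcases hs with rfl | rfl
  · exact isChartSet_fin N
  · exact isChartSet_inf N

theorem chartExp_eq_qLift (hs : FLTA.Smooth.IsChartParam N s) (hS : IsChartSet N {s})
    (f : chartAlg N ℓ {s}) : chartExp ℓ hS f = FLTA.Smooth.qLift hs f :=
  FLTA.Smooth.seriesIncl_injective ℓ (by
    rw [FLTA.Smooth.seriesIncl, FLTA.Smooth.coeffMap_qLift]
    exact HahnSeries.ext (funext fun n => rfl))

theorem chartRed_eq_redSeries (hs : FLTA.Smooth.IsChartParam N s) (hS : IsChartSet N {s})
    (f : chartAlg N ℓ {s}) :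
    chartRed ℓ hS K f =
      FLTA.Smooth.redSeries (algebraMap ↥(GaloisRep.ratLocalizedAt ℓ) K) hs f := by
  rw [chartRed, FLTA.Smooth.redSeries, RingHom.comp_apply, RingHom.comp_apply,
    chartExp_eq_qLift ℓ hs hS f]

variable {k : Type} [Field k] [CharP k ℓ] (π : ↥(GaloisRep.ratLocalizedAt ℓ) →+* k)

/-- In a primitive relation for a function reducing to zero the multiplier is primitive and all
the other coefficients are divisible. -/
theorem map_eq_zero_of_relation (hN : ¬ ℓ ∣ N) (hs : FLTA.Smooth.IsChartParam N s)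
    (e : FLTA.Smooth.ChartEquation N s) {y : chartAlg N ℓ {s}}
    (hy : FLTA.Smooth.redSeries π hs y = 0)
    (a : Polynomial ↥(GaloisRep.ratLocalizedAt ℓ))
    (g : Fin (dedekindPsi N) → Polynomial ↥(GaloisRep.ratLocalizedAt ℓ))
    (hag : FLTA.Smooth.polyHom N ℓ s a * y =
      ∑ i, FLTA.Smooth.polyHom N ℓ s (g i) * FLTA.Smooth.thetaElem e ^ (i : ℕ))
    (i : Fin (dedekindPsi N)) : (g i).map π = 0 := by
  have hNk : (N : k) ≠ 0 := FLTA.Smooth.natCast_ne_zero_of_not_dvd hN
  have h := congrArg (FLTA.Smooth.redSeries π hs) hag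
  simp only [map_mul, map_sum, map_pow, FLTA.Smooth.redSeries_polyHom,
    FLTA.Smooth.redSeries_paramElem π hs e, FLTA.Smooth.redSeries_thetaElem π hs e, hy,
    mul_zero] at h
  have hdeg : (minpoly (e.tField k) (e.θElem k hNk)).natDegree = dedekindPsi N := by
    rw [e.minpoly_θElem k hNk, e.eqOver_natDegree k]
  have hlin := (linearIndependent_pow (K := e.tField k) (e.θElem k hNk)).comp
    (Fin.cast hdeg.symm) (Fin.cast_injective _)
  let c : Fin (dedekindPsi N) → e.tField k := fun i =>
    Polynomial.aeval (IntermediateField.AdjoinSimple.gen k (e.tElem k)) ((g i).map π)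
  have hc : ∀ i, (((c i : ↥(modularFunctionFieldFullC k N))) : LaurentSeries k) =
      Polynomial.aeval (FLTA.Smooth.seriesTo k e.σ) ((g i).map π) := fun i =>
    (Polynomial.aeval_algHom_apply
      ((modularFunctionFieldFullC k N).val.comp (e.tField k).val) _ _).symm
  have h0 : ∑ i, c i • (e.θElem k hNk) ^ (i : ℕ) = 0 := by
    apply Subtype.val_injective
    refine Eq.trans ?_ h.symm
    refine (map_sum (modularFunctionFieldFullC k N).val _ _).trans ?_
    exact Finset.sum_congr rfl fun i _ => by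
      rw [Algebra.smul_def, map_mul, map_pow]
      exact congrArg₂ (· * ·) (hc i) rfl
  have hci := Fintype.linearIndependent_iff.mp hlin c h0 i
  exact transcendental_iff.mp (e.transcendental_σ k) _ (by rw [← hc i, hci]; rfl)

/-- Kernel of reduction on a one-parameter chart. -/
theorem exists_eq_mul_of_qLift (hN : ¬ ℓ ∣ N) (hs : FLTA.Smooth.IsChartParam N s)
    (y : chartAlg N ℓ {s}) (z : LaurentSeries ↥(GaloisRep.ratLocalizedAt ℓ))
    (hz : FLTA.Smooth.qLift hs y = (ℓ : LaurentSeries ↥(GaloisRep.ratLocalizedAt ℓ)) * z) :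
    ∃ g : chartAlg N ℓ {s}, y = (ℓ : chartAlg N ℓ {s}) * g := by
  have := FLTA.Smooth.isPrincipalIdealRing_zloc ℓ
  let π : ↥(GaloisRep.ratLocalizedAt ℓ) →+* ZMod ℓ :=
    zlocToZMod ℓ
  obtain ⟨e⟩ := FLTA.Smooth.nonempty_chartEquation hs
  obtain ⟨a, g, hgood, hag⟩ := FLTA.Smooth.exists_primitive_relation π hs e y
  have hy : FLTA.Smooth.redSeries π hs y = 0 := by
    rw [FLTA.Smooth.redSeries, RingHom.comp_apply, hz, map_mul, map_natCast,
      ← map_natCast (algebraMap (ZMod ℓ) (LaurentSeries (ZMod ℓ))), ZMod.natCast_self, map_zero,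
      zero_mul]
  have hg := map_eq_zero_of_relation ℓ π hN hs e hy a g hag
  have ha : a.map π ≠ 0 := hgood.resolve_right fun ⟨i, hi⟩ => hi (hg i)
  have hdvd : ∀ i, Polynomial.C (ℓ : ↥(GaloisRep.ratLocalizedAt ℓ)) ∣ g i := fun i =>
    (Polynomial.C_dvd_iff_dvd_coeff _ _).mpr fun j =>
      (FLTA.Smooth.map_zloc_eq_zero_iff ℓ π _).mp (by
        have := congrArg (fun q => Polynomial.coeff q j) (hg i)
        simpa using this)
  choose h hh using hdvd
  let g' : ↥(modularFunctionFieldFull N) := (y : ↥(modularFunctionFieldFull N)) / (ℓ : _)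
  have hℓF : (ℓ : ↥(modularFunctionFieldFull N)) ≠ 0 := Nat.cast_ne_zero.mpr (NeZero.ne ℓ)
  have hmulg : (ℓ : ↥(modularFunctionFieldFull N)) * g' = y := mul_div_cancel₀ _ hℓF
  let φ : Polynomial ↥(GaloisRep.ratLocalizedAt ℓ) →+* ↥(modularFunctionFieldFull N) :=
    (algebraMap ↥(chartAlg N ℓ {s}) ↥(modularFunctionFieldFull N)).comp
      (FLTA.Smooth.polyHom N ℓ s).toRingHom
  letI : Algebra (Polynomial ↥(GaloisRep.ratLocalizedAt ℓ)) ↥(modularFunctionFieldFull N) :=
    φ.toAlgebra
  have hmem : ∀ x : chartAlg N ℓ {s}, IsIntegral (Polynomial ↥(GaloisRep.ratLocalizedAt ℓ))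
      (x : ↥(modularFunctionFieldFull N)) := fun x =>
    (FLTA.Smooth.isIntegral_adjoin_iff _).mp ((mem_chartAlg_iff N ℓ).mp x.2)
  have hℓprime : Prime (Polynomial.C (ℓ : ↥(GaloisRep.ratLocalizedAt ℓ))) :=
    Polynomial.prime_C_iff.mpr (prime_natCast_zloc ℓ)
  have hnd : ¬ Polynomial.C (ℓ : ↥(GaloisRep.ratLocalizedAt ℓ)) ∣ a := fun ⟨b, hb⟩ => ha (by
    rw [hb, Polynomial.map_mul, Polynomial.map_C, map_natCast, ZMod.natCast_self, map_zero,
      zero_mul])
  have hℓφ : φ (Polynomial.C (ℓ : ↥(GaloisRep.ratLocalizedAt ℓ))) = (ℓ : _) := by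
    rw [map_natCast, map_natCast]
  have hagF : φ a * g' = ((∑ i, FLTA.Smooth.polyHom N ℓ s (h i) *
      FLTA.Smooth.thetaElem e ^ (i : ℕ) : chartAlg N ℓ {s}) :
        ↥(modularFunctionFieldFull N)) := by
    refine mul_left_cancel₀ hℓF ?_
    rw [mul_left_comm, hmulg, ← hℓφ]
    refine (congrArg (fun x : chartAlg N ℓ {s} => (x : ↥(modularFunctionFieldFull N))) hag).trans ?_
    have h2 : ∑ i, FLTA.Smooth.polyHom N ℓ s (g i) * FLTA.Smooth.thetaElem e ^ (i : ℕ) =
        FLTA.Smooth.polyHom N ℓ s (Polynomial.C (ℓ : ↥(GaloisRep.ratLocalizedAt ℓ))) *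
          ∑ i, FLTA.Smooth.polyHom N ℓ s (h i) * FLTA.Smooth.thetaElem e ^ (i : ℕ) := by
      rw [Finset.mul_sum]
      exact Finset.sum_congr rfl fun i _ => by rw [hh i, map_mul, mul_assoc]
    rw [h2]
    rfl
  have hg' : IsIntegral (Polynomial ↥(GaloisRep.ratLocalizedAt ℓ)) g' := by
    refine isIntegral_of_isIntegral_mul (a := Polynomial.C (ℓ : ↥(GaloisRep.ratLocalizedAt ℓ)))
      (b := a) ?_ ((hℓprime.irreducible.isRelPrime_iff_not_dvd).mpr hnd) hℓprime.ne_zero
      (fun h0 => ha (by rw [h0, Polynomial.map_zero])) ?_ ?_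
    · exact Subtype.val_injective.comp (FLTA.Smooth.polyHom_injective hs)
    · rw [RingHom.algebraMap_toAlgebra, hℓφ, hmulg]
      exact hmem y
    · rw [RingHom.algebraMap_toAlgebra, hagF]
      exact hmem _
  refine ⟨⟨g', (mem_chartAlg_iff N ℓ).mpr ((FLTA.Smooth.isIntegral_adjoin_iff g').mpr hg')⟩,
    Subtype.ext ?_⟩
  rw [Subalgebra.coe_mul]
  exact hmulg.symm.trans (congrArg (· * g') (map_natCast (chartAlg N ℓ {s}).val ℓ).symm)

end Param

/-- Reductions of chart functions lie in the level-`N` field over `K`. -/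
theorem chartRed_mem_full (hℓN : ¬ ℓ ∣ N) [CharP K ℓ] (f : chartAlg N ℓ S) :
    chartRed ℓ hS K f ∈ modularFunctionFieldFullC K N := by
  have single : ∀ {s : ↥(modularFunctionFieldFull N)} (hs : FLTA.Smooth.IsChartParam N s)
      (g : chartAlg N ℓ {s}),
      chartRed ℓ (isChartSet_singleton hs) K g ∈ modularFunctionFieldFullC K N := fun hs g => by
    rw [chartRed_eq_redSeries ℓ K hs]
    exact FLTA.Smooth.redSeries_mem _ hℓN hs g
  rcases hS with rfl | rfl | rfl
  · exact single (FLTA.Smooth.isChartParam_jFull N) f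
  · exact single (FLTA.Smooth.isChartParam_inv_jFull N) f
  · have hf : (f : ↥(modularFunctionFieldFull N)) ∈
        chartAlg N ℓ (insert (jFull N)⁻¹ {jFull N}) := by
      rw [show insert (jFull N)⁻¹ ({jFull N} : Set ↥(modularFunctionFieldFull N)) =
        {jFull N, (jFull N)⁻¹} from Set.pair_comm _ _]
      exact f.2
    obtain ⟨n, hn⟩ := exists_pow_mul_mem_chartAlg (Set.mem_singleton _) (jFull_ne_zero N) hf
    have h1 : chartRed ℓ (isChartSet_mid N) K
        (⟨jFull N, subset_chartAlg N ℓ _ (Set.mem_insert _ _)⟩ ^ n * f) ∈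
          modularFunctionFieldFullC K N := by
      rw [chartRed_congr ℓ (isChartSet_mid N) K (isChartSet_fin N) _ ⟨_, hn⟩
        (by rw [Subalgebra.coe_mul, Subalgebra.coe_pow])]
      exact single (FLTA.Smooth.isChartParam_jFull N) _
    rw [map_mul, map_pow, chartRed_eq_jqModC_of_coe_eq ℓ (isChartSet_mid N) K _ rfl] at h1
    have h2 := div_mem h1 (pow_mem (jqModC_mem_full K N) n)
    rwa [mul_div_cancel_left₀ _ (pow_ne_zero n (jqModC_ne_zero_of_nontrivial K))] at h2

include hS in
/-- The kernel of reduction is `ℓ` times the chart. -/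
theorem exists_eq_mul_of_forall_dvd (hℓN : ¬ ℓ ∣ N) (f : chartAlg N ℓ S)
    (hf : ∀ n, (ℓ : ↥(GaloisRep.ratLocalizedAt ℓ)) ∣ (chartExp ℓ hS f).coeff n) :
    ∃ g : chartAlg N ℓ S, f = (ℓ : chartAlg N ℓ S) * g := by
  choose c hc using hf
  classical
  let z : LaurentSeries ↥(GaloisRep.ratLocalizedAt ℓ) :=
    { coeff := fun n => if (chartExp ℓ hS f).coeff n = 0 then 0 else c n
      isPWO_support' := (chartExp ℓ hS f).isPWO_support.mono fun n hn => by
        simp only [Function.mem_support, ne_eq, ite_eq_left_iff, not_forall] at hn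
        exact hn.choose }
  have hz : chartExp ℓ hS f = (ℓ : LaurentSeries ↥(GaloisRep.ratLocalizedAt ℓ)) * z := by
    ext n
    rw [← nsmul_eq_mul, HahnSeries.coeff_nsmul, Pi.smul_apply, nsmul_eq_mul]
    by_cases h0 : (chartExp ℓ hS f).coeff n = 0
    · simp [z, h0]
    · simp only [z, if_neg h0]
      exact congrArg Subtype.val (hc n)
  rcases hS with rfl | rfl | rfl
  · exact exists_eq_mul_of_qLift ℓ hℓN (FLTA.Smooth.isChartParam_jFull N) f z
      ((chartExp_eq_qLift ℓ _ _ f).symm.trans hz)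
  · exact exists_eq_mul_of_qLift ℓ hℓN (FLTA.Smooth.isChartParam_inv_jFull N) f z
      ((chartExp_eq_qLift ℓ _ _ f).symm.trans hz)
  · have hf' : (f : ↥(modularFunctionFieldFull N)) ∈
        chartAlg N ℓ (insert (jFull N)⁻¹ {jFull N}) := by
      rw [show insert (jFull N)⁻¹ ({jFull N} : Set ↥(modularFunctionFieldFull N)) =
        {jFull N, (jFull N)⁻¹} from Set.pair_comm _ _]
      exact f.2
    obtain ⟨n, hn⟩ := exists_pow_mul_mem_chartAlg (Set.mem_singleton _) (jFull_ne_zero N) hf'
    let J : chartAlg N ℓ {jFull N, (jFull N)⁻¹} :=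
      ⟨jFull N, subset_chartAlg N ℓ _ (Set.mem_insert _ _)⟩
    have hexp : chartExp ℓ (isChartSet_fin N) ⟨_, hn⟩ =
        chartExp ℓ (isChartSet_mid N) (J ^ n * f) :=
      HahnSeries.ext (funext fun m => Subtype.ext (by
        rw [coe_coeff_chartExp, coe_coeff_chartExp]
        rfl))
    rw [map_mul, hz, mul_left_comm, chartExp_eq_qLift ℓ (FLTA.Smooth.isChartParam_jFull N)] at hexp
    obtain ⟨g, hg⟩ := exists_eq_mul_of_qLift ℓ hℓN (FLTA.Smooth.isChartParam_jFull N) _ _ hexp
    let J' : chartAlg N ℓ {jFull N, (jFull N)⁻¹} :=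
      ⟨(jFull N)⁻¹, subset_chartAlg N ℓ _ (Set.mem_insert_of_mem _ rfl)⟩
    refine ⟨J' ^ n * inclFin N ℓ g, Subtype.ext ?_⟩
    have hg' : jFull N ^ n * (f : ↥(modularFunctionFieldFull N)) =
        (ℓ : ↥(modularFunctionFieldFull N)) * (g : ↥(modularFunctionFieldFull N)) := by
      have := congrArg (fun x : chartAlg N ℓ {jFull N} => (x : ↥(modularFunctionFieldFull N))) hg
      rw [Subalgebra.coe_mul] at this
      exact this.trans (congrArg (· * _) (map_natCast (chartAlg N ℓ {jFull N}).val ℓ))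
    rw [Subalgebra.coe_mul, Subalgebra.coe_mul, Subalgebra.coe_pow, coe_chartIncl,
      show (((ℓ : chartAlg N ℓ {jFull N, (jFull N)⁻¹}) : ↥(modularFunctionFieldFull N))) =
        (ℓ : ↥(modularFunctionFieldFull N)) from
        map_natCast (chartAlg N ℓ {jFull N, (jFull N)⁻¹}).val ℓ,
      mul_left_comm, ← hg', inv_pow, ← mul_assoc, inv_mul_cancel₀
        (pow_ne_zero n (jFull_ne_zero N)), one_mul]

/-- The product of two algebra maps on a tensor product. -/
def liftAux {R A B C : Type} [CommRing R] [CommRing A] [CommRing B] [CommRing C] [Algebra R A]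
    [Algebra R B] [Algebra R C] (f : A →ₐ[R] C) (g : B →ₐ[R] C) : A ⊗[R] B →ₐ[R] C :=
  Algebra.TensorProduct.lift f g (fun _ _ => Commute.all _ _)

/-- Scalars act through the constant series. -/
theorem algebraMap_zl_laurentSeries (r : ↥(GaloisRep.ratLocalizedAt ℓ)) :
    algebraMap ↥(GaloisRep.ratLocalizedAt ℓ) (LaurentSeries K) r =
      HahnSeries.single 0 (algebraMap ↥(GaloisRep.ratLocalizedAt ℓ) K r) := by
  first
    | rfl
    | (rw [HahnSeries.algebraMap_apply', PowerSeries.algebraMap_apply, HahnSeries.ofPowerSeries_C]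
       rfl)

/-- The reduction of a chart as an algebra map. -/
def chartRedHom : chartAlg N ℓ S →ₐ[↥(GaloisRep.ratLocalizedAt ℓ)] LaurentSeries K :=
  { chartRed ℓ hS K with
    commutes' := fun r => by
      rw [algebraMap_zl_laurentSeries]
      ext n
      have h0 : ((algebraMap ↥(GaloisRep.ratLocalizedAt ℓ) (chartAlg N ℓ S) r :
          chartAlg N ℓ S) : ↥(modularFunctionFieldFull N)) =
          algebraMap ℚ ↥(modularFunctionFieldFull N) (r : ℚ) := by
        first
          | rfl
          | exact (IsScalarTower.algebraMap_apply ↥(GaloisRep.ratLocalizedAt ℓ) ℚ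
              ↥(modularFunctionFieldFull N) r)
          | simp [Subalgebra.coe_algebraMap, RingHom.algebraMap_toAlgebra]
      have hco : (((algebraMap ↥(GaloisRep.ratLocalizedAt ℓ) (chartAlg N ℓ S) r :
          chartAlg N ℓ S) : ↥(modularFunctionFieldFull N)) : LaurentSeries ℚ) =
          HahnSeries.single 0 (r : ℚ) :=
        (((congrArg (algebraMap ↥(modularFunctionFieldFull N) (LaurentSeries ℚ)) h0).trans
          (by rw [eq_ratCast, map_ratCast, eq_ratCast]))).trans
          (algebraMap_apply_eq_single (r : ℚ))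
      show algebraMap ↥(GaloisRep.ratLocalizedAt ℓ) K _ = _
      by_cases h : n = 0
      · subst h
        rw [HahnSeries.coeff_single_same]
        congr 1
        apply Subtype.ext
        rw [coe_coeff_chartExp, hco, HahnSeries.coeff_single_same]
      · rw [HahnSeries.coeff_single_of_ne h, ← map_zero (algebraMap ↥(GaloisRep.ratLocalizedAt ℓ) K)]
        congr 1
        apply Subtype.ext
        rw [coe_coeff_chartExp, hco, HahnSeries.coeff_single_of_ne h]
        rfl }

/-- Constants of `K` as an algebra map. -/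
def constHom : K →ₐ[↥(GaloisRep.ratLocalizedAt ℓ)] LaurentSeries K :=
  { algebraMap K (LaurentSeries K) with
    commutes' := fun r => by
      rw [algebraMap_zl_laurentSeries]
      exact algebraMap_laurentSeries_eq_single K _ }

/-- The reduction of a base-changed chart. -/
def chartTensorRed :
    K ⊗[↥(GaloisRep.ratLocalizedAt ℓ)] chartAlg N ℓ S →ₐ[↥(GaloisRep.ratLocalizedAt ℓ)]
      LaurentSeries K :=
  liftAux (constHom ℓ K) (chartRedHom ℓ hS K)

theorem chartTensorRed_tmul (c : K) (f : chartAlg N ℓ S) :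
    chartTensorRed ℓ hS K (c ⊗ₜ f) = algebraMap K (LaurentSeries K) c * chartRed ℓ hS K f :=
  rfl

/-- The base-changed chart embeds in `K((q))` (so it is a domain). -/
theorem chartTensorRed_injective (hℓN : ¬ ℓ ∣ N) [CharP K ℓ] :
    Function.Injective (chartTensorRed ℓ hS K) := by
  classical
  letI : Algebra (ZMod ℓ) K := ZMod.algebra K ℓ
  let b := Module.Basis.ofVectorSpace (ZMod ℓ) K
  rw [injective_iff_map_eq_zero]
  intro x hx
  obtain ⟨F, rfl⟩ : ∃ F : _ →₀ chartAlg N ℓ S, x = F.sum fun i y => b i ⊗ₜ y := by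
    clear hx
    induction x using TensorProduct.induction_on with
    | zero => exact ⟨0, by simp⟩
    | tmul c y =>
      refine ⟨(b.repr c).mapRange (fun m => m.val • y) (by simp), ?_⟩
      rw [Finsupp.sum_mapRange_index (fun _ => TensorProduct.tmul_zero _ _)]
      conv_lhs => rw [← b.linearCombination_repr c]
      rw [Finsupp.linearCombination_apply, Finsupp.sum, Finsupp.sum, TensorProduct.sum_tmul]
      refine Finset.sum_congr rfl fun i _ => ?_
      rw [← TensorProduct.smul_tmul, ← Nat.cast_smul_eq_nsmul (ZMod ℓ), ZMod.natCast_zmod_val]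
    | add u v hu hv =>
      obtain ⟨F, rfl⟩ := hu
      obtain ⟨G, rfl⟩ := hv
      exact ⟨F + G, (Finsupp.sum_add_index' (fun _ => TensorProduct.tmul_zero _ _)
        fun _ _ _ => TensorProduct.tmul_add _ _ _).symm⟩
  have hprime : ∀ r : ↥(GaloisRep.ratLocalizedAt ℓ), ∃ m : ZMod ℓ,
      algebraMap (ZMod ℓ) K m = algebraMap ↥(GaloisRep.ratLocalizedAt ℓ) K r := by
    intro r
    refine ⟨zlocToZMod ℓ r, ?_⟩
    exact RingHom.congr_fun (zloc_ringHom_ext ℓ
      ((algebraMap (ZMod ℓ) K).comp (zlocToZMod ℓ))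
      (algebraMap ↥(GaloisRep.ratLocalizedAt ℓ) K)) r
  choose m hm using hprime
  rw [Finsupp.sum, map_sum] at hx
  refine Finset.sum_eq_zero fun i hi => ?_
  show b i ⊗ₜ F i = 0
  have hdvd : ∀ n, (ℓ : ↥(GaloisRep.ratLocalizedAt ℓ)) ∣ (chartExp ℓ hS (F i)).coeff n := by
    intro n
    have hn := congrArg (fun w : LaurentSeries K => w.coeff n) hx
    simp only [chartTensorRed_tmul, HahnSeries.coeff_sum, algebraMap_laurentSeries_eq_single,
      HahnSeries.coeff_single_zero_mul, chartRed_coeff, HahnSeries.coeff_zero] at hn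
    have h0 : ∑ j ∈ F.support, m ((chartExp ℓ hS (F j)).coeff n) • b j = 0 := by
      refine Eq.trans (Finset.sum_congr rfl fun j _ => ?_) hn
      rw [Algebra.smul_def, hm, mul_comm]
    have := linearIndependent_iff'.mp b.linearIndependent _ _ h0 i hi
    refine (FLTA.Smooth.map_zloc_eq_zero_iff ℓ (algebraMap ↥(GaloisRep.ratLocalizedAt ℓ) K) _).mp ?_
    rw [← hm, this, map_zero]
  obtain ⟨g, hg⟩ := exists_eq_mul_of_forall_dvd ℓ hS hℓN (F i) hdvd
  rw [hg, ← nsmul_eq_mul, ← TensorProduct.smul_tmul, nsmul_eq_mul, CharP.cast_eq_zero, zero_mul,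
    TensorProduct.zero_tmul]

/-- The image of the base-changed chart generates the level-`N` field. -/
theorem adjoin_range_chartRed (hℓN : ¬ ℓ ∣ N) [CharP K ℓ] :
    IntermediateField.adjoin K (Set.range (chartRed ℓ hS K)) =
      modularFunctionFieldFullC K N := by
  refine le_antisymm (IntermediateField.adjoin_le_iff.mpr ?_) ?_
  · rintro _ ⟨f, rfl⟩
    exact chartRed_mem_full ℓ hS K hℓN f
  obtain ⟨s, hs, hsub⟩ : ∃ s, FLTA.Smooth.IsChartParam N s ∧ {s} ⊆ S := by
    rcases hS with rfl | rfl | rfl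
    · exact ⟨_, FLTA.Smooth.isChartParam_jFull N, subset_rfl⟩
    · exact ⟨_, FLTA.Smooth.isChartParam_inv_jFull N, subset_rfl⟩
    · exact ⟨_, FLTA.Smooth.isChartParam_jFull N, sFin_subset N⟩
  obtain ⟨e⟩ := FLTA.Smooth.nonempty_chartEquation hs
  rw [← e.adjoin_eq K (FLTA.Smooth.natCast_ne_zero_of_not_dvd (ℓ := ℓ) hℓN),
    IntermediateField.adjoin_le_iff]
  have hred : ∀ y : chartAlg N ℓ {s},
      FLTA.Smooth.redSeries (algebraMap ↥(GaloisRep.ratLocalizedAt ℓ) K) hs y ∈
        IntermediateField.adjoin K (Set.range (chartRed ℓ hS K)) := fun y => by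
    rw [← chartRed_eq_redSeries ℓ K hs (isChartSet_singleton hs),
      chartRed_congr ℓ (isChartSet_singleton hs) K hS y (chartIncl N ℓ hsub y)
        (coe_chartIncl N ℓ hsub y).symm]
    exact IntermediateField.subset_adjoin _ _ ⟨_, rfl⟩
  rintro w (rfl | rfl)
  · rw [← FLTA.Smooth.redSeries_paramElem
      (algebraMap ↥(GaloisRep.ratLocalizedAt ℓ) K) hs e]
    exact hred _
  · rw [← FLTA.Smooth.redSeries_thetaElem
      (algebraMap ↥(GaloisRep.ratLocalizedAt ℓ) K) hs e]
    exact hred _

end FLTA.Igusa
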