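import Fermat.Agent.Igusa.Subst

/-!
# The derivation `θ = q d/dq` on Laurent series and the series of `Δ`
-/

set_option autoImplicit false

noncomputable section

open HahnSeries ModularCurve

namespace FLTA.Igusa

variable {R S : Type*} [CommRing R] [CommRing S]

/-- `θ = q d/dq`, as an additive map. -/
def theta : LaurentSeries R →+ LaurentSeries R where
  toFun f :=
    { coeff := fun n => (n : R) * f.coeff n
      isPWO_support' := f.isPWO_support.mono fun n hn => by
        simp only [Function.mem_support, HahnSeries.mem_support] at hn ⊢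
        exact fun h => hn (by rw [h, mul_zero]) }
  map_zero' := by ext n; simp
  map_add' x y := by ext n; simp [mul_add]

@[simp]
theorem theta_coeff (f : LaurentSeries R) (n : ℤ) :
    (theta f).coeff n = (n : R) * f.coeff n :=
  rfl

theorem theta_mul (x y : LaurentSeries R) : theta (x * y) = theta x * y + x * theta y := by
  ext n
  simp only [theta_coeff, HahnSeries.coeff_add, HahnSeries.coeff_mul, Finset.mul_sum]
  have h1 : ∑ ij ∈ Finset.antidiagonal (theta x).isPWO_support y.isPWO_support n,
      (theta x).coeff ij.1 * y.coeff ij.2 =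
      ∑ ij ∈ Finset.antidiagonal x.isPWO_support y.isPWO_support n,
        (theta x).coeff ij.1 * y.coeff ij.2 := by
    refine Finset.sum_subset ?_ ?_
    · intro ij hij
      simp only [Finset.mem_antidiagonal, HahnSeries.mem_support, theta_coeff] at hij ⊢
      exact ⟨fun h => hij.1 (by rw [h, mul_zero]), hij.2⟩
    · intro ij hij hnot
      simp only [Finset.mem_antidiagonal, HahnSeries.mem_support, not_and, ne_eq] at hij hnot
      by_cases h : (theta x).coeff ij.1 = 0
      · rw [h, zero_mul]
      · exact absurd hij.2.2 (hnot h hij.2.1)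
  have h2 : ∑ ij ∈ Finset.antidiagonal x.isPWO_support (theta y).isPWO_support n,
      x.coeff ij.1 * (theta y).coeff ij.2 =
      ∑ ij ∈ Finset.antidiagonal x.isPWO_support y.isPWO_support n,
        x.coeff ij.1 * (theta y).coeff ij.2 := by
    refine Finset.sum_subset ?_ ?_
    · intro ij hij
      simp only [Finset.mem_antidiagonal, HahnSeries.mem_support, theta_coeff] at hij ⊢
      exact ⟨hij.1, fun h => hij.2.1 (by rw [h, mul_zero]), hij.2.2⟩
    · intro ij hij hnot
      simp only [Finset.mem_antidiagonal, HahnSeries.mem_support, not_and, ne_eq] at hij hnot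
      by_cases h : (theta y).coeff ij.2 = 0
      · rw [h, mul_zero]
      · exact absurd hij.2.2 (hnot hij.1 h)
  simp only [theta_coeff] at h1 h2
  rw [h1, h2, ← Finset.sum_add_distrib]
  refine Finset.sum_congr rfl fun ij hij => ?_
  simp only [Finset.mem_antidiagonal] at hij
  rw [← hij.2.2, Int.cast_add]
  ring

theorem theta_C (r : R) : theta (HahnSeries.C r) = 0 := by
  ext n
  rcases eq_or_ne n 0 with rfl | hn
  · simp
  · simp [HahnSeries.C_apply, hn]

theorem theta_single (n : ℤ) (r : R) :
    theta (HahnSeries.single n r) = HahnSeries.single n ((n : R) * r) := by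
  ext m
  rcases eq_or_ne m n with rfl | h
  · simp
  · simp [h]

theorem theta_qExpand (e : ℕ) [NeZero e] (f : LaurentSeries R) :
    theta (qExpand R e f) = (e : LaurentSeries R) * qExpand R e (theta f) := by
  ext n
  rw [← map_natCast HahnSeries.C, HahnSeries.C_mul_eq_smul, HahnSeries.coeff_smul, theta_coeff]
  by_cases h : (e : ℤ) ∣ n
  · obtain ⟨m, rfl⟩ := h
    simp [mul_assoc]
  · simp [qExpand_coeff_of_not_dvd e _ h]

theorem coeffMap_theta (φ : R →+* S) (f : LaurentSeries R) :
    coeffMap φ (theta f) = theta (coeffMap φ f) := by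
  ext n; simp

/-- Chain rule for `θ` along a polynomial. -/
theorem theta_aeval {K : Type*} [Field K] (x : LaurentSeries K) (P : Polynomial K) :
    theta (Polynomial.aeval x P) = Polynomial.aeval x P.derivative * theta x := by
  induction P using Polynomial.induction_on with
  | C a =>
    rw [Polynomial.aeval_C, Polynomial.derivative_C, map_zero, zero_mul,
      algebraMap_laurentSeries_eq_single, ← HahnSeries.C_apply, theta_C]
  | add p q hp hq => simp only [map_add, hp, hq, add_mul]
  | monomial n a ih =>
    rw [pow_succ, ← mul_assoc]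
    generalize Polynomial.C a * Polynomial.X ^ n = Q at ih ⊢
    rw [map_mul, Polynomial.aeval_X, theta_mul, ih, Polynomial.derivative_mul,
      Polynomial.derivative_X, mul_one, map_add, map_mul, Polynomial.aeval_X]
    ring

variable (R)

/-- The `q`-expansion `q * ∏ (1 - q^n) ^ 24` of `Δ` over any coefficient ring. -/
def deltaSer : LaurentSeries R :=
  HahnSeries.single (1 : ℤ) 1 *
    HahnSeries.ofPowerSeries ℤ R (dedekindEtaUnit.map (Int.castRingHom R))

variable {R}

theorem coeffMap_deltaSer (φ : R →+* S) : coeffMap φ (deltaSer R) = deltaSer S := by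
  rw [deltaSer, deltaSer, map_mul, coeffMap_single, map_one, coeffMap_ofPowerSeries]
  congr 2
  ext n
  simp

theorem coeff_deltaSer_one : (deltaSer R).coeff 1 = 1 := by
  rw [deltaSer, HahnSeries.coeff_single_mul, one_mul, sub_self, show (0 : ℤ) = ((0 : ℕ) : ℤ) from rfl,
    HahnSeries.ofPowerSeries_apply_coeff, PowerSeries.coeff_map,
    PowerSeries.coeff_zero_eq_constantCoeff, constantCoeff_dedekindEtaUnit, map_one]

theorem deltaSer_ne_zero [Nontrivial R] : deltaSer R ≠ 0 :=
  HahnSeries.ne_zero_of_coeff_ne_zero (g := (1 : ℤ)) (by rw [coeff_deltaSer_one]; exact one_ne_zero)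

/-- `j * Δ = E₄³`. -/
theorem jqModC_mul_deltaSer :
    jqModC R * deltaSer R =
      HahnSeries.ofPowerSeries ℤ R (eisenstein4.map (Int.castRingHom R)) ^ 3 := by
  rw [jqModC, deltaSer, jNum, mul_mul_mul_comm, HahnSeries.single_mul_single, neg_add_cancel,
    mul_one, HahnSeries.single_zero_one, one_mul, ← map_mul, ← map_mul, mul_assoc,
    mul_comm dedekindEtaUnitInv, dedekindEtaUnit_mul_inv, mul_one, map_pow, map_pow]

/-- `θ j ≠ 0`. -/
theorem coeff_theta_jqModC_neg_one : (theta (jqModC R)).coeff (-1) = -1 := by
  rw [theta_coeff, coeff_jqModC_neg_one, mul_one, Int.cast_neg, Int.cast_one]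

end FLTA.Igusa
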