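import Fermat.Agent.Igusa.Subst

/-!
# Algebraic tools for the modular polynomial
-/

set_option autoImplicit false

noncomputable section

open HahnSeries ModularCurve

namespace FLTA.Igusa

theorem coeff_prod_X_sub_C_mem_of_psum_mem {L : Type*} [CommRing L] (S : Subring L)
    (hinv : ∀ k : ℕ, k ≠ 0 → ∃ u ∈ S, u * (k : L) = 1) {n : ℕ} (r : Fin n → L)
    (hpsum : ∀ m : ℕ, ∑ i, r i ^ m ∈ S) (k : ℕ) :
    (∏ i, (Polynomial.X - Polynomial.C (r i))).coeff k ∈ S := by
  have hes : ∀ j : ℕ, (Finset.univ.val.map r).esymm j ∈ S := by
    intro j
    induction j using Nat.strong_induction_on with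
    | _ j ih =>
      rcases eq_or_ne j 0 with rfl | hj
      · simpa [Multiset.esymm] using one_mem S
      · have h := congrArg (MvPolynomial.aeval (R := ℤ) r)
          (MvPolynomial.mul_esymm_eq_sum (Fin n) ℤ j)
        simp only [map_mul, map_natCast, MvPolynomial.aeval_esymm_eq_multiset_esymm, map_sum,
          map_pow, map_neg, map_one, MvPolynomial.psum, MvPolynomial.aeval_X] at h
        obtain ⟨u, hu, huj⟩ := hinv j hj
        have hmem : (j : L) * (Finset.univ.val.map r).esymm j ∈ S := by
          rw [h]
          refine mul_mem (pow_mem (neg_mem (one_mem S)) _) (sum_mem fun a ha => ?_)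
          exact mul_mem (mul_mem (pow_mem (neg_mem (one_mem S)) _)
            (ih a.1 (Finset.mem_filter.mp ha).2)) (hpsum a.2)
        have := mul_mem hu hmem
        rwa [← mul_assoc, huj, one_mul] at this
  rcases le_or_gt k n with hk | hk
  · have := Multiset.prod_X_sub_C_coeff (Finset.univ.val.map r) (k := k) (by simpa using hk)
    rw [Multiset.map_map] at this
    rw [show (∏ i, (Polynomial.X - Polynomial.C (r i))) =
      (Finset.univ.val.map ((fun t => Polynomial.X - Polynomial.C t) ∘ r)).prod from rfl, this]
    exact mul_mem (pow_mem (neg_mem (one_mem S)) _) (hes _)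
  · nontriviality L
    rw [Polynomial.coeff_eq_zero_of_natDegree_lt (by
      rw [Polynomial.natDegree_prod_of_monic _ _ fun i _ => Polynomial.monic_X_sub_C _]
      simpa [Polynomial.natDegree_X_sub_C] using hk)]
    exact zero_mem S

theorem coeff_algebraMap_mul {K : Type*} [Field K] (a : K) (x : LaurentSeries K) (n : ℤ) :
    (algebraMap K (LaurentSeries K) a * x).coeff n = a * x.coeff n := by
  rw [algebraMap_laurentSeries_eq_single, HahnSeries.coeff_single_zero_mul]

theorem coeff_aeval_jqModC_natDegree {K : Type*} [Field K] (P : Polynomial K) :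
    (Polynomial.aeval (jqModC K) P).coeff (-(P.natDegree : ℤ)) = P.leadingCoeff := by
  rw [Polynomial.aeval_eq_sum_range, HahnSeries.coeff_sum, Finset.sum_eq_single P.natDegree]
  · rw [Algebra.smul_def, coeff_algebraMap_mul, coeff_jqModC_pow_self, mul_one,
      Polynomial.leadingCoeff]
  · intro i hi hne
    have : i < P.natDegree := by simp at hi; omega
    rw [Algebra.smul_def, coeff_algebraMap_mul, coeff_jqModC_pow_of_lt K (by omega), mul_zero]
  · intro h; simp at h

/-- An integral series which is a polynomial in `j` is an integral polynomial in `j`. -/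
theorem mem_lifts_of_coeff_aeval_mem {K : Type*} [Field K] (A : Subring K) (P : Polynomial K)
    (h : ∀ n : ℤ, (Polynomial.aeval (jqModC K) P).coeff n ∈ A) :
    ∀ i, P.coeff i ∈ A := by
  induction hd : P.natDegree using Nat.strong_induction_on generalizing P with
  | _ d ih =>
    have hlead : P.leadingCoeff ∈ A := coeff_aeval_jqModC_natDegree P ▸ h _
    intro i
    rcases eq_or_ne d 0 with h0 | h0
    · rcases eq_or_ne i 0 with rfl | hi
      · simpa [Polynomial.leadingCoeff, hd, h0] using hlead
      · rw [Polynomial.coeff_eq_zero_of_natDegree_lt (by omega)]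
        exact zero_mem A
    · have hint : ∀ n : ℤ, (Polynomial.aeval (jqModC K) P.eraseLead).coeff n ∈ A := by
        intro n
        have hP := congrArg (fun Q => (Polynomial.aeval (jqModC K) Q).coeff n)
          P.eraseLead_add_C_mul_X_pow
        simp only [map_add, map_mul, Polynomial.aeval_C, Polynomial.aeval_X_pow,
          HahnSeries.coeff_add, coeff_algebraMap_mul] at hP
        rw [← eq_sub_iff_add_eq] at hP
        rw [hP]
        refine sub_mem (h n) (mul_mem hlead ?_)
        have hz : ∀ m : ℤ, (jqModC K).coeff m ∈ A := fun m => by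
          rw [coeff_jqModC_eq_intCast]; exact intCast_mem A _
        have hpow : ∀ e : ℕ, ∀ m : ℤ, (jqModC K ^ e).coeff m ∈ A := by
          intro e
          induction e with
          | zero => intro m; rw [pow_zero, HahnSeries.coeff_one]; split_ifs <;>
              first | exact one_mem A | exact zero_mem A
          | succ e ihe =>
            intro m
            rw [pow_succ, HahnSeries.coeff_mul]
            exact sum_mem fun ij _ => mul_mem (ihe _) (hz _)
        exact hpow _ _
      have hlt : P.eraseLead.natDegree < d := by
        have := P.eraseLead_natDegree_le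
        omega
      rcases eq_or_ne i P.natDegree with rfl | hi
      · exact hlead
      · rw [← Polynomial.eraseLead_coeff_of_ne _ hi]
        exact ih _ hlt _ hint rfl i

end FLTA.Igusa
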