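import Fermat.Agent.Igusa.Theta
import Fermat.Agent.Bridge.JExpansion
import Fermat.Prelude.Thm_UpperHalfPlane_qExpansion_prod
import Mathlib.NumberTheory.ModularForms.Derivative

/-!
# `θj * Δ = -E₄² E₆` and its purely algebraic consequence `(θj)⁶ = j⁴ (j - 1728)³ Δ`
-/

set_option autoImplicit false

noncomputable section

open UpperHalfPlane ModularForm EisensteinSeries Function ModularCurve Derivative
open scoped MatrixGroups Manifold Topology

namespace FLTA.Igusa

/-- `X * d/dX` on formal power series. -/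
def thetaPS (f : PowerSeries ℂ) : PowerSeries ℂ := PowerSeries.mk fun n => (n : ℂ) * f.coeff n

theorem iteratedDeriv_id_mul_deriv {G : ℂ → ℂ} (hG : AnalyticAt ℂ G 0) (m : ℕ) :
    iteratedDeriv m (fun z => z * deriv G z) 0 = m * iteratedDeriv m G 0 := by
  have h := iteratedDeriv_mul (n := m) (f := fun z : ℂ => z) (g := deriv G) (x := (0 : ℂ))
    contDiffAt_id hG.deriv.contDiffAt
  change iteratedDeriv m ((fun z : ℂ => z) * deriv G) 0 = _
  rw [h]
  rcases m with _ | m
  · simp
  · rw [Finset.sum_eq_single 1]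
    · rw [Nat.choose_one_right, iteratedDeriv_succ' (f := G)]
      simp
    · intro i _ hi
      have : iteratedDeriv i (fun z : ℂ => z) 0 = 0 := by
        rcases i with _ | _ | i
        · simp
        · exact absurd rfl hi
        · rw [iteratedDeriv_succ']
          simp [iteratedDeriv_const]
      rw [this]
      ring
    · intro h1; simp at h1

theorem normalizedDeriv_qParam (τ : ℍ) :
    normalizedDerivOfComplex (fun σ : ℍ => Periodic.qParam 1 (σ : ℂ)) τ =
      Periodic.qParam 1 (τ : ℂ) := by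
  have hev : ((fun σ : ℍ => Periodic.qParam 1 (σ : ℂ)) ∘ ofComplex) =ᶠ[𝓝 (τ : ℂ)]
      Periodic.qParam 1 := by
    filter_upwards [isOpen_upperHalfPlaneSet.mem_nhds τ.im_pos] with w hw
    simp [ofComplex_apply_of_im_pos hw]
  rw [normalizedDerivOfComplex, hev.deriv_eq]
  have : deriv (Periodic.qParam 1) (τ : ℂ) =
      Periodic.qParam 1 (τ : ℂ) * (2 * Real.pi * Complex.I) := by
    have hd : HasDerivAt (fun z : ℂ => 2 * (Real.pi : ℂ) * Complex.I * z / ((1 : ℝ) : ℂ))
        (2 * Real.pi * Complex.I) (τ : ℂ) := by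
      simpa using (hasDerivAt_id (τ : ℂ)).const_mul (2 * (Real.pi : ℂ) * Complex.I)
    exact hd.cexp.deriv
  rw [this]
  field_simp

theorem normalizedDeriv_comp_qParam {F : ℍ → ℂ} {G : ℂ → ℂ}
    (hG : DifferentiableOn ℂ G (Metric.ball 0 1))
    (h : ∀ τ : ℍ, F τ = G (Periodic.qParam 1 (τ : ℂ))) (τ : ℍ) :
    normalizedDerivOfComplex F τ =
      Periodic.qParam 1 (τ : ℂ) * deriv G (Periodic.qParam 1 (τ : ℂ)) := by
  have hev : (F ∘ ofComplex) =ᶠ[𝓝 (τ : ℂ)] G ∘ Periodic.qParam 1 := by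
    filter_upwards [isOpen_upperHalfPlaneSet.mem_nhds τ.im_pos] with w hw
    simp [ofComplex_apply_of_im_pos hw, h]
  have hq := normalizedDeriv_qParam τ
  have hev' : ((fun σ : ℍ => Periodic.qParam 1 (σ : ℂ)) ∘ ofComplex) =ᶠ[𝓝 (τ : ℂ)]
      Periodic.qParam 1 := by
    filter_upwards [isOpen_upperHalfPlaneSet.mem_nhds τ.im_pos] with w hw
    simp [ofComplex_apply_of_im_pos hw]
  rw [normalizedDerivOfComplex, hev'.deriv_eq] at hq
  rw [normalizedDerivOfComplex, hev.deriv_eq,
    deriv_comp (τ : ℂ) (hG.differentiableAt (Metric.isOpen_ball.mem_nhds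
      (FLTA.Bridge.qParam_mem_ball τ))) (by fun_prop), ← mul_assoc,
    mul_comm (2 * (Real.pi : ℂ) * Complex.I)⁻¹, mul_assoc, hq, mul_comm]

theorem qExpansion_of_eq_id_mul_deriv {F : ℍ → ℂ} {G : ℂ → ℂ} (hG : AnalyticAt ℂ G 0)
    (h : ∀ τ : ℍ, F τ = Periodic.qParam 1 (τ : ℂ) * deriv G (Periodic.qParam 1 (τ : ℂ)))
    (P : PowerSeries ℂ) (hP : ∀ m : ℕ, P.coeff m = (m.factorial : ℂ)⁻¹ * iteratedDeriv m G 0) :
    qExpansion 1 F = thetaPS P := by
  ext m
  rw [UpperHalfPlane.qExpansion_coeff,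
    FLTA.Bridge.iteratedDeriv_cuspFunction_of_eq_comp (F := F) (G := fun z => z * deriv G z)
      (analyticAt_id.mul hG.deriv) h, iteratedDeriv_id_mul_deriv hG, thetaPS,
    PowerSeries.coeff_mk, hP]
  ring

/-- The form `θj * Δ` of weight `14`. -/
def thetaJDelta (τ : ℍ) : ℂ :=
  normalizedDerivOfComplex FLTA.Bridge.jInv τ * ModularForm.discriminant τ

theorem thetaJDelta_slash (γ : SL(2, ℤ)) : thetaJDelta ∣[(14 : ℤ)] γ = thetaJDelta := by
  have hj : FLTA.Bridge.jInv ∣[(0 : ℤ)] γ = FLTA.Bridge.jInv := by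
    ext τ
    rw [ModularForm.SL_slash_apply, neg_zero, zpow_zero, mul_one, FLTA.Bridge.jInv_smul]
  have hD : normalizedDerivOfComplex FLTA.Bridge.jInv ∣[(2 : ℤ)] γ =
      normalizedDerivOfComplex FLTA.Bridge.jInv := by
    have := Derivative.normalizedDerivOfComplex_SL_slash (k := 0)
      FLTA.Bridge.mdifferentiable_jInv (γ := γ)
    rw [hj] at this
    ext τ
    simpa using (congrFun this τ).symm
  have hΔ : ModularForm.discriminant ∣[(12 : ℤ)] γ = ModularForm.discriminant := by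
    rw [← CuspForm.coe_discriminant]
    exact SlashInvariantFormClass.slash_action_eq CuspForm.discriminant _ ⟨γ, rfl⟩
  have := ModularForm.mul_slash_SL2 2 12 γ (normalizedDerivOfComplex FLTA.Bridge.jInv)
    ModularForm.discriminant
  rw [hD, hΔ] at this
  exact this

theorem mdifferentiable_thetaJDelta : MDiff thetaJDelta :=
  (Derivative.normalizedDerivOfComplex_mdifferentiable FLTA.Bridge.mdifferentiable_jInv).mul
    (CuspForm.discriminant.holo')

theorem thetaJDelta_eq (τ : ℍ) :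
    thetaJDelta τ = (normalizedDerivOfComplex FLTA.Bridge.qMulJ τ - FLTA.Bridge.qMulJ τ) *
      FLTA.Bridge.eulerFun τ ^ 24 := by
  have hprod : FLTA.Bridge.qMulJ =
      (fun σ : ℍ => Periodic.qParam 1 (σ : ℂ)) * FLTA.Bridge.jInv := rfl
  have hq : MDiff (fun σ : ℍ => Periodic.qParam 1 (σ : ℂ)) := by
    rw [UpperHalfPlane.mdifferentiable_iff]
    have h2 : DifferentiableOn ℂ (Periodic.qParam 1) upperHalfPlaneSet := by fun_prop
    exact h2.congr fun z hz => by simp [ofComplex_apply_of_im_pos hz]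
  rw [hprod, Derivative.normalizedDerivOfComplex_mul _ _ hq FLTA.Bridge.mdifferentiable_jInv]
  simp only [Pi.add_apply, Pi.mul_apply, normalizedDeriv_qParam, thetaJDelta,
    FLTA.Bridge.discriminant_eq_qFun_mul, FLTA.Bridge.qFun]
  ring

/-- The holomorphic factor `q d/dq (qj) - qj` at `i∞`. -/
def thetaJNum (τ : ℍ) : ℂ :=
  normalizedDerivOfComplex FLTA.Bridge.qMulJ τ - FLTA.Bridge.qMulJ τ

theorem analyticAt_cuspFunction_derivQMulJ :
    AnalyticAt ℂ (cuspFunction 1 (normalizedDerivOfComplex FLTA.Bridge.qMulJ)) 0 ∧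
      qExpansion 1 (normalizedDerivOfComplex FLTA.Bridge.qMulJ) =
        thetaPS (jNum.map (Int.castRingHom ℂ)) := by
  set G := cuspFunction 1 FLTA.Bridge.qMulJ with hG
  have hGd : DifferentiableOn ℂ G (Metric.ball 0 1) :=
    UpperHalfPlane.differentiableOn_cuspFunction_ball one_pos FLTA.Bridge.periodic_qMulJ
      FLTA.Bridge.mdifferentiable_qMulJ FLTA.Bridge.isBoundedAtImInfty_qMulJ
  have heq : ∀ τ : ℍ, FLTA.Bridge.qMulJ τ = G (Periodic.qParam 1 (τ : ℂ)) := fun τ =>
    (UpperHalfPlane.eq_cuspFunction τ one_ne_zero FLTA.Bridge.periodic_qMulJ).symm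
  have hGa : AnalyticAt ℂ G 0 := FLTA.Bridge.analyticAt_cuspFunction_qMulJ
  have h := normalizedDeriv_comp_qParam hGd heq
  refine ⟨FLTA.Bridge.analyticAt_cuspFunction_of_eq_comp (G := fun z => z * deriv G z)
    (analyticAt_id.mul hGa.deriv) h, qExpansion_of_eq_id_mul_deriv hGa h _ fun m => ?_⟩
  rw [← FLTA.Bridge.qExpansion_qMulJ, UpperHalfPlane.qExpansion_coeff]

theorem analyticAt_cuspFunction_thetaJDelta : AnalyticAt ℂ (cuspFunction 1 thetaJDelta) 0 := by
  have h1 := analyticAt_cuspFunction_derivQMulJ.1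
  have h2 := FLTA.Bridge.analyticAt_cuspFunction_qMulJ
  have h3 := FLTA.Bridge.analyticAt_cuspFunction_eulerFun_pow 24
  have hs : AnalyticAt ℂ (cuspFunction 1 thetaJNum) 0 := by
    rw [show thetaJNum = normalizedDerivOfComplex FLTA.Bridge.qMulJ - FLTA.Bridge.qMulJ from rfl,
      UpperHalfPlane.cuspFunction_sub h1.continuousAt h2.continuousAt]
    exact h1.sub h2
  rw [show thetaJDelta = thetaJNum * FLTA.Bridge.eulerFun ^ 24 from funext thetaJDelta_eq,
    UpperHalfPlane.cuspFunction_mul hs.continuousAt h3.continuousAt]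
  exact hs.mul h3

theorem qExpansion_thetaJDelta :
    qExpansion 1 thetaJDelta =
      (thetaPS (jNum.map (Int.castRingHom ℂ)) - jNum.map (Int.castRingHom ℂ)) *
        dedekindEtaUnit.map (Int.castRingHom ℂ) := by
  obtain ⟨h1, h1'⟩ := analyticAt_cuspFunction_derivQMulJ
  have h2 := FLTA.Bridge.analyticAt_cuspFunction_qMulJ
  have h3 := FLTA.Bridge.analyticAt_cuspFunction_eulerFun_pow 24
  have hs : AnalyticAt ℂ (cuspFunction 1 thetaJNum) 0 := by
    rw [show thetaJNum = normalizedDerivOfComplex FLTA.Bridge.qMulJ - FLTA.Bridge.qMulJ from rfl,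
      UpperHalfPlane.cuspFunction_sub h1.continuousAt h2.continuousAt]
    exact h1.sub h2
  rw [show thetaJDelta = thetaJNum * FLTA.Bridge.eulerFun ^ 24 from funext thetaJDelta_eq,
    UpperHalfPlane.qExpansion_mul hs h3, FLTA.Bridge.qExpansion_eulerFun_pow,
    FLTA.Bridge.qExpansion_eulerFun, dedekindEtaUnit, map_pow,
    show thetaJNum = normalizedDerivOfComplex FLTA.Bridge.qMulJ - FLTA.Bridge.qMulJ from rfl,
    UpperHalfPlane.qExpansion_sub h1 h2, h1', FLTA.Bridge.qExpansion_qMulJ]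

/-- `θj * Δ` as a modular form of weight `14`. -/
def thetaJForm : ModularForm 𝒮ℒ 14 where
  toFun := thetaJDelta
  slash_action_eq' := fun _ ⟨γ, hγ⟩ => hγ ▸ thetaJDelta_slash γ
  holo' := mdifferentiable_thetaJDelta
  bdd_at_cusps' := fun {c} hc => by
    rw [Subgroup.IsArithmetic.isCusp_iff_isCusp_SL2Z] at hc
    rw [OnePoint.isBoundedAt_iff_forall_SL2Z hc]
    intro γ _
    rw [thetaJDelta_slash γ]
    have hper : Periodic (thetaJDelta ∘ ofComplex) ((1 : ℝ) : ℂ) := by
      simpa using SlashInvariantFormClass.periodic_comp_ofComplex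
        ({ toFun := thetaJDelta, slash_action_eq' := fun _ ⟨δ, hδ⟩ => hδ ▸ thetaJDelta_slash δ } :
          SlashInvariantForm 𝒮ℒ 14) one_mem_strictPeriods_SL
    have ht : Filter.Tendsto thetaJDelta atImInfty (𝓝 (cuspFunction 1 thetaJDelta 0)) := by
      have := analyticAt_cuspFunction_thetaJDelta.continuousAt.tendsto.comp
        (UpperHalfPlane.qParam_tendsto_atImInfty (h := (1 : ℝ)) one_pos)
      exact this.congr fun τ => UpperHalfPlane.eq_cuspFunction τ one_ne_zero hper
    exact ht.isBigO_one ℝ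

theorem qExpansion_thetaJDelta_eq :
    (thetaPS (jNum.map (Int.castRingHom ℂ)) - jNum.map (Int.castRingHom ℂ)) *
        dedekindEtaUnit.map (Int.castRingHom ℂ) =
      -(eisenstein4.map (Int.castRingHom ℂ) ^ 2 * qExpansion 1 (E₆ : ℍ → ℂ)) := by
  set h : ModularForm 𝒮ℒ 14 :=
    thetaJForm + ModularForm.mcast (by norm_num) ((E₄.mul E₄).mul E₆) with hh
  have hq : qExpansion 1 (h : ℍ → ℂ) =
      (thetaPS (jNum.map (Int.castRingHom ℂ)) - jNum.map (Int.castRingHom ℂ)) *
        dedekindEtaUnit.map (Int.castRingHom ℂ) +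
      eisenstein4.map (Int.castRingHom ℂ) ^ 2 * qExpansion 1 (E₆ : ℍ → ℂ) := by
    rw [hh, FunLike.coe_add, ModularForm.qExpansion_add one_pos one_mem_strictPeriods_SL,
      ← qExpansion_thetaJDelta]
    congr 1
    simp only [ModularForm.coe_mcast]
    rw [ModularForm.qExpansion_mul one_pos one_mem_strictPeriods_SL,
      ModularForm.qExpansion_mul one_pos one_mem_strictPeriods_SL, FLTA.Bridge.qExpansion_E4, sq]
  have h0 : (qExpansion 1 (h : ℍ → ℂ)).coeff 0 = 0 := by
    rw [hq, map_add]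
    simp [thetaPS, PowerSeries.coeff_mul, E_qExpansion_coeff_zero _ ⟨3, rfl⟩, sq,
      PowerSeries.coeff_map, eisenstein4, PowerSeries.coeff_zero_eq_constantCoeff_apply,
      constantCoeff_dedekindEtaUnit]
  have hfact := ModularForm.qExpansion_eq_qExpansion_discriminant_mul h h0
  have hz : (CuspForm.discriminantEquiv (ModularForm.toCuspForm h h0)) = 0 := by
    have := rank_zero_iff_forall_zero.mp ModularForm.levelOne_weight_two_rank_zero
      (ModularForm.mcast (by norm_num) (CuspForm.discriminantEquiv (ModularForm.toCuspForm h h0)))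
    exact DFunLike.coe_injective (by simpa using congrArg DFunLike.coe this)
  rw [hz, FunLike.coe_zero, UpperHalfPlane.qExpansion_zero, mul_zero, hq] at hfact
  exact eq_neg_of_add_eq_zero_left hfact

end FLTA.Igusa
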