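import Fermat.Agent.Igusa.LevelOne
import Fermat.Prelude.Def_ModularForm_HeckeOperator
import Fermat.Prelude.Thm_ModularForm_heckeT_slash_eq_self_of_mem_Gamma0
import Fermat.Prelude.Thm_ModularForm_mdifferentiable_heckeT

/-!
# Power sums of the roots of the modular polynomial
-/

set_option autoImplicit false

noncomputable section

open UpperHalfPlane ModularForm Function ModularCurve HahnSeries
open scoped MatrixGroups Manifold Topology

namespace FLTA.Igusa

variable {R S : Type*} [CommRing R] [CommRing S]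

/-- `p` times the operator `U_p` on Laurent series. -/
def uOp (p : ℕ) [NeZero p] (f : LaurentSeries R) : LaurentSeries R :=
  HahnSeries.ofSuppBddBelow (fun n => (p : R) * f.coeff (p * n)) (by
    refine HahnSeries.forallLTEqZero_supp_BddBelow _ (min 0 f.order) fun n hn => ?_
    have hp : (1 : ℤ) ≤ p := by exact_mod_cast NeZero.one_le
    have h0 : n < 0 := lt_of_lt_of_le hn (min_le_left _ _)
    have h1 : (p : ℤ) * n ≤ n := by nlinarith
    rw [HahnSeries.coeff_eq_zero_of_lt_order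
      (lt_of_le_of_lt h1 (lt_of_lt_of_le hn (min_le_right _ _))), mul_zero])

@[simp]
theorem uOp_coeff (p : ℕ) [NeZero p] (f : LaurentSeries R) (n : ℤ) :
    (uOp p f).coeff n = (p : R) * f.coeff (p * n) := by
  rw [uOp, HahnSeries.coeff_ofSuppBddBelow]

theorem coeffMap_uOp (φ : R →+* S) (p : ℕ) [NeZero p] (f : LaurentSeries R) :
    coeffMap φ (uOp p f) = uOp p (coeffMap φ f) := by
  ext n; simp

theorem sum_pow_zpow_eq [IsDomain R] {p : ℕ} [NeZero p] {ζ : Rˣ} (hζ : IsPrimitiveRoot ζ p)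
    (n : ℤ) :
    ∑ i ∈ Finset.range p, (((ζ ^ i) ^ n : Rˣ) : R) = if (p : ℤ) ∣ n then (p : R) else 0 := by
  have hu : ∀ i : ℕ, (((ζ ^ i) ^ n : Rˣ) : R) = ((ζ ^ n : Rˣ) : R) ^ i := fun i => by
    rw [← Units.val_pow_eq_pow_val, ← zpow_natCast, ← zpow_natCast, ← zpow_mul, ← zpow_mul,
      mul_comm]
  simp only [hu]
  split_ifs with h
  · rw [(hζ.zpow_eq_one_iff_dvd n).mpr h]
    simp
  · have hne : ((ζ ^ n : Rˣ) : R) ≠ 1 := fun h1 =>
      h ((hζ.zpow_eq_one_iff_dvd n).mp (Units.ext h1))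
    have hp1 : ((ζ ^ n : Rˣ) : R) ^ p = 1 := by
      rw [← Units.val_pow_eq_pow_val, ← zpow_natCast (ζ ^ n), ← zpow_mul,
        (hζ.zpow_eq_one_iff_dvd _).mpr (dvd_mul_left _ _), Units.val_one]
    have := geom_sum_mul ((ζ ^ n : Rˣ) : R) p
    rw [hp1, sub_self] at this
    exact (mul_eq_zero.mp this).resolve_right (sub_ne_zero.mpr hne)

theorem sum_twist_eq [IsDomain R] {p : ℕ} [NeZero p] {ζ : Rˣ} (hζ : IsPrimitiveRoot ζ p)
    (f : LaurentSeries R) :
    ∑ i ∈ Finset.range p, twist (ζ ^ i) f = qExpand R p (uOp p f) := by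
  ext n
  rw [HahnSeries.coeff_sum]
  simp only [twist_coeff]
  rw [← Finset.sum_mul, sum_pow_zpow_eq hζ]
  split_ifs with h
  · obtain ⟨m, rfl⟩ := h
    rw [qExpand_coeff_mul, uOp_coeff]
  · rw [zero_mul, qExpand_coeff_of_not_dvd p _ h]

variable {f : ℍ → ℂ} {c : LaurentSeries ℂ}

theorem hasLaurentQ_diag (hf : HasLaurentQ f c) (p : ℕ) [NeZero p] :
    HasLaurentQ (fun τ => f (heckeDiagMatrix p • τ)) (qExpand ℂ p c) := by
  intro τ
  have hinj : Function.Injective (fun n : ℤ => (p : ℤ) * n) :=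
    mul_right_injective₀ (by exact_mod_cast NeZero.ne p)
  refine (hinj.hasSum_iff ?_).mp ((hf (heckeDiagMatrix p • τ)).congr_fun fun n => ?_)
  · intro n hn
    rw [qExpand_coeff_of_not_dvd p _ (fun ⟨m, hm⟩ => hn ⟨m, hm.symm⟩), zero_mul]
  · simp only [Function.comp_apply, qExpand_coeff_mul]
    rw [coe_heckeDiagMatrix_smul (NeZero.ne p), zpow_mul, zpow_natCast]
    congr 2
    simp only [Periodic.qParam]
    rw [← Complex.exp_nat_mul]
    congr 1
    push_cast
    ring

theorem hasLaurentQ_sum_heckeMatrix (hf : HasLaurentQ f c) (p : ℕ) [NeZero p] :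
    HasLaurentQ (fun τ => ∑ i ∈ Finset.range p, f (heckeMatrix p i • τ)) (uOp p c) := by
  intro τ
  set t : ℂ := Periodic.qParam p (τ : ℂ) with ht
  have hp : (p : ℂ) ≠ 0 := by exact_mod_cast NeZero.ne p
  have hprim := Complex.isPrimitiveRoot_exp p (NeZero.ne p)
  set ζ : ℂˣ := (hprim.isUnit (NeZero.ne p)).unit with hζdef
  have hζ : IsPrimitiveRoot ζ p := IsPrimitiveRoot.coe_units_iff.mp hprim
  have hterm : ∀ i : ℕ, HasSum
      (fun n : ℤ => (((ζ ^ i) ^ n : ℂˣ) : ℂ) * (c.coeff n * t ^ n))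
      (f (heckeMatrix p i • τ)) := by
    intro i
    refine (hf (heckeMatrix p i • τ)).congr_fun fun n => ?_
    have hq : Periodic.qParam 1 ((heckeMatrix p i • τ : ℍ) : ℂ) =
        ((ζ ^ i : ℂˣ) : ℂ) * t := by
      rw [coe_heckeMatrix_smul (NeZero.ne p), Units.val_pow_eq_pow_val, hζdef,
        IsUnit.unit_spec, ← Complex.exp_nat_mul, ht]
      simp only [Periodic.qParam]
      rw [← Complex.exp_add]
      congr 1
      push_cast
      field_simp
      ring
    rw [hq, mul_zpow, Units.val_zpow_eq_zpow_val]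
    ring
  have hsum := hasSum_sum (s := Finset.range p) fun i _ => hterm i
  have hinj : Function.Injective (fun n : ℤ => (p : ℤ) * n) :=
    mul_right_injective₀ (by exact_mod_cast NeZero.ne p)
  refine ((hinj.hasSum_iff ?_).mpr hsum).congr_fun fun n => ?_
  · intro n hn
    rw [← Finset.sum_mul, sum_pow_zpow_eq hζ, if_neg (fun ⟨m, hm⟩ => hn ⟨m, hm.symm⟩), zero_mul]
  · simp only [Function.comp_apply]
    rw [← Finset.sum_mul, sum_pow_zpow_eq hζ, if_pos (dvd_mul_right _ _), uOp_coeff, zpow_mul,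
      zpow_natCast, show t ^ p = Periodic.qParam 1 (τ : ℂ) by
        rw [ht]
        simp only [Periodic.qParam]
        rw [← Complex.exp_nat_mul]
        congr 1
        push_cast
        field_simp]
    ring

theorem uOp_add_qExpand_mem_range (p : ℕ) [NeZero p] (hp : p.Prime) (m : ℕ) :
    uOp p (jqModC ℂ ^ m) + qExpand ℂ p (jqModC ℂ ^ m) ∈
      (Polynomial.aeval (R := ℂ) (jqModC ℂ)).range := by
  set F : ℍ → ℂ := fun τ => FLTA.Bridge.jInv τ ^ m with hF
  set g : ℍ → ℂ := fun τ => (p : ℂ) * ModularForm.heckeT 0 p F τ with hg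
  have hpC : (p : ℂ) ≠ 0 := by exact_mod_cast NeZero.ne p
  have hFhol : MDiff F := FLTA.Bridge.mdifferentiable_jInv.pow m
  have hFinv : ∀ γ ∈ (CongruenceSubgroup.Gamma0 1 : Subgroup (GL (Fin 2) ℝ)),
      SlashAction.map (0 : ℤ) γ F = F := by
    rintro _ ⟨γ, -, rfl⟩
    ext τ
    show (F ∣[(0 : ℤ)] γ) τ = F τ
    rw [ModularForm.SL_slash_apply, neg_zero, zpow_zero, mul_one]
    exact congrArg (· ^ m) (FLTA.Bridge.jInv_smul γ τ)
  refine mem_range_aeval_of_invariant (g := g) ?_ ?_ ?_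
  · exact mdifferentiable_const.mul (ModularForm.mdifferentiable_heckeT hFhol 0 p)
  · intro γ τ
    have := congrFun (ModularForm.heckeT_slash_eq_self_of_mem_Gamma0 (N := 1) 0 hp
      (fun h => hp.one_lt.ne' (Nat.dvd_one.mp h)) hFinv (γ : GL (Fin 2) ℝ)
      ⟨γ, by simp [CongruenceSubgroup.Gamma0_mem, eq_iff_true_of_subsingleton], rfl⟩) τ
    change (ModularForm.heckeT 0 p F ∣[(0 : ℤ)] γ) τ = _ at this
    rw [ModularForm.SL_slash_apply, neg_zero, zpow_zero, mul_one] at this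
    simp only [hg]
    rw [this]
  · intro τ
    have hsum := (hasLaurentQ_sum_heckeMatrix (hasLaurentQ_jInv_pow m) p).add
      (hasLaurentQ_diag (hasLaurentQ_jInv_pow m) p) τ
    convert hsum using 1
    simp only [hg, hF, Pi.add_apply, ModularForm.heckeT_apply 0 (NeZero.ne p), zero_sub,
      zpow_neg_one, mul_add, ← mul_assoc, mul_inv_cancel₀ hpC, one_mul]

end FLTA.Igusa
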