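import Mathlib
import Fermat.Prelude.Def_ModularCurve_X0ModL

/-!
# Monomial substitutions `q ↦ c * q^e` on Laurent series
-/

set_option autoImplicit false

noncomputable section

open HahnSeries ModularCurve

namespace FLTA.Igusa

variable {R S : Type*} [CommRing R] [CommRing S]

/-- `f(q) ↦ f(c q)` for a unit `c`. -/
def twist (c : Rˣ) : LaurentSeries R →+* LaurentSeries R where
  toFun f :=
    { coeff := fun n => ((c ^ n : Rˣ) : R) * f.coeff n
      isPWO_support' := f.isPWO_support.mono fun n hn => by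
        simp only [Function.mem_support, HahnSeries.mem_support] at hn ⊢
        exact fun h => hn (by rw [h, mul_zero]) }
  map_one' := by
    ext n
    rcases eq_or_ne n 0 with rfl | hn
    · simp
    · simp [HahnSeries.coeff_one, hn]
  map_zero' := by ext n; simp
  map_add' x y := by ext n; simp [mul_add]
  map_mul' x y := by
    ext n
    simp only [HahnSeries.coeff_mul, Finset.mul_sum]
    symm
    refine (Finset.sum_subset ?_ ?_).trans (Finset.sum_congr rfl ?_)
    · intro ij hij
      simp only [Finset.mem_antidiagonal, HahnSeries.mem_support] at hij ⊢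
      exact ⟨fun h => hij.1 (by rw [h, mul_zero]), fun h => hij.2.1 (by rw [h, mul_zero]), hij.2.2⟩
    · intro ij hij hnot
      simp only [Finset.mem_antidiagonal, HahnSeries.mem_support, not_and] at hij hnot
      by_cases h1 : ((c ^ ij.1 : Rˣ) : R) * x.coeff ij.1 = 0
      · rw [h1, zero_mul]
      · by_cases h2 : ((c ^ ij.2 : Rˣ) : R) * y.coeff ij.2 = 0
        · rw [h2, mul_zero]
        · exact absurd hij.2.2 (hnot h1 h2)
    · intro ij hij
      simp only [Finset.mem_antidiagonal] at hij
      rw [← hij.2.2, zpow_add, Units.val_mul]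
      ring

@[simp]
theorem twist_coeff (c : Rˣ) (f : LaurentSeries R) (n : ℤ) :
    (twist c f).coeff n = ((c ^ n : Rˣ) : R) * f.coeff n :=
  rfl

theorem twist_single (c : Rˣ) (n : ℤ) (r : R) :
    twist c (HahnSeries.single n r) = HahnSeries.single n (((c ^ n : Rˣ) : R) * r) := by
  ext m
  rcases eq_or_ne m n with rfl | h
  · simp
  · simp [h]

@[simp]
theorem twist_C (c : Rˣ) (r : R) : twist c (HahnSeries.C r) = HahnSeries.C r := by
  rw [HahnSeries.C_apply, twist_single, zpow_zero, Units.val_one, one_mul]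

@[simp]
theorem twist_one_apply (f : LaurentSeries R) : twist 1 f = f := by
  ext n; simp

theorem twist_twist (c d : Rˣ) (f : LaurentSeries R) : twist c (twist d f) = twist (c * d) f := by
  ext n; simp [mul_zpow, mul_assoc]

theorem twist_injective (c : Rˣ) : Function.Injective (twist c) :=
  Function.LeftInverse.injective (g := twist c⁻¹) fun f => by simp [twist_twist]

theorem twist_qExpand (c : Rˣ) (e : ℕ) [NeZero e] (f : LaurentSeries R) :
    twist c (qExpand R e f) = qExpand R e (twist (c ^ e) f) := by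
  ext n
  by_cases h : (e : ℤ) ∣ n
  · obtain ⟨m, rfl⟩ := h
    simp [zpow_mul]
  · simp [qExpand_coeff_of_not_dvd e _ h]

theorem coeffMap_twist (φ : R →+* S) (c : Rˣ) (f : LaurentSeries R) :
    coeffMap φ (twist c f) = twist (Units.map (φ : R →* S) c) (coeffMap φ f) := by
  ext n
  simp [← map_zpow]

/-- `j(c q^e)` as a Laurent series. -/
def jAt (c : Rˣ) (e : ℕ) [NeZero e] : LaurentSeries R :=
  qExpand R e (twist c (jqModC R))

theorem jAt_one (e : ℕ) [NeZero e] : jAt (1 : Rˣ) e = qExpand R e (jqModC R) := by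
  simp [jAt]

theorem jAt_one_one : jAt (1 : Rˣ) 1 = jqModC R := by
  simp [jAt_one, qExpand_one_apply]

theorem qExpand_jAt (c : Rˣ) (m e : ℕ) [NeZero m] [NeZero e] [NeZero (m * e)] :
    qExpand R m (jAt c e) = jAt c (m * e) := by
  rw [jAt, jAt, qExpand_qExpand]

theorem twist_jAt (c d : Rˣ) (e : ℕ) [NeZero e] : twist c (jAt d e) = jAt (c ^ e * d) e := by
  rw [jAt, jAt, twist_qExpand, twist_twist]

theorem coeffMap_jAt (φ : R →+* S) (c : Rˣ) (e : ℕ) [NeZero e] :
    coeffMap φ (jAt c e) = jAt (Units.map (φ : R →* S) c) e := by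
  rw [jAt, jAt, coeffMap_qExpand, coeffMap_twist, coeffMap_jqModC]

theorem coeff_jAt_neg (c : Rˣ) (e : ℕ) [NeZero e] :
    (jAt c e).coeff (-(e : ℤ)) = ((c⁻¹ : Rˣ) : R) := by
  rw [jAt, show -(e : ℤ) = (e : ℤ) * (-1) by ring, qExpand_coeff_mul, twist_coeff,
    coeff_jqModC_neg_one, mul_one, zpow_neg_one]

theorem coeff_jAt_of_lt (c : Rˣ) (e : ℕ) [NeZero e] {n : ℤ} (hn : n < -(e : ℤ)) :
    (jAt c e).coeff n = 0 := by
  rw [jAt]
  by_cases h : (e : ℤ) ∣ n
  · obtain ⟨m, rfl⟩ := h
    rw [qExpand_coeff_mul, twist_coeff, coeff_jqModC_of_lt R, mul_zero]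
    have he : (0 : ℤ) < e := by exact_mod_cast Nat.pos_of_ne_zero (NeZero.ne e)
    nlinarith
  · exact qExpand_coeff_of_not_dvd e _ h

theorem jAt_inj [Nontrivial R] {c d : Rˣ} {e f : ℕ} [NeZero e] [NeZero f]
    (h : jAt c e = jAt d f) : e = f ∧ c = d := by
  obtain rfl : e = f := by
    rcases lt_trichotomy e f with hlt | heq | hlt
    · have h1 := coeff_jAt_neg d f
      rw [← h, coeff_jAt_of_lt c e (by omega)] at h1
      exact absurd h1.symm (Units.ne_zero _)
    · exact heq
    · have h1 := coeff_jAt_neg c e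
      rw [h, coeff_jAt_of_lt d f (by omega)] at h1
      exact absurd h1.symm (Units.ne_zero _)
  refine ⟨rfl, inv_injective (Units.ext ?_)⟩
  rw [← coeff_jAt_neg c e, h, coeff_jAt_neg]

end FLTA.Igusa
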