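import Fermat.Agent.Igusa.Subst
import Fermat.Agent.Bridge.JExpansion
import Fermat.Prelude.Thm_UpperHalfPlane_qExpansion_prod

/-!
# Invariant holomorphic functions with a finite polar part are polynomials in `j`
-/

set_option autoImplicit false

noncomputable section

open UpperHalfPlane ModularForm Function ModularCurve HahnSeries
open scoped MatrixGroups Manifold Topology

namespace FLTA.Igusa

local notation "q₁" => fun τ : ℍ => Periodic.qParam 1 (τ : ℂ)

/-- `c` is a convergent Laurent `q`-expansion of `f` on all of the upper half plane. -/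
def HasLaurentQ (f : ℍ → ℂ) (c : LaurentSeries ℂ) : Prop :=
  ∀ τ : ℍ, HasSum (fun n : ℤ => c.coeff n * Periodic.qParam 1 (τ : ℂ) ^ n) (f τ)

namespace HasLaurentQ

variable {f g : ℍ → ℂ} {c d : LaurentSeries ℂ}

theorem add (hf : HasLaurentQ f c) (hg : HasLaurentQ g d) : HasLaurentQ (f + g) (c + d) :=
  fun τ => by simpa [add_mul] using (hf τ).add (hg τ)

theorem sub (hf : HasLaurentQ f c) (hg : HasLaurentQ g d) : HasLaurentQ (f - g) (c - d) :=
  fun τ => by simpa [sub_mul] using (hf τ).sub (hg τ)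

theorem const_mul (hf : HasLaurentQ f c) (a : ℂ) :
    HasLaurentQ (fun τ => a * f τ) (HahnSeries.C a * c) :=
  fun τ => by simpa [HahnSeries.C_mul_eq_smul, mul_assoc] using (hf τ).mul_left a

theorem sum {ι : Type*} (s : Finset ι) {F : ι → ℍ → ℂ} {C : ι → LaurentSeries ℂ}
    (h : ∀ i ∈ s, HasLaurentQ (F i) (C i)) : HasLaurentQ (∑ i ∈ s, F i) (∑ i ∈ s, C i) :=
  fun τ => by
    simpa [Finset.sum_apply, HahnSeries.coeff_sum, Finset.sum_mul] using
      hasSum_sum fun i hi => h i hi τ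

theorem const (a : ℂ) : HasLaurentQ (fun _ => a) (HahnSeries.C a) := fun τ => by
  have := hasSum_single (f := fun n : ℤ =>
    (HahnSeries.C a).coeff n * Periodic.qParam 1 (τ : ℂ) ^ n) 0 fun n hn => by
      simp [HahnSeries.C_apply, hn]
  simpa [HahnSeries.C_apply] using this

/-- A power-series expansion of `q^m * f` gives a Laurent expansion of `f`. -/
theorem of_shift {m : ℕ} {P : PowerSeries ℂ}
    (h : ∀ τ : ℍ, HasSum (fun n : ℕ => P.coeff n * Periodic.qParam 1 (τ : ℂ) ^ n)
      (Periodic.qParam 1 (τ : ℂ) ^ m * f τ)) :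
    HasLaurentQ f (HahnSeries.single (-(m : ℤ)) 1 * HahnSeries.ofPowerSeries ℤ ℂ P) := by
  intro τ
  set q : ℂ := Periodic.qParam 1 (τ : ℂ) with hq
  have hq0 : q ≠ 0 := Periodic.qParam_ne_zero _
  have h' := (h τ).mul_left ((q ^ m)⁻¹)
  rw [← mul_assoc, inv_mul_cancel₀ (pow_ne_zero _ hq0), one_mul] at h'
  have hinj : Function.Injective (fun n : ℕ => (n : ℤ) - m) := fun a b hab => by simpa using hab
  refine (hinj.hasSum_iff ?_).mp (h'.congr_fun fun n => ?_)
  · intro n hn
    rw [HahnSeries.coeff_single_mul, one_mul,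
      ofPowerSeries_coeff_of_neg _ (by
        by_contra hneg
        exact hn ⟨(n - -(m : ℤ)).toNat, by simp; omega⟩), zero_mul]
  · simp only [Function.comp_apply, HahnSeries.coeff_single_mul, one_mul]
    rw [show (n : ℤ) - m - -(m : ℤ) = n by ring, HahnSeries.ofPowerSeries_apply_coeff,
      zpow_sub₀ hq0, zpow_natCast, zpow_natCast]
    ring

/-- Without negative terms, a Laurent expansion is a power-series expansion. -/
theorem hasSum_nat (hf : HasLaurentQ f c) (hc : ∀ n < 0, c.coeff n = 0) (τ : ℍ) :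
    HasSum (fun n : ℕ => c.coeff (n : ℤ) • Periodic.qParam 1 (τ : ℂ) ^ n) (f τ) := by
  have hinj : Function.Injective (fun n : ℕ => (n : ℤ)) := Nat.cast_injective
  refine ((hinj.hasSum_iff ?_).mpr (hf τ)).congr_fun fun n => by simp
  intro n hn
  rw [hc n (by by_contra h; exact hn ⟨n.toNat, by simp; omega⟩), zero_mul]

theorem coeff_unique_nat (hf : HasLaurentQ f c) (hg : HasLaurentQ f d)
    (hc : ∀ n < 0, c.coeff n = 0) (hd : ∀ n < 0, d.coeff n = 0)
    (han : AnalyticAt ℂ (cuspFunction 1 f) 0) : c = d := by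
  have h1 := (UpperHalfPlane.hasFPowerSeriesOnBall_cuspFunction (h := 1) one_pos han
    (hf.hasSum_nat hc)).hasFPowerSeriesAt
  have h2 := (UpperHalfPlane.hasFPowerSeriesOnBall_cuspFunction (h := 1) one_pos han
    (hg.hasSum_nat hd)).hasFPowerSeriesAt
  refine HahnSeries.ext (funext fun n => ?_)
  rcases lt_or_ge n 0 with hn | hn
  · rw [hc n hn, hd n hn]
  · lift n to ℕ using hn
    simpa using congrArg (FormalMultilinearSeries.coeff · n) (h1.eq_formalMultilinearSeries h2)

theorem analyticAt_cuspFunction_const (a : ℂ) :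
    AnalyticAt ℂ (cuspFunction 1 (fun _ : ℍ => a)) 0 := by
  have hper : Periodic ((fun _ : ℍ => a) ∘ ofComplex) ((1 : ℝ) : ℂ) := fun _ => rfl
  exact UpperHalfPlane.analyticAt_cuspFunction_zero (f := fun _ : ℍ => a) (h := 1) one_pos hper
    mdifferentiable_const (Filter.const_boundedAtFilter atImInfty a)

theorem eq_C_of_forall_eq (hf : HasLaurentQ f c) (hc : ∀ n < 0, c.coeff n = 0) {a : ℂ}
    (ha : ∀ τ, f τ = a) : c = HahnSeries.C a := by
  have hfa : f = fun _ => a := funext ha
  subst hfa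
  refine coeff_unique_nat hf (HasLaurentQ.const a) hc (fun n hn => ?_)
    (analyticAt_cuspFunction_const a)
  rw [HahnSeries.C_apply, HahnSeries.coeff_single_of_ne hn.ne]

end HasLaurentQ

theorem periodic_of_invariant {g : ℍ → ℂ}
    (hinv : ∀ (γ : SL(2, ℤ)) (τ : ℍ), g (γ • τ) = g τ) : Periodic (g ∘ ofComplex) 1 := by
  intro z
  rcases le_or_gt z.im 0 with hz | hz
  · simp [ofComplex_apply_of_im_nonpos hz, ofComplex_apply_of_im_nonpos (w := z + 1) (by simpa)]
  · simp only [Function.comp_apply, ofComplex_apply_of_im_pos hz,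
      ofComplex_apply_of_im_pos (z := z + 1) (by simpa)]
    rw [← hinv ModularGroup.T ⟨z, hz⟩, modular_T_smul]
    congr 1
    ext
    simp [add_comm]

theorem exists_const_of_invariant {g : ℍ → ℂ} (hhol : MDiff g)
    (hinv : ∀ (γ : SL(2, ℤ)) (τ : ℍ), g (γ • τ) = g τ) (hbdd : IsBoundedAtImInfty g) :
    ∃ a, ∀ τ, g τ = a := by
  have hslash : ∀ γ : SL(2, ℤ), g ∣[(0 : ℤ)] γ = g := fun γ => by
    ext τ
    rw [ModularForm.SL_slash_apply, neg_zero, zpow_zero, mul_one]
    exact hinv γ τ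
  let F : ModularForm 𝒮ℒ 0 :=
    { toFun := g
      slash_action_eq' := fun _ ⟨γ, hγ⟩ => hγ ▸ hslash γ
      holo' := hhol
      bdd_at_cusps' := fun {c} hc => by
        rw [Subgroup.IsArithmetic.isCusp_iff_isCusp_SL2Z] at hc
        rw [OnePoint.isBoundedAt_iff_forall_SL2Z hc]
        intro γ _
        rw [hslash γ]
        exact hbdd }
  obtain ⟨a, ha⟩ := ModularFormClass.levelOne_weight_zero_const F
  exact ⟨a, fun τ => congrFun ha τ⟩

theorem hasLaurentQ_jInv_pow (m : ℕ) :
    HasLaurentQ (fun τ => FLTA.Bridge.jInv τ ^ m) (jqModC ℂ ^ m) := by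
  rw [jqModC_pow]
  refine HasLaurentQ.of_shift fun τ => ?_
  have hper : Periodic ((FLTA.Bridge.qMulJ ^ m) ∘ ofComplex) 1 := fun z => by
    simpa using congrArg (· ^ m) (FLTA.Bridge.periodic_qMulJ z)
  have hhol : MDiff (FLTA.Bridge.qMulJ ^ m) := FLTA.Bridge.mdifferentiable_qMulJ.pow m
  have hbdd : IsBoundedAtImInfty (FLTA.Bridge.qMulJ ^ m) := by
    induction m with
    | zero => exact Filter.const_boundedAtFilter atImInfty (1 : ℂ)
    | succ m ih =>
      rw [pow_succ]
      refine Filter.BoundedAtFilter.mul (ih ?_ ?_) FLTA.Bridge.isBoundedAtImInfty_qMulJ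
      · intro z; simpa using congrArg (· ^ m) (FLTA.Bridge.periodic_qMulJ z)
      · exact FLTA.Bridge.mdifferentiable_qMulJ.pow m
  have hq : qExpansion 1 (FLTA.Bridge.qMulJ ^ m) = (jNum.map (Int.castRingHom ℂ)) ^ m := by
    have := UpperHalfPlane.qExpansion_prod (Finset.range m) (h := 1)
      (F := fun _ : ℕ => FLTA.Bridge.qMulJ)
      fun i _ => FLTA.Bridge.analyticAt_cuspFunction_qMulJ
    simpa [FLTA.Bridge.qExpansion_qMulJ] using this
  have := UpperHalfPlane.hasSum_qExpansion one_pos hper hhol hbdd τ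
  simpa [hq, FLTA.Bridge.qMulJ, mul_pow] using this

/-- An invariant holomorphic function with a Laurent expansion is a polynomial in `j`. -/
theorem mem_range_aeval_of_invariant {g : ℍ → ℂ} {c : LaurentSeries ℂ} (hhol : MDiff g)
    (hinv : ∀ (γ : SL(2, ℤ)) (τ : ℍ), g (γ • τ) = g τ) (hg : HasLaurentQ g c) :
    c ∈ (Polynomial.aeval (R := ℂ) (jqModC ℂ)).range := by
  suffices ∀ n : ℕ, ∀ (g : ℍ → ℂ) (c : LaurentSeries ℂ), MDiff g →
      (∀ (γ : SL(2, ℤ)) (τ : ℍ), g (γ • τ) = g τ) → HasLaurentQ g c →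
      (∀ i < -(n : ℤ), c.coeff i = 0) → c ∈ (Polynomial.aeval (R := ℂ) (jqModC ℂ)).range by
    obtain ⟨n, hn⟩ : ∃ n : ℕ, ∀ i < -(n : ℤ), c.coeff i = 0 :=
      ⟨(-c.order).toNat, fun i hi => HahnSeries.coeff_eq_zero_of_lt_order (by omega)⟩
    exact this n g c hhol hinv hg hn
  intro n
  induction n with
  | zero =>
    intro g c hhol hinv hg hc
    have hc' : ∀ i < 0, c.coeff i = 0 := by simpa using hc
    obtain ⟨a, ha⟩ := exists_const_of_invariant hhol hinv
      (isBoundedAtImInfty_of_hasSum_qExpansion one_pos (hg.hasSum_nat hc'))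
    refine ⟨Polynomial.C a, ?_⟩
    rw [hg.eq_C_of_forall_eq hc' ha]
    simp [HahnSeries.algebraMap_apply', HahnSeries.C_apply]
  | succ n ih =>
    intro g c hhol hinv hg hc
    set a := c.coeff (-((n + 1 : ℕ) : ℤ)) with ha
    have h' : c - HahnSeries.C a * jqModC ℂ ^ (n + 1) ∈
        (Polynomial.aeval (R := ℂ) (jqModC ℂ)).range := by
      refine ih (g - fun τ => a * FLTA.Bridge.jInv τ ^ (n + 1)) _
        (hhol.sub (mdifferentiable_const.mul (FLTA.Bridge.mdifferentiable_jInv.pow _))) ?_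
        (hg.sub ((hasLaurentQ_jInv_pow _).const_mul a)) ?_
      · intro γ τ
        show g (γ • τ) - a * FLTA.Bridge.jInv (γ • τ) ^ (n + 1) =
          g τ - a * FLTA.Bridge.jInv τ ^ (n + 1)
        rw [hinv, FLTA.Bridge.jInv_smul]
      · intro i hi
        rcases (show i < -((n + 1 : ℕ) : ℤ) ∨ i = -((n + 1 : ℕ) : ℤ) by omega) with h | h
        · simp [HahnSeries.C_mul_eq_smul, hc i h, coeff_jqModC_pow_of_lt ℂ h]
        · subst h
          rw [HahnSeries.coeff_sub, HahnSeries.C_mul_eq_smul, HahnSeries.coeff_smul,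
            coeff_jqModC_pow_self, smul_eq_mul, mul_one, sub_self]
    have hC : HahnSeries.C a = algebraMap ℂ (LaurentSeries ℂ) a := by
      rw [algebraMap_laurentSeries_eq_single, HahnSeries.C_apply]
    have hp : HahnSeries.C a * jqModC ℂ ^ (n + 1) ∈
        (Polynomial.aeval (R := ℂ) (jqModC ℂ)).range := by
      refine ⟨Polynomial.C a * Polynomial.X ^ (n + 1), ?_⟩
      simp [hC]
    simpa using add_mem h' hp

end FLTA.Igusa
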