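import Fermat.Agent.Igusa.ModPolyAlgebra
import Fermat.Agent.Igusa.PowerSums

/-!
# Construction of the modular polynomial over `ℂ`
-/

set_option autoImplicit false

noncomputable section

open HahnSeries ModularCurve

namespace FLTA.Igusa

/-- The polynomial with the `p + 1` conjugates of `j(q^p)` as roots, in the variable
`t = q^(1/p)`. -/
def rootProd (R : Type*) [CommRing R] (p : ℕ) [NeZero p] (ζ : Rˣ) :
    Polynomial (LaurentSeries R) :=
  (Polynomial.X - Polynomial.C (qExpand R (p * p) (jqModC R))) *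
    ∏ i ∈ Finset.range p, (Polynomial.X - Polynomial.C (jAt (ζ ^ i) 1))

theorem map_rootProd {R S : Type*} [CommRing R] [CommRing S] (φ : R →+* S) (p : ℕ) [NeZero p]
    (ζ : Rˣ) :
    (rootProd R p ζ).map (coeffMap φ) = rootProd S p (Units.map (φ : R →* S) ζ) := by
  simp only [rootProd, Polynomial.map_mul, Polynomial.map_prod, Polynomial.map_sub,
    Polynomial.map_X, Polynomial.map_C, coeffMap_qExpand, coeffMap_jqModC, coeffMap_jAt, map_pow]

/-- Evaluation of integral polynomials at `j(t^p)`. -/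
def evalJp (R : Type*) [CommRing R] (p : ℕ) [NeZero p] : Polynomial ℤ →+* LaurentSeries R :=
  (Polynomial.aeval (R := ℤ) (qExpand R p (jqModC R))).toRingHom

theorem coeffMap_comp_evalJp {R S : Type*} [CommRing R] [CommRing S] (φ : R →+* S) (p : ℕ)
    [NeZero p] : (coeffMap φ).comp (evalJp R p) = evalJp S p := by
  refine Polynomial.ringHom_ext' (RingHom.ext_int _ _) ?_
  simp [evalJp, coeffMap_qExpand, coeffMap_jqModC]

theorem psum_rootProd_roots (p : ℕ) [NeZero p] {ζ : ℂˣ} (hζ : IsPrimitiveRoot ζ p) (m : ℕ) :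
    qExpand ℂ (p * p) (jqModC ℂ) ^ m + ∑ i ∈ Finset.range p, jAt (ζ ^ i) 1 ^ m =
      qExpand ℂ p (uOp p (jqModC ℂ ^ m) + qExpand ℂ p (jqModC ℂ ^ m)) := by
  have h1 : ∀ i : ℕ, jAt (ζ ^ i) 1 ^ m = twist (ζ ^ i) (jqModC ℂ ^ m) := fun i => by
    rw [jAt, qExpand_one_apply, map_pow]
  rw [Finset.sum_congr rfl fun i _ => h1 i, sum_twist_eq hζ, map_add, qExpand_qExpand,
    ← map_pow, add_comm]

theorem exists_modPoly_complex (p : ℕ) [NeZero p] (hp : p.Prime) {ζ : ℂˣ}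
    (hζ : IsPrimitiveRoot ζ p) :
    ∃ Φ : Polynomial (Polynomial ℤ), Φ.Monic ∧ Φ.natDegree = p + 1 ∧
      Φ.map (evalJp ℂ p) = rootProd ℂ p ζ := by
  set r : Fin (p + 1) → LaurentSeries ℂ :=
    Fin.cons (qExpand ℂ (p * p) (jqModC ℂ)) fun i => jAt (ζ ^ (i : ℕ)) 1 with hr
  have hprod : rootProd ℂ p ζ = ∏ i, (Polynomial.X - Polynomial.C (r i)) := by
    rw [rootProd, Fin.prod_univ_succ, hr]
    simp only [Fin.cons_zero, Fin.cons_succ]
    rw [Fin.prod_univ_eq_prod_range (fun i => Polynomial.X - Polynomial.C (jAt (ζ ^ i) 1)) p]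
  have hpsum : ∀ m : ℕ, ∑ i, r i ^ m =
      qExpand ℂ p (uOp p (jqModC ℂ ^ m) + qExpand ℂ p (jqModC ℂ ^ m)) := fun m => by
    rw [← psum_rootProd_roots p hζ, Fin.sum_univ_succ, hr]
    simp only [Fin.cons_zero, Fin.cons_succ]
    rw [Fin.sum_univ_eq_sum_range (fun i => jAt (ζ ^ i) 1 ^ m) p]
  -- polynomials in `j(t^p)` with complex coefficients
  let φC : Polynomial ℂ →+* LaurentSeries ℂ :=
    (qExpand ℂ p).comp (Polynomial.aeval (R := ℂ) (jqModC ℂ)).toRingHom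
  have hC : ∀ k, (rootProd ℂ p ζ).coeff k ∈ φC.range := by
    intro k
    rw [hprod]
    refine coeff_prod_X_sub_C_mem_of_psum_mem _ (fun j hj => ?_) r (fun m => ?_) k
    · refine ⟨φC (Polynomial.C (j : ℂ)⁻¹), ⟨_, rfl⟩, ?_⟩
      rw [← map_natCast φC, ← map_mul, ← map_natCast Polynomial.C, ← map_mul,
        inv_mul_cancel₀ (by exact_mod_cast hj), map_one, map_one]
    · obtain ⟨P, hP⟩ := uOp_add_qExpand_mem_range p hp m
      exact ⟨P, by rw [hpsum]; exact congrArg (qExpand ℂ p) hP⟩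
  -- rational coefficients
  have hQ : ∀ k, (rootProd ℂ p ζ).coeff k ∈ (coeffMap (algebraMap ℚ ℂ)).range := by
    intro k
    rw [hprod]
    refine coeff_prod_X_sub_C_mem_of_psum_mem _ (fun j hj => ?_) r (fun m => ?_) k
    · refine ⟨coeffMap (algebraMap ℚ ℂ) (HahnSeries.C (j : ℚ)⁻¹), ⟨_, rfl⟩, ?_⟩
      rw [← map_natCast (coeffMap (algebraMap ℚ ℂ)), ← map_mul, ← map_natCast HahnSeries.C,
        ← map_mul, inv_mul_cancel₀ (by exact_mod_cast hj), map_one, map_one]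
    · refine ⟨qExpand ℚ p (uOp p (jqModC ℚ ^ m) + qExpand ℚ p (jqModC ℚ ^ m)), ?_⟩
      rw [hpsum, coeffMap_qExpand, map_add, coeffMap_uOp, coeffMap_qExpand, map_pow,
        coeffMap_jqModC]
  -- integral coefficients
  have hζint : IsIntegral ℤ (ζ : ℂ) :=
    (IsPrimitiveRoot.coe_units_iff.mpr hζ).isIntegral (NeZero.pos p)
  let ζ₀ : integralClosure ℤ ℂ := ⟨(ζ : ℂ), hζint⟩
  have hζ₀ : ζ₀ ^ p = 1 := Subtype.ext (by
    simpa [ζ₀] using congrArg Units.val hζ.pow_eq_one)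
  let ζ₁ : (integralClosure ℤ ℂ)ˣ := Units.ofPowEqOne ζ₀ p hζ₀ (NeZero.ne p)
  have hζ₁ : Units.map ((algebraMap (integralClosure ℤ ℂ) ℂ : integralClosure ℤ ℂ →+* ℂ) :
      integralClosure ℤ ℂ →* ℂ) ζ₁ = ζ := Units.ext rfl
  have hO : ∀ k n, IsIntegral ℤ (((rootProd ℂ p ζ).coeff k).coeff n) := by
    intro k n
    rw [← hζ₁, ← map_rootProd, Polynomial.coeff_map, coeffMap_coeff]
    exact (((rootProd _ p ζ₁).coeff k).coeff n).2
  have hZ : rootProd ℂ p ζ ∈ Polynomial.lifts (evalJp ℂ p) := by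
    rw [Polynomial.lifts_iff_coeff_lifts]
    intro k
    obtain ⟨P, hP⟩ := hC k
    obtain ⟨x, hx⟩ := hQ k
    have hint : ∀ n : ℤ, (Polynomial.aeval (jqModC ℂ) P).coeff n ∈ (Int.castRingHom ℂ).range := by
      intro n
      have h1 : (Polynomial.aeval (jqModC ℂ) P).coeff n =
          ((rootProd ℂ p ζ).coeff k).coeff (p * n) := by
        rw [← hP, RingHom.comp_apply, qExpand_coeff_mul]; rfl
      have h2 : IsIntegral ℤ (x.coeff (p * n)) := by
        refine (isIntegral_algebraMap_iff (algebraMap ℚ ℂ).injective).mp ?_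
        rw [← coeffMap_coeff, hx]
        exact hO k _
      obtain ⟨z, hz⟩ := IsIntegrallyClosed.isIntegral_iff.mp h2
      exact ⟨z, by rw [h1, ← hx, coeffMap_coeff, ← hz, eq_intCast, eq_intCast, map_intCast]⟩
    have hPint := mem_lifts_of_coeff_aeval_mem (Int.castRingHom ℂ).range P hint
    obtain ⟨Q, hQ'⟩ : ∃ Q : Polynomial ℤ, Q.map (Int.castRingHom ℂ) = P :=
      (Polynomial.mem_lifts P).mp ((Polynomial.lifts_iff_coeff_lifts P).mpr hPint)
    refine ⟨Q, ?_⟩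
    have hcomp : φC.comp (Polynomial.mapRingHom (Int.castRingHom ℂ)) = evalJp ℂ p := by
      refine Polynomial.ringHom_ext' (RingHom.ext_int _ _) ?_
      simp [φC, evalJp]
    rw [← hcomp, RingHom.comp_apply, Polynomial.coe_mapRingHom, hQ', hP]
  have hmonic : (rootProd ℂ p ζ).Monic := by
    rw [hprod]; exact Polynomial.monic_prod_of_monic _ _ fun i _ => Polynomial.monic_X_sub_C _
  obtain ⟨Φ, hΦ, hdeg, hΦm⟩ := Polynomial.lifts_and_natDegree_eq_and_monic hZ hmonic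
  refine ⟨Φ, hΦm, ?_, hΦ⟩
  rw [hdeg, hprod, Polynomial.natDegree_prod_of_monic _ _ fun i _ => Polynomial.monic_X_sub_C _]
  simp [Polynomial.natDegree_X_sub_C]

end FLTA.Igusa
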