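import Mathlib
import Fermat.Prelude.Def_ModularCurve_IgusaScheme

/-!
# Gluing two integral affine charts: integrality of a base change of the Igusa scheme
-/

set_option autoImplicit false

noncomputable section

open AlgebraicGeometry CategoryTheory CategoryTheory.Limits ModularCurve ModularCurve.IgusaScheme
open scoped TensorProduct

namespace FLTA.Igusa

theorem isIntegral_of_two_opens {X Y₁ Y₂ : Scheme.{0}} (f₁ : Y₁ ⟶ X) (f₂ : Y₂ ⟶ X)
    [IsOpenImmersion f₁] [IsOpenImmersion f₂] [AlgebraicGeometry.IsIntegral Y₁]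
    [AlgebraicGeometry.IsIntegral Y₂]
    (hcov : ∀ x : X, x ∈ Set.range f₁ ∨ x ∈ Set.range f₂)
    (hmeet : (Set.range f₁ ∩ Set.range f₂).Nonempty) : AlgebraicGeometry.IsIntegral X := by
  have hred : AlgebraicGeometry.IsReduced X := by
    haveI : ∀ x : X, _root_.IsReduced (X.presheaf.stalk x) := fun x => by
      rcases hcov x with ⟨y, rfl⟩ | ⟨y, rfl⟩
      · exact isReduced_of_injective (f₁.stalkMap y).hom
          (asIso (f₁.stalkMap y)).commRingCatIsoToRingEquiv.injective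
      · exact isReduced_of_injective (f₂.stalkMap y).hom
          (asIso (f₂.stalkMap y)).commRingCatIsoToRingEquiv.injective
    exact isReduced_of_isReduced_stalk X
  have ho₁ := f₁.isOpenEmbedding
  have ho₂ := f₂.isOpenEmbedding
  -- every nonempty open set meets the overlap
  have key : ∀ W : Set X, IsOpen W → W.Nonempty →
      (W ∩ (Set.range f₁ ∩ Set.range f₂)).Nonempty := by
    intro W hW hWne
    obtain ⟨x, hx⟩ := hWne
    obtain ⟨z, hz⟩ := hmeet
    rcases hcov x with ⟨y, hy⟩ | ⟨y, hy⟩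
    · obtain ⟨y₀, rfl⟩ := hz.1
      obtain ⟨a, ha, ha'⟩ := nonempty_preirreducible_inter (hW.preimage f₁.continuous)
        (ho₂.isOpen_range.preimage f₁.continuous) ⟨y, show f₁ y ∈ W by rw [hy]; exact hx⟩ ⟨y₀, hz.2⟩
      exact ⟨f₁ a, ha, ⟨a, rfl⟩, ha'⟩
    · obtain ⟨y₀, rfl⟩ := hz.2
      obtain ⟨a, ha, ha'⟩ := nonempty_preirreducible_inter (hW.preimage f₂.continuous)
        (ho₁.isOpen_range.preimage f₂.continuous) ⟨y, show f₂ y ∈ W by rw [hy]; exact hx⟩ ⟨y₀, hz.1⟩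
      exact ⟨f₂ a, ha, ha', ⟨a, rfl⟩⟩
  haveI : PreirreducibleSpace X := ⟨fun U V hU hV hUne hVne => by
    rw [Set.univ_inter] at hUne hVne ⊢
    obtain ⟨u, huU, ⟨a, ha⟩, hu2⟩ := key U hU hUne
    obtain ⟨v, hvV, ⟨b, hb⟩, hv2⟩ := key V hV hVne
    obtain ⟨c, hc, hc'⟩ := nonempty_preirreducible_inter (hU.preimage f₁.continuous)
      (hV.preimage f₁.continuous) ⟨a, show f₁ a ∈ U by rw [ha]; exact huU⟩
      ⟨b, show f₁ b ∈ V by rw [hb]; exact hvV⟩
    exact ⟨f₁ c, hc, hc'⟩⟩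
  haveI : IrreducibleSpace X := ⟨⟨hmeet.choose⟩⟩
  exact isIntegral_of_irreducibleSpace_of_isReduced X

variable (N : ℕ) [NeZero N] (ℓ : ℕ) [Fact ℓ.Prime]

set_option quotPrecheck false in
local notation "Rℓ" => ↥(GaloisRep.ratLocalizedAt ℓ)

set_option synthInstance.maxHeartbeats 200000 in
/-- If both base-changed charts are domains and the overlap is nonzero, the base change of the
Igusa scheme is integral. -/
theorem isIntegral_pullback_igusaTo (K : Type) [CommRing K]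
    [Algebra ↥(GaloisRep.ratLocalizedAt ℓ) K]
    (hFin : IsDomain (↥(chartAlgFin N ℓ) ⊗[↥(GaloisRep.ratLocalizedAt ℓ)] K))
    (hInf : IsDomain (↥(chartAlgInf N ℓ) ⊗[↥(GaloisRep.ratLocalizedAt ℓ)] K))
    (hMid : Nontrivial (↥(chartAlgMid N ℓ) ⊗[↥(GaloisRep.ratLocalizedAt ℓ)] K)) :
    AlgebraicGeometry.IsIntegral ↑(pullback (igusaTo N ℓ)
      (Spec.map (CommRingCat.ofHom (algebraMap ↥(GaloisRep.ratLocalizedAt ℓ) K)))) := by
  let g := Spec.map (CommRingCat.ofHom (algebraMap Rℓ K))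
  let p := pullback.fst (igusaTo N ℓ) g
  let eFin : pullback (ιFin N ℓ) p ≅ Spec (CommRingCat.of (↥(chartAlgFin N ℓ) ⊗[Rℓ] K)) :=
    pullbackRightPullbackFstIso (igusaTo N ℓ) g (ιFin N ℓ) ≪≫
      pullback.congrHom (ιFin_igusaTo N ℓ) rfl ≪≫ pullbackSpecIso Rℓ ↥(chartAlgFin N ℓ) K
  let eInf : pullback (ιInf N ℓ) p ≅ Spec (CommRingCat.of (↥(chartAlgInf N ℓ) ⊗[Rℓ] K)) :=
    pullbackRightPullbackFstIso (igusaTo N ℓ) g (ιInf N ℓ) ≪≫
      pullback.congrHom (ιInf_igusaTo N ℓ) rfl ≪≫ pullbackSpecIso Rℓ ↥(chartAlgInf N ℓ) K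
  haveI := hFin
  haveI := hInf
  haveI : AlgebraicGeometry.IsIntegral (pullback (ιFin N ℓ) p) :=
    haveI : Nonempty ↑(pullback (ιFin N ℓ) p) := ⟨eFin.inv (PrimeSpectrum.nonempty_iff_nontrivial.mpr hFin.toNontrivial).some⟩
    isIntegral_of_isOpenImmersion eFin.hom
  haveI : AlgebraicGeometry.IsIntegral (pullback (ιInf N ℓ) p) :=
    haveI : Nonempty ↑(pullback (ιInf N ℓ) p) := ⟨eInf.inv (PrimeSpectrum.nonempty_iff_nontrivial.mpr hInf.toNontrivial).some⟩
    isIntegral_of_isOpenImmersion eInf.hom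
  have hrF : Set.range (pullback.snd (ιFin N ℓ) p) = p ⁻¹' Set.range (ιFin N ℓ) :=
    IsOpenImmersion.range_pullbackSnd _ _
  have hrI : Set.range (pullback.snd (ιInf N ℓ) p) = p ⁻¹' Set.range (ιInf N ℓ) :=
    IsOpenImmersion.range_pullbackSnd _ _
  refine isIntegral_of_two_opens (pullback.snd (ιFin N ℓ) p) (pullback.snd (ιInf N ℓ) p) ?_ ?_
  · intro x
    rw [hrF, hrI]
    exact mem_range_ιFin_or_mem_range_ιInf N ℓ (p x)
  · let sMid := Spec.map (CommRingCat.ofHom (algebraMap Rℓ ↥(chartAlgMid N ℓ)))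
    have hmid : sMid ≫ 𝟙 _ = (fFin N ℓ ≫ ιFin N ℓ) ≫ igusaTo N ℓ := by
      rw [Category.comp_id, Category.assoc, ιFin_igusaTo, ← Spec.map_comp]
      rfl
    let m : pullback sMid g ⟶ pullback (igusaTo N ℓ) g :=
      pullback.map sMid g (igusaTo N ℓ) g (fFin N ℓ ≫ ιFin N ℓ) (𝟙 _) (𝟙 _) hmid
        (by rw [Category.comp_id, Category.id_comp])
    let z : ↑(pullback sMid g) :=
      (pullbackSpecIso Rℓ ↥(chartAlgMid N ℓ) K).inv
        (PrimeSpectrum.nonempty_iff_nontrivial.mpr hMid).some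
    refine ⟨m z, ?_⟩
    have hp : p (m z) = (fFin N ℓ ≫ ιFin N ℓ) (pullback.fst sMid g z) := by
      have h : m ≫ p = pullback.fst sMid g ≫ fFin N ℓ ≫ ιFin N ℓ := pullback.lift_fst _ _ _
      simpa only [Scheme.Hom.comp_apply] using
        congrArg (fun q : pullback sMid g ⟶ ModularCurve.IgusaScheme N ℓ => q z) h
    rw [hrF, hrI, Set.mem_inter_iff, Set.mem_preimage, Set.mem_preimage]
    refine ⟨⟨fFin N ℓ (pullback.fst sMid g z), ?_⟩, ⟨fInf N ℓ (pullback.fst sMid g z), ?_⟩⟩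
    · rw [hp, Scheme.Hom.comp_apply]
    · rw [hp, glue_condition, Scheme.Hom.comp_apply]

end FLTA.Igusa
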